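import Mathlib
import Fermat.Agent.LG.LG2
import Fermat.Agent.LG.Swap4
import Fermat.Agent.CD.LdB
import Fermat.Agent.Flat.Conc3

/-!
Descent of integrality; local data over a large field.
-/

set_option autoImplicit false
set_option linter.unusedSectionVars false

open Fermat.Agent.ModFun IntermediateField Fermat.Agent.Geo IsLocalRing Fermat.Agent.ESCore
open Fermat.Agent.LG Fermat.Agent.Flat ModularCurve
open CongruenceSubgroup (Gamma0 Gamma0_mem)
open scoped MatrixGroups IntermediateField.algebraAdjoinAdjoin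

noncomputable section

namespace Fermat.Agent.MP

local notation "Qb" => AlgebraicClosure ℚ
local notation "GQ" => (AlgebraicClosure ℚ ≃ₐ[ℚ] AlgebraicClosure ℚ)

variable {A : ValuationSubring Qb}

theorem mem_of_C_mem_gA {c : Qb} (h : (HahnSeries.C c : LaurentSeries Qb) ∈ gA A) : c ∈ A := by
  obtain ⟨a, b, hb, hab⟩ := h
  obtain ⟨n, hn⟩ : ∃ n, (lK A b).coeff n ≠ 0 := by
    by_contra hcon
    push Not at hcon
    exact hb (by ext n; rw [HahnSeries.coeff_zero]; exact hcon n)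
  have hu : IsUnit (b.coeff n) := (residue_ne_zero_iff_isUnit _).mp hn
  obtain ⟨u, hu⟩ := hu
  have h1 := congrArg (fun z : LaurentSeries Qb => z.coeff n) hab
  simp only [mul_comm (lA A b), HahnSeries.C_mul_eq_smul, HahnSeries.coeff_smul, lA_coeff,
    smul_eq_mul] at h1
  have h2 : ((b.coeff n : A) : Qb) * (((u⁻¹ : Aˣ) : A) : Qb) = 1 := by
    rw [← hu]
    exact congrArg Subtype.val u.mul_inv
  have h3 : c = ((a.coeff n : A) : Qb) * (((u⁻¹ : Aˣ) : A) : Qb) := by
    rw [← h1, mul_assoc, h2, mul_one]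
  rw [h3]
  exact mul_mem (a.coeff n).2 ((u⁻¹ : Aˣ) : A).2

section Desc

variable {L : IntermediateField ℚ Qb} [IsDiscreteValuationRing (OL A L)] {N : ℕ} [NeZero N]

theorem exists_toL_norm {a : LaurentSeries L} (ha : a ∈ A0 L N) (ha0 : a ≠ 0) :
    ∃ c : L, c ≠ 0 ∧ ∃ α : LaurentSeries (OL A L), toL (OL A L) L α = HahnSeries.C c * a ∧
      toK (OL A L) α ≠ 0 := by
  obtain ⟨c, hc0, ⟨α, hα⟩, n, hn⟩ := CD.exists_norm_dvr (OL A L) ha ha0
  refine ⟨c, hc0, α, hα, fun h0 => ?_⟩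
  have h1 : ((α.coeff n : OL A L) : L) = 1 := by
    rw [← hn, ← hα]
    rfl
  have h2 : residue (OL A L) (α.coeff n) = 0 :=
    congrArg (fun z : LaurentSeries (ResidueField (OL A L)) => z.coeff n) h0
  have h3 : α.coeff n = 1 := Subtype.ext h1
  rw [h3, map_one] at h2
  exact one_ne_zero h2

theorem gV_of_gA {x : F0 L N}
    (hx : coeffMap (algebraMap L Qb) (x : LaurentSeries L) ∈ gA A) :
    (x : LaurentSeries L) ∈ gV (OL A L) L := by
  by_cases hx0 : x = 0
  · rw [hx0]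
    exact zero_mem _
  obtain ⟨a, b, hb, hab⟩ := IsFractionRing.div_surjective
    (A := Algebra.adjoin L (gens L N)) x
  have hb0 : b ≠ 0 := nonZeroDivisors.ne_zero hb
  have hb0' : (b : LaurentSeries L) ≠ 0 := fun h => hb0 (Subtype.ext h)
  have hxab : (x : LaurentSeries L) = (a : LaurentSeries L) / (b : LaurentSeries L) :=
    (congrArg (fun z : F0 L N => (z : LaurentSeries L)) hab).symm
  have ha0' : (a : LaurentSeries L) ≠ 0 := by
    intro h0
    rw [h0, zero_div] at hxab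
    exact hx0 (Subtype.ext hxab)
  obtain ⟨c, hc, α, hα, hα0⟩ := exists_toL_norm (A := A) a.2 ha0'
  obtain ⟨c', hc', β, hβ, hβ0⟩ := exists_toL_norm (A := A) b.2 hb0'
  have hC : ∀ {c : L}, c ≠ 0 → (HahnSeries.C c : LaurentSeries L) ≠ 0 := fun hc h => hc (by
    rw [← map_zero (HahnSeries.C : L →+* LaurentSeries L)] at h
    exact HahnSeries.C_injective h)
  have hβ' : toL (OL A L) L β ≠ 0 := by
    rw [hβ]; exact mul_ne_zero (hC hc') hb0'
  obtain ⟨u, hu⟩ : ∃ u, u = toL (OL A L) L α / toL (OL A L) L β := ⟨_, rfl⟩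
  have huV : u ∈ gV (OL A L) L := ⟨α, β, hβ0, by rw [hu, mul_div_cancel₀ _ hβ']⟩
  have hgu : gR (⟨u, huV⟩ : gV (OL A L) L) ≠ 0 := by
    rw [gR_eq (a := α) (b := β) hβ0 (by
      change toL (OL A L) L β * u = _
      rw [hu, mul_div_cancel₀ _ hβ'])]
    exact div_ne_zero hα0 hβ0
  obtain ⟨d, hd⟩ : ∃ d, d = c⁻¹ * c' := ⟨_, rfl⟩
  have hxu : (x : LaurentSeries L) = HahnSeries.C d * u := by
    have h1 := hC hc
    have h2 := hC hc'
    rw [hxab, hu, hα, hβ, hd, map_mul, map_inv₀]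
    field_simp
  obtain ⟨huA, hguA⟩ := mem_gA_of_gV (A := A) (L := L) huV
  have hguA0 : gAR (⟨_, huA⟩ : gA A) ≠ 0 := by
    rw [hguA]
    exact (map_ne_zero_iff _ (coeffMap_inj subK.injective)).mpr hgu
  have h3 := inv_mem_gA (x := ⟨_, huA⟩) hguA0
  have hu0 : coeffMap (algebraMap L Qb) u ≠ 0 := by
    intro h0
    apply hguA0
    have : (⟨coeffMap (algebraMap L Qb) u, huA⟩ : gA A) = 0 := Subtype.ext h0
    rw [this, map_zero]
  have h4 : (HahnSeries.C (algebraMap L Qb d) : LaurentSeries Qb) ∈ gA A := by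
    have h5 : (HahnSeries.C (algebraMap L Qb d) : LaurentSeries Qb) =
        coeffMap (algebraMap L Qb) (x : LaurentSeries L) * (coeffMap (algebraMap L Qb) u)⁻¹ := by
      rw [hxu, map_mul, mul_assoc, mul_inv_cancel₀ hu0, mul_one, HahnSeries.C_apply,
        HahnSeries.C_apply, coeffMap_single]
    rw [h5]
    exact mul_mem hx h3
  have h6 : (d : L) ∈ OL A L := mem_of_C_mem_gA h4
  rw [hxu]
  refine mul_mem ?_ huV
  have h7 : (HahnSeries.C d : LaurentSeries L) =
      toL (OL A L) L (HahnSeries.C (⟨d, h6⟩ : OL A L)) := by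
    rw [HahnSeries.C_apply, HahnSeries.C_apply]
    exact (coeffMap_single (algebraMap (OL A L) L) 0 (⟨d, h6⟩ : OL A L)).symm
  rw [h7]
  exact toL_mem_gV _

/-- Functions congruent to one. -/
theorem exists_one_add {π : OL A L} (hπ : Prime π) {x : F0 L N}
    (hx : coeffMap (algebraMap L Qb) (x : LaurentSeries L) ∈ gA A)
    (h1 : gAR (⟨_, hx⟩ : gA A) = 1) :
    ∃ v ∈ gF (L := L) (N := N) (OL A L), x = 1 + piF π * v := by
  have hxV := gV_of_gA hx
  obtain ⟨hA, hgA⟩ := mem_gA_of_gV (A := A) (L := L) hxV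
  have h2 : gR (⟨(x : LaurentSeries L), hxV⟩ : gV (OL A L) L) = 1 := by
    apply coeffMap_inj (f := subK (A := A) (L := L)) subK.injective
    rw [← hgA, map_one]
    exact h1
  have h1V : ((1 : F0 L N) : LaurentSeries L) ∈ gV (OL A L) L := one_mem _
  have h3 : gR (⟨((1 : F0 L N) : LaurentSeries L), h1V⟩ : gV (OL A L) L) = 1 := by
    have : (⟨((1 : F0 L N) : LaurentSeries L), h1V⟩ : gV (OL A L) L) = 1 := Subtype.ext rfl
    rw [this, map_one]
  obtain ⟨v, hv, h4⟩ := div_eq_one_add hπ hxV h1V (by rw [h3]; exact one_ne_zero) (h2.trans h3.symm)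
  rw [div_one] at h4
  exact ⟨v, hv, h4⟩

end Desc

end Fermat.Agent.MP
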