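import Mathlib
import Fermat.Agent.MP.End1

/-!
The end: toric classes.
-/

set_option autoImplicit false
set_option linter.unusedSectionVars false

open Fermat.Agent.ModFun IntermediateField Fermat.Agent.Geo IsLocalRing Fermat.Agent.ESCore
open Fermat.Agent.LG Fermat.Agent.Flat
open CongruenceSubgroup (Gamma0 Gamma0_mem)
open scoped MatrixGroups IntermediateField.algebraAdjoinAdjoin

noncomputable section

namespace Fermat.Agent.MP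

local notation "Qb" => AlgebraicClosure ℚ
local notation "GQ" => (AlgebraicClosure ℚ ≃ₐ[ℚ] AlgebraicClosure ℚ)

/-- The local data used below. -/
theorem exists_local_data' {A : ValuationSubring Qb} {q : ℕ} (hq : q.Prime)
    (hA : A.LiesOverPrime q) {M N : ℕ} [NeZero q] [NeZero M] [NeZero N] (B : Bez q M)
    (hN : N = q * M) {m : ℕ} (hm : 0 < m) {χ : XG N m} (hχ : IsPar χ.1) {ε : ℤ}
    (hε : ε = 1 ∨ ε = -1) (hqN : q ∣ N)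
    (hU : heckeXU hq.ne_zero hqN m χ = χ ^ ε) (hW : B.wChar dvd_rfl hN χ.1 = (χ ^ (-ε)).1)
    {yQ : LaurentSeries Qb} (hyQ0 : yQ ≠ 0) (hyQ : XSer ιC N χ.1 yQ) (S₀ : Finset Qb) :
    ∃ L : IntermediateField ℚ Qb, Ar A q L ∧ (∀ ζ : Qb, ζ ^ m = 1 → ζ ∈ L) ∧ (∀ x ∈ S₀, x ∈ L) ∧
      ∃ ζ : (OL A L)ˣ, IsPrimitiveRoot ζ q ∧
        ∃ (_ : IsDiscreteValuationRing (OL A L)) (y : LaurentSeries L)
          (hy : XSer (ιL L) N χ.1 y) (_ : y ≠ 0)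
          (_ : ModularCurve.coeffMap (algebraMap L Qb) y = yQ),
        ∃ f f' : F0 L N, f ≠ 0 ∧ f' ≠ 0 ∧
          (∀ hζ : IsPrimitiveRoot (zL L ζ) q,
            uF (ιL L) hqN hζ ⟨y ^ m, hy.pow_mem_F0 χ.2.1⟩ =
              f ^ m * (⟨y ^ m, hy.pow_mem_F0 χ.2.1⟩ : F0 L N) ^ ε) ∧
          B.wF (ιL L) hq hN ⟨y ^ m, hy.pow_mem_F0 χ.2.1⟩ =
              f' ^ m * (⟨y ^ m, hy.pow_mem_F0 χ.2.1⟩ : F0 L N) ^ (-ε) := by
  classical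
  have hm0 : NeZero m := ⟨hm.ne'⟩
  obtain ⟨zQ, hzQ, hzm⟩ := B.exists_wSer hq hN hχ hm χ.2.1 hyQ
  have hwm : (B.wChar dvd_rfl hN χ.1) ^ m = 1 := by
    rw [hW]
    exact (χ ^ (-ε)).2.1
  obtain ⟨S₁, hS₁⟩ := hyQ.finCoef hm χ.2.1
  obtain ⟨S₂, hS₂⟩ := hzQ.finCoef hm hwm
  obtain ⟨ζ₀, hζ₀⟩ : ∃ ζ₀ : Qb, IsPrimitiveRoot ζ₀ m := by
    have : NeZero (m : Qb) := ⟨by exact_mod_cast hm.ne'⟩
    exact HasEnoughRootsOfUnity.exists_primitiveRoot Qb m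
  obtain ⟨ζ₁, hζ₁⟩ : ∃ ζ₁ : Qb, IsPrimitiveRoot ζ₁ q := by
    have : NeZero (q : Qb) := ⟨by exact_mod_cast hq.ne_zero⟩
    exact HasEnoughRootsOfUnity.exists_primitiveRoot Qb q
  obtain ⟨L, h, hL⟩ := Ar.exists_of_finset hq hA (S₁ ∪ S₂ ∪ {ζ₀, ζ₁} ∪ S₀)
  have hdvr := h.dvr
  have hL1 : ∀ x ∈ S₁, x ∈ L := fun x hx => hL x (by simp [hx])
  have hL2 : ∀ x ∈ S₂, x ∈ L := fun x hx => hL x (by simp [hx])
  have hζ₀L : ζ₀ ∈ L := hL _ (by simp)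
  have hζ₁L : ζ₁ ∈ L := hL _ (by simp)
  have hζ₁0 : ζ₁ ≠ 0 := hζ₁.ne_zero hq.ne_zero
  obtain ⟨y, hyy, hy⟩ := hyQ.descend (L := L) (FinCoef.mem hS₁ hL1)
  obtain ⟨z, hzz, hz⟩ := hzQ.descend (L := L) (FinCoef.mem hS₂ hL2)
  have hy0 : y ≠ 0 := by
    rintro rfl
    exact hyQ0 (hyy.symm.trans (map_zero _))
  -- the root of unity
  have hζO : (⟨ζ₁, hζ₁L⟩ : L) ∈ OL A L := root_mem_val A hq.pos hζ₁.pow_eq_one
  have hζO' : (⟨ζ₁, hζ₁L⟩ : L)⁻¹ ∈ OL A L := by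
    have h1 : ((⟨ζ₁, hζ₁L⟩ : L)⁻¹ : L) = (⟨ζ₁, hζ₁L⟩ : L) ^ (q - 1) := by
      apply Subtype.ext
      change ζ₁⁻¹ = ζ₁ ^ (q - 1)
      apply inv_eq_of_mul_eq_one_right
      rw [← pow_succ', Nat.sub_add_cancel hq.one_lt.le, hζ₁.pow_eq_one]
    rw [h1]
    exact pow_mem hζO _
  have hζL0 : (⟨ζ₁, hζ₁L⟩ : L) ≠ 0 := fun h0 => hζ₁0 (congrArg Subtype.val h0)
  let ζ : (OL A L)ˣ := ⟨⟨_, hζO⟩, ⟨_, hζO'⟩, Subtype.ext (mul_inv_cancel₀ hζL0),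
    Subtype.ext (inv_mul_cancel₀ hζL0)⟩
  have hζ : IsPrimitiveRoot ζ q := by
    rw [← IsPrimitiveRoot.coe_units_iff]
    exact IsPrimitiveRoot.of_map_of_injective
      (f := ((algebraMap L Qb).comp (OL A L).subtype)) hζ₁
      ((algebraMap L Qb).injective.comp Subtype.coe_injective)
  have hch : (⟨y ^ m, hy.pow_mem_F0 χ.2.1⟩ : F0 L N) ≠ 0 := fun h0 =>
    pow_ne_zero m hy0 (congrArg Subtype.val h0)
  -- the operator `w`
  have hwrel : B.wF (ιL L) hq hN ⟨y ^ m, hy.pow_mem_F0 χ.2.1⟩ = ⟨z ^ m, hz.pow_mem_F0 hwm⟩ := by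
    apply Subtype.ext
    apply RingHom.injective (ModularCurve.coeffMap (algebraMap L Qb))
    have h1 := B.wF_coeffMap hq hN (ιL L) ιC (algebraMap L Qb)
      (h := ⟨y ^ m, hy.pow_mem_F0 χ.2.1⟩) (h' := ⟨yQ ^ m, hyQ.pow_mem_F0 χ.2.1⟩) (by
        change ModularCurve.coeffMap (algebraMap L Qb) (y ^ m) = yQ ^ m
        rw [map_pow, hyy])
    rw [h1, ← hzm, ← hzz, ← map_pow]
  have hz0 : z ≠ 0 := by
    rintro rfl
    have h2 := wF_ne_zero B hq hN (ιL L) hch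
    rw [hwrel] at h2
    exact h2 (Subtype.ext (zero_pow hm.ne'))
  obtain ⟨f', hf', hf'2⟩ := rel_pow hm χ.2.1 hwm hy hy0 hz hz0 (ε := -ε) (by
    rw [hW]
    rcases hε with rfl | rfl
    · right
      exact ⟨rfl, by rw [zpow_neg_one]; rfl⟩
    · left
      exact ⟨rfl, by rw [neg_neg, zpow_one]⟩)
  -- the operator `U`
  have hzprim := zL_prim (L := L) hζ
  have hu := hy.uN hq.ne_zero hqN hzprim
  have hU' : heckeCharU hq.ne_zero hqN χ.1 = (χ ^ ε).1 := congrArg Subtype.val hU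
  have hum : (heckeCharU hq.ne_zero hqN χ.1) ^ m = 1 := by
    rw [hU']
    exact (χ ^ ε).2.1
  have hu0 : uN q (zL L ζ) y ≠ 0 := by
    intro h0
    have h4 : uN q (zL L ζ) (y * y⁻¹) = 0 := by rw [uN_mul hzprim, h0, zero_mul]
    rw [mul_inv_cancel₀ hy0, uN_one hzprim] at h4
    exact one_ne_zero h4
  obtain ⟨f, hf, hf2⟩ := rel_pow hm χ.2.1 hum hy hy0 hu hu0 (ε := ε) (by
    rw [hU']
    rcases hε with rfl | rfl
    · left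
      exact ⟨rfl, by rw [zpow_one]⟩
    · right
      exact ⟨rfl, by rw [zpow_neg_one]; rfl⟩)
  refine ⟨L, h, fun ξ hξ => ?_, fun x hx => hL x (by simp [hx]), ζ, hζ, hdvr, y, hy, hy0, hyy,
    f, f', hf, hf', fun _ => ?_, hwrel.trans hf'2⟩
  · obtain ⟨i, -, rfl⟩ := hζ₀.eq_pow_of_pow_eq_one hξ
    exact pow_mem hζ₀L _
  · rw [← hf2]
    exact Subtype.ext (uN_pow hzprim y m)


/-- descent of functions -/
theorem exists_finset_F0 {N : ℕ} [NeZero N] {z : LaurentSeries Qb} (hz : z ∈ F0 Qb N) :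
    ∃ S : Finset Qb, ∀ L : IntermediateField ℚ Qb, (∀ s ∈ S, s ∈ L) →
      ∃ z' ∈ F0 L N, ModularCurve.coeffMap (algebraMap L Qb) z' = z := by
  classical
  obtain ⟨a, b, hb, hab⟩ := IsFractionRing.div_surjective
    (A := Algebra.adjoin Qb (gens Qb N)) (⟨z, hz⟩ : IntermediateField.adjoin Qb (gens Qb N))
  obtain ⟨S, hS⟩ := CD.exists_finset a.2
  obtain ⟨T, hT⟩ := CD.exists_finset b.2
  refine ⟨S ∪ T, fun L hL => ?_⟩
  obtain ⟨a', ha', ha⟩ := hS L fun s hs => hL s (Finset.mem_union_left _ hs)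
  obtain ⟨b', hb', hb⟩ := hT L fun s hs => hL s (Finset.mem_union_right _ hs)
  have hle : ∀ x ∈ A0 L N, x ∈ F0 L N := fun x hx =>
    IntermediateField.algebra_adjoin_le_adjoin _ _ hx
  refine ⟨a' / b', div_mem (hle a' ha') (hle b' hb'), ?_⟩
  rw [map_div₀, ha, hb]
  exact congrArg (fun z : IntermediateField.adjoin Qb (gens Qb N) =>
      (z : LaurentSeries Qb)) hab

/-- **The end.** A class whose Kummer generator reduces to a power is toric. -/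
theorem toric_of_pow {A : ValuationSubring Qb} {q : ℕ} (hq : q.Prime) (hA : A.LiesOverPrime q)
    {M N : ℕ} [NeZero q] [NeZero M] [NeZero N] (B : Bez q M) (hN : N = q * M) (hqM : ¬ q ∣ M)
    (hlev : GoodLev q M) {m : ℕ} (hm : 0 < m) {χ : XG N m} (hχ : IsPar χ.1)
    {ε : ℤ} (hε : ε = 1 ∨ ε = -1) (hqN : q ∣ N) (hU : heckeXU hq.ne_zero hqN m χ = χ ^ ε)
    (hW : B.wChar dvd_rfl hN χ.1 = (χ ^ (-ε)).1)
    {yQ : LaurentSeries Qb} (hyQ0 : yQ ≠ 0) (hyQ : XSer ιC N χ.1 yQ)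
    {z : LaurentSeries Qb} (hz : z ∈ F0 Qb N) (hzA : z ^ m * yQ ^ m ∈ gA A)
    (hz1 : gAR (⟨_, hzA⟩ : gA A) = 1)
    {σ : GQ} (hσ : σ ∈ A.inertiaSubgroupIn ℚ)
    {c : ℕ} (hcyc : ∀ ζ : Qb, ζ ^ m = 1 → σ ζ = ζ ^ c) :
    galX N hm σ χ = χ ^ c := by
  obtain ⟨S₀, hS₀⟩ := exists_finset_F0 hz
  obtain ⟨L, h, hμ, hL, ζ, hζ, hdvr, y, hy, hy0, hyy, f, f', hf, hf', hUf, hWf⟩ :=
    exists_local_data' hq hA B hN hm hχ hε hqN hU hW hyQ0 hyQ S₀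
  obtain ⟨z', hz', hzz⟩ := hS₀ L hL
  obtain ⟨π, hπ⟩ := IsDiscreteValuationRing.exists_prime (OL A L)
  have hεε : ε * ε = 1 := by rcases hε with rfl | rfl <;> norm_num
  have i2 := h.expChar_residue
  obtain ⟨hc, hhc⟩ : ∃ hc : F0 L N, hc = ⟨y ^ m, hy.pow_mem_F0 χ.2.1⟩ := ⟨_, rfl⟩
  have hch : hc ≠ 0 := fun h0 => pow_ne_zero m hy0 (congrArg Subtype.val (hhc.symm.trans h0))
  obtain ⟨g, hg⟩ : ∃ g : F0 L N, g = ⟨z', hz'⟩ := ⟨_, rfl⟩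
  have hcoe : ModularCurve.coeffMap (algebraMap L Qb) ((g ^ m * hc : F0 L N) : LaurentSeries L) =
      z ^ m * yQ ^ m := by
    have e1 : ((g ^ m * hc : F0 L N) : LaurentSeries L) = z' ^ m * y ^ m := by
      rw [hg, hhc]; rfl
    rw [e1, map_mul, map_pow, map_pow, hzz, hyy]
  have hx : ModularCurve.coeffMap (algebraMap L Qb) ((g ^ m * hc : F0 L N) : LaurentSeries L) ∈
      gA A := by rw [hcoe]; exact hzA
  have hx1 : gAR (⟨_, hx⟩ : gA A) = 1 := by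
    have : (⟨_, hx⟩ : gA A) = ⟨_, hzA⟩ := Subtype.ext hcoe
    rw [this, hz1]
  obtain ⟨v, hv, hv1⟩ := exists_one_add hπ hx hx1
  have hg0 : g ≠ 0 := by
    rintro rfl
    rw [zero_pow hm.ne', zero_mul] at hcoe
    have h0 : z ^ m * yQ ^ m = 0 := by rw [← hcoe]; exact map_zero _
    have h2 : (⟨_, hzA⟩ : gA A) = 0 := Subtype.ext h0
    rw [h2, map_zero] at hz1
    exact zero_ne_one hz1
  obtain ⟨Φ, hΦ⟩ : ∃ Φ, Φ = uF (ιL L) hqN (zL_prim (L := L) hζ) := ⟨_, rfl⟩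
  have hUf' := hUf (zL_prim hζ)
  rw [← hΦ, ← hhc] at hUf'
  have hΦg : Φ g ≠ 0 := (map_ne_zero Φ).mpr hg0
  have hΦx : Φ (g ^ m * hc) = (Φ g * f * g ^ (-ε)) ^ m * (g ^ m * hc) ^ ε := by
    rw [map_mul, map_pow, hUf', mul_zpow, mul_pow, mul_pow, ← zpow_natCast (g ^ (-ε)),
      ← zpow_natCast g m, ← zpow_mul g, ← zpow_mul g]
    have e1 : g ^ (-ε * (m : ℤ)) * g ^ ((m : ℤ) * ε) = 1 := by
      rw [← zpow_add₀ hg0]
      have : -ε * (m : ℤ) + (m : ℤ) * ε = 0 := by ring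
      rw [this, zpow_zero]
    linear_combination (-(Φ g) ^ m * f ^ m * hc ^ ε) * e1
  obtain ⟨F1, hF1⟩ : ∃ F1, F1 = Φ g * f * g ^ (-ε) := ⟨_, rfl⟩
  have hF10 : F1 ≠ 0 := by
    rw [hF1]; exact mul_ne_zero (mul_ne_zero hΦg hf) (zpow_ne_zero _ hg0)
  rw [← hF1] at hΦx
  have hxne : g ^ m * hc ≠ 0 := mul_ne_zero (pow_ne_zero _ hg0) hch
  have hrel : g ^ m * hc = (F1 ^ (-ε)) ^ m * (Φ (g ^ m * hc)) ^ ε := by
    rw [hΦx, mul_zpow, ← zpow_mul (g ^ m * hc), hεε, zpow_one, ← zpow_natCast (F1 ^ (-ε)),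
      ← zpow_mul F1, ← zpow_natCast F1 m, ← zpow_mul F1, ← mul_assoc, ← zpow_add₀ hF10]
    have : -ε * (m : ℤ) + (m : ℤ) * ε = 0 := by ring
    rw [this, zpow_zero, one_mul]
  have hSpx : Sp π m (g ^ m * hc) := by
    rw [hv1, hΦ] at hrel
    rw [hv1]
    exact contract_sp (ι := ιL L) hq h.natCast_residue hqN hζ hπ hv (zpow_ne_zero _ hF10) hrel
  have hSp : Sp π m hc := by
    have h2 := Sp.mul_pow_self (inv_ne_zero hg0) hSpx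
    rwa [inv_pow, inv_mul_cancel_left₀ (pow_ne_zero _ hg0)] at h2
  have hSpw : Sp π m (B.wF (ιL L) hq hN hc) := by
    rw [hhc, hWf, ← hhc]
    exact Sp.mul_pow_self hf' (hSp.zpow hπ _)
  refine cstar (B := B) (hq := hq) (hN := hN) h hqM hlev hm hμ hπ (χ := χ) ⟨hχ, χ.2.1, y, hy, hy0, ?_, ?_⟩ (Or.inl hσ) hcyc
  · rw [← hhc]; exact hSp
  · rw [← hhc]; exact hSpw

end Fermat.Agent.MP
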