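import Mathlib
import Fermat.Agent.NF.New2
import Fermat.Agent.MZ.ParPow

/-!
`U_p` and `w_p` on the parabolic characters of level `4p`.
-/

set_option autoImplicit false
set_option linter.unusedSectionVars false

open Matrix CongruenceSubgroup
open Fermat.Agent.RT.Ihara Fermat.Agent.NF Fermat.Agent.ESCore
open Multiplicative (toAdd ofAdd)
open scoped MatrixGroups

noncomputable section

namespace Fermat.Agent.MP

section Parab

variable {A : Type*} [AddCommGroup A] {G₁ G₂ : Subgroup SL(2, ℤ)}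

theorem sum_eq_zero_of_orbits {X B : Type*} [Fintype X] [AddCommGroup B] (s : X → X)
    (hs : Function.Injective s) (c : X → B)
    (h : ∀ x n, 0 < n → s^[n] x = x → ∑ i ∈ Finset.range n, c (s^[i] x) = 0) :
    ∑ x, c x = 0 := by
  have h1 := MZ.prod_eq_one_of_orbits (B := Multiplicative B) s hs (fun x => ofAdd (c x))
    (fun x n hn hx => by
      rw [← ofAdd_sum, h x n hn hx]
      rfl)
  rw [← ofAdd_sum] at h1
  exact h1

/-- The transfer of a parabolic homomorphism is parabolic. -/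
theorem parab_opc {ι : Type*} [Fintype ι] {D : ι → Mat} (H : Corr G₁ G₂ D)
    {c : SL(2, ℤ) → A} (hc : AddOn G₁ c) (hp : Parab G₁ c) : Parab G₂ (opc G₁ D c) := by
  intro g hg ht
  obtain ⟨σ, γ, hγ, e⟩ := H.exists_perm hg
  rw [H.opc_eq hc hg hγ e]
  refine sum_eq_zero_of_orbits (fun x => σ x) σ.injective (fun x => c (γ x)) ?_
  intro x n hn hx
  have hit : ∀ k : ℕ, ∃ γ' ∈ G₁, D x * ((g ^ k : SL(2, ℤ)) : Mat) =
      (γ' : Mat) * D ((fun x => σ x)^[k] x) ∧
      c γ' = ∑ i ∈ Finset.range k, c (γ ((fun x => σ x)^[i] x)) := by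
    intro k
    induction k with
    | zero => exact ⟨1, one_mem _, by simp, by rw [hc.one]; simp⟩
    | succ k ih =>
      obtain ⟨γ', hγ', e', hs⟩ := ih
      refine ⟨γ' * γ ((fun x => σ x)^[k] x), mul_mem hγ' (hγ _), ?_, ?_⟩
      · rw [pow_succ g k, sl_coe_mul, ← mul_assoc, e', mul_assoc, e, sl_coe_mul, mul_assoc,
          Function.iterate_succ_apply']
      · rw [hc _ hγ' _ (hγ _), hs, Finset.sum_range_succ]
  obtain ⟨γ', hγ', e', hs⟩ := hit n
  rw [← hs]
  refine hp _ hγ' ?_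
  rw [hx] at e'
  have h4 : (D x).det * (γ' : Mat).trace = (D x).det * ((g ^ n : SL(2, ℤ)) : Mat).trace := by
    have h5 : ((γ' : Mat) * D x * adjugate (D x)).trace =
        (D x * ((g ^ n : SL(2, ℤ)) : Mat) * adjugate (D x)).trace := by rw [e']
    have h6 : ((γ' : Mat) * D x * adjugate (D x)) = (D x).det • (γ' : Mat) := by
      rw [mul_assoc, Matrix.mul_adjugate, Matrix.mul_smul, mul_one]
    have h7 : (D x * ((g ^ n : SL(2, ℤ)) : Mat) * adjugate (D x)).trace =
        ((D x).det • ((g ^ n : SL(2, ℤ)) : Mat)).trace := by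
      rw [Matrix.trace_mul_comm, ← mul_assoc, Matrix.adjugate_mul, Matrix.smul_mul, one_mul]
    rw [h6, h7, Matrix.trace_smul, Matrix.trace_smul] at h5
    exact h5
  have h6 := mul_left_cancel₀ (H.det x) h4
  rw [h6]
  exact trace_pow_par ht n

end Parab

section Four

variable {A : Type*} [AddCommGroup A]

/-- the element `T ^ k` -/
def tk (k : ℤ) : SL(2, ℤ) := sl 1 k 0 1 (by ring)

/-- the element `V ^ k` -/
def vk (k : ℤ) : SL(2, ℤ) := sl 1 0 (4 * k) 1 (by ring)

theorem exists_round {a c : ℤ} (hc : c ≠ 0) : ∃ k : ℤ, 2 * |a + k * c| ≤ |c| := by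
  have hc0 : 0 < |c| := abs_pos.mpr hc
  have key : ∃ k : ℤ, 2 * abs (a + k * |c|) ≤ |c| := by
    have h2 := Int.emod_add_mul_ediv a |c|
    have h3 := Int.emod_nonneg a hc0.ne'
    have h4 := Int.emod_lt_of_pos a hc0
    by_cases h5 : 2 * (a % |c|) ≤ |c|
    · refine ⟨-(a / |c|), ?_⟩
      have h6 : a + -(a / |c|) * |c| = a % |c| := by linarith
      rw [h6, abs_of_nonneg h3]
      exact h5
    · refine ⟨-(a / |c|) - 1, ?_⟩
      have h6 : a + (-(a / |c|) - 1) * |c| = a % |c| - |c| := by linarith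
      rw [h6, abs_of_nonpos (by linarith)]
      push Not at h5
      linarith
  obtain ⟨k, hk⟩ := key
  rcases abs_choice c with h | h
  · exact ⟨k, by rw [h] at hk; rwa [h]⟩
  · refine ⟨-k, ?_⟩
    have h1 : a + -k * c = a + k * -c := by ring
    rw [h] at hk
    rwa [h1, h]

theorem tk_mul (k : ℤ) (g : SL(2, ℤ)) :
    (tk k * g) 0 0 = g 0 0 + k * g 1 0 ∧ (tk k * g) 1 0 = g 1 0 := by
  constructor
  · rw [Matrix.SpecialLinearGroup.coe_mul, Matrix.mul_apply, Fin.sum_univ_two]
    change 1 * g 0 0 + k * g 1 0 = _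
    ring
  · rw [Matrix.SpecialLinearGroup.coe_mul, Matrix.mul_apply, Fin.sum_univ_two]
    change 0 * g 0 0 + 1 * g 1 0 = _
    ring

theorem vk_mul (k : ℤ) (g : SL(2, ℤ)) :
    (vk k * g) 0 0 = g 0 0 ∧ (vk k * g) 1 0 = g 1 0 + 4 * k * g 0 0 := by
  constructor
  · rw [Matrix.SpecialLinearGroup.coe_mul, Matrix.mul_apply, Fin.sum_univ_two]
    change 1 * g 0 0 + 0 * g 1 0 = _
    ring
  · rw [Matrix.SpecialLinearGroup.coe_mul, Matrix.mul_apply, Fin.sum_univ_two]
    change 4 * k * g 0 0 + 1 * g 1 0 = _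
    ring

theorem tk_mem (k : ℤ) : tk k ∈ Gamma0 4 := by
  rw [mem_G0]
  exact dvd_zero _

theorem vk_mem (k : ℤ) : vk k ∈ Gamma0 4 := by
  rw [mem_G0]
  exact dvd_mul_right _ _

theorem tk_trace (k : ℤ) : ((tk k : SL(2, ℤ)) : Mat).trace ^ 2 = 4 := by
  rw [Matrix.trace_fin_two]
  change ((1 : ℤ) + 1) ^ 2 = 4
  norm_num

theorem vk_trace (k : ℤ) : ((vk k : SL(2, ℤ)) : Mat).trace ^ 2 = 4 := by
  rw [Matrix.trace_fin_two]
  change ((1 : ℤ) + 1) ^ 2 = 4
  norm_num

/-- Parabolic homomorphisms of `Γ₀(4)` are trivial. -/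
theorem eq_zero_four {c : SL(2, ℤ) → A} (hc : AddOn (Gamma0 4) c) (hp : Parab (Gamma0 4) c) :
    ∀ {g : SL(2, ℤ)}, g ∈ Gamma0 4 → c g = 0 := by
  have key : ∀ (n : ℕ) (g : SL(2, ℤ)), g ∈ Gamma0 4 → (g 1 0).natAbs = n → c g = 0 := by
    intro n
    induction n using Nat.strong_induction_on with
    | _ n ih =>
      intro g hg hn
      by_cases h0 : g 1 0 = 0
      · refine hp g hg ?_
        have hdet := det2 g
        rw [h0, mul_zero, sub_zero] at hdet
        rw [Matrix.trace_fin_two]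
        rcases Int.mul_eq_one_iff_eq_one_or_neg_one.mp hdet with ⟨h1, h2⟩ | ⟨h1, h2⟩
        · rw [h1, h2]; norm_num
        · rw [h1, h2]; norm_num
      · obtain ⟨k, hk⟩ := exists_round (a := g 0 0) h0
        obtain ⟨h1, h2⟩ := tk_mul k g
        have hg1 : tk k * g ∈ Gamma0 4 := mul_mem (tk_mem k) hg
        obtain ⟨m, hm⟩ := mem_G0.mp hg1
        have hdet := det2 (tk k * g)
        rw [h2] at hm
        rw [h1, h2] at hdet
        obtain ⟨a', ha'⟩ : ∃ a', a' = g 0 0 + k * g 1 0 := ⟨_, rfl⟩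
        rw [← ha'] at h1 hdet hk
        have ha0 : a' ≠ 0 := by
          rintro rfl
          rw [zero_mul, zero_sub, hm] at hdet
          push_cast at hdet
          obtain ⟨z, hz⟩ : ∃ z, z = (tk k * g) 0 1 * m := ⟨_, rfl⟩
          have h6 : 4 * z = -1 := by rw [hz]; linear_combination -hdet
          omega
        obtain ⟨l, hl⟩ := exists_round (a := g 1 0) (c := 4 * a') (mul_ne_zero (by norm_num) ha0)
        obtain ⟨h3, h4⟩ := vk_mul l (tk k * g)
        have hg2 : vk l * (tk k * g) ∈ Gamma0 4 := mul_mem (vk_mem l) hg1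
        have h5 : (vk l * (tk k * g)) 1 0 = g 1 0 + l * (4 * a') := by
          rw [h4, h2, h1]; ring
        have hodd : a' % 2 = 1 := by
          rcases Int.emod_two_eq_zero_or_one a' with h | h
          · exfalso
            obtain ⟨b, hb⟩ := Int.dvd_of_emod_eq_zero h
            have h6 : a' * (tk k * g) 1 1 - (tk k * g) 0 1 * g 1 0 =
              2 * (b * (tk k * g) 1 1 - 2 * ((tk k * g) 0 1 * m)) := by
              rw [hb, hm]; push_cast; ring
            rw [h6] at hdet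
            omega
          · exact h
        have hm4 : (g 1 0) % 4 = 0 := by rw [hm]; push_cast; omega
        have hlt : (g 1 0 + l * (4 * a')).natAbs < n := by
          rw [← hn]
          have h7 : 2 * |g 1 0 + l * (4 * a')| ≤ 4 * |a'| := by
            have h8 : |4 * a'| = 4 * |a'| := by rw [abs_mul]; norm_num
            rw [← h8]; exact hl
          have h8 : (2 * |a'|) ≠ |g 1 0| := by
            intro h9
            rcases abs_choice a' with h10 | h10 <;> rcases abs_choice (g 1 0) with h11 | h11 <;>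
              rw [h10, h11] at h9 <;> omega
          have h9 : 2 * |a'| < |g 1 0| := lt_of_le_of_ne hk h8
          have h10 : |g 1 0 + l * (4 * a')| < |g 1 0| := by linarith
          have h11 : ((g 1 0 + l * (4 * a')).natAbs : ℤ) < ((g 1 0).natAbs : ℤ) := by
            rw [Int.natCast_natAbs, Int.natCast_natAbs]; exact h10
          exact_mod_cast h11
        have h6 := ih _ hlt (vk l * (tk k * g)) hg2 (by rw [h5])
        rw [hc _ (vk_mem l) _ hg1, hc _ (tk_mem k) _ hg, hp _ (vk_mem l) (vk_trace l),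
          hp _ (tk_mem k) (tk_trace k), zero_add, zero_add] at h6
        exact h6
  intro g hg
  exact key _ g hg rfl

/-- `U_q = - w_q` on the parabolic homomorphisms of level `4q`. -/
theorem opU_opW {q : ℕ} (hq : q.Prime) {w y : ℤ} (hb : (q : ℤ) * w - ((4 : ℕ) : ℤ) * y = 1)
    {c : SL(2, ℤ) → A} (hc : AddOn (Gamma0 (q * 4)) c) (hp : Parab (Gamma0 (q * 4)) c)
    {g : SL(2, ℤ)} (hg : g ∈ Gamma0 (q * 4)) :
    opW q 4 w y c g + opc (Gamma0 (q * 4)) (Um q) c g = 0 := by
  rw [← opc_R1_W hq (by norm_num) hb hc hg]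
  have hW := corr_W (M := 4) hq.ne_zero hb
  have hR := corr_R1 (M := 4) hq (by norm_num) hb
  have hc' : AddOn (Gamma0 (q * 4)) (opW q 4 w y c) := hW.addOn hc
  have hp' : Parab (Gamma0 (q * 4)) (opW q 4 w y c) := parab_opc hW hc hp
  have hg4 : g ∈ Gamma0 4 := by
    rw [mem_G0] at hg ⊢
    exact dvd_trans (by push_cast; exact dvd_mul_left _ _) hg
  exact eq_zero_four (hR.addOn hc') (parab_opc hR hc' hp') hg4

end Four

section Char

/-- `U_q χ = (w_q χ)⁻¹` for the parabolic characters of level `4q`. -/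
theorem heckeCharU_eq {q N : ℕ} [NeZero q] [NeZero N] (hq : q.Prime) (B : LG.Bez q 4)
    (hN : N = q * 4) (hqN : q ∣ N) {χ : Gamma0 N →* ℂˣ} (hχ : LG.IsPar χ) :
    heckeCharU hq.ne_zero hqN χ = (B.wChar dvd_rfl hN χ)⁻¹ := by
  have e1 := toAdd_heckeCharU (A := Additive ℂˣ) hq hqN
    (χ : Gamma0 N →* Multiplicative (Additive ℂˣ))
  have e2 := toAdd_wChar (A := Additive ℂˣ) (r := 1) B (K := 4) rfl hN
    (χ : Gamma0 N →* Multiplicative (Additive ℂˣ))
  subst hN
  ext1 γ
  have hb : (q : ℤ) * B.w - ((4 : ℕ) : ℤ) * B.y = 1 := B.det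
  have h1 := opU_opW (A := Additive ℂˣ) hq hb
    (addOn_ofChar (A := Additive ℂˣ) (χ : Gamma0 (q * 4) →* Multiplicative (Additive ℂˣ)))
    (fun g hg ht => by
      rw [ofChar_mem _ hg]
      have h2 := hχ ⟨g, hg⟩ (by
        rw [Matrix.trace_fin_two] at ht
        exact ht)
      exact h2) γ.2
  have e1' := e1 γ
  have e2' := e2 γ
  rw [Nat.cast_one, one_mul] at e2'
  rw [← e1', ← e2'] at h1
  exact eq_inv_of_mul_eq_one_right h1

end Char

end Fermat.Agent.MP
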