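import Mathlib
import Fermat.Agent.MP.End
import Fermat.Agent.MZ.URel
import Fermat.Agent.Conn.Zeta
import Fermat.Agent.RT.PeuSS

/-!
The end of the argument at `p`.
-/

set_option autoImplicit false
set_option linter.unusedSectionVars false

open Fermat.Agent.ModFun IntermediateField Fermat.Agent.Geo IsLocalRing Fermat.Agent.ESCore
open Fermat.Agent.LG Fermat.Agent.Flat
open CongruenceSubgroup (Gamma0 Gamma0_mem)
open scoped MatrixGroups IntermediateField.algebraAdjoinAdjoin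

noncomputable section

namespace Fermat.Agent.MP

local notation "Qb" => AlgebraicClosure ℚ
local notation "GQ" => (AlgebraicClosure ℚ ≃ₐ[ℚ] AlgebraicClosure ℚ)

/-- **The end**, over a discretely valued field. -/
theorem toric_of_gR {A : ValuationSubring Qb} {q : ℕ} (hq : q.Prime) (hA : A.LiesOverPrime q)
    {M N : ℕ} [NeZero q] [NeZero M] [NeZero N] (B : Bez q M) (hN : N = q * M) (hqM : ¬ q ∣ M)
    (hlev : GoodLev q M) {m : ℕ} (hm : 0 < m) {χ : XG N m} (hχ : IsPar χ.1)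
    {ε : ℤ} (hε : ε = 1 ∨ ε = -1) (hqN : q ∣ N) (hU : heckeXU hq.ne_zero hqN m χ = χ ^ ε)
    (hW : B.wChar dvd_rfl hN χ.1 = (χ ^ (-ε)).1)
    {L : IntermediateField ℚ Qb} [IsDiscreteValuationRing (OL A L)] {y : LaurentSeries L}
    (hy : XSer (ιL L) N χ.1 y) (hyV : y ^ m ∈ gV (OL A L) L)
    {g : LaurentSeries L} (hg : g ∈ F0 L N) (hgV : g ∈ gV (OL A L) L)
    (hgr : gR (⟨y ^ m, hyV⟩ : gV (OL A L) L) = gR (⟨g, hgV⟩ : gV (OL A L) L) ^ m)
    (hg0 : gR (⟨g, hgV⟩ : gV (OL A L) L) ≠ 0)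
    {σ : GQ} (hσ : σ ∈ A.inertiaSubgroupIn ℚ)
    {c : ℕ} (hcyc : ∀ ζ : Qb, ζ ^ m = 1 → σ ζ = ζ ^ c) :
    galX N hm σ χ = χ ^ c := by
  obtain ⟨yQ, hyQ⟩ : ∃ yQ, yQ = ModularCurve.coeffMap (algebraMap L Qb) y := ⟨_, rfl⟩
  have hyX : XSer ιC N χ.1 yQ := by
    rw [hyQ]
    exact hy.coeffMap (ι' := ιC) (algebraMap L Qb) rfl
  obtain ⟨h1, h2⟩ := mem_gA_of_gV (A := A) (L := L) hyV
  obtain ⟨h3, h4⟩ := mem_gA_of_gV (A := A) (L := L) hgV
  have h40 : gAR (⟨_, h3⟩ : gA A) ≠ 0 := by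
    rw [h4]
    exact (map_ne_zero_iff _ (coeffMap_inj subK.injective)).mpr hg0
  have hgm0 : gR (⟨y ^ m, hyV⟩ : gV (OL A L) L) ≠ 0 := by
    rw [hgr]; exact pow_ne_zero _ hg0
  have hyQ0 : yQ ≠ 0 := by
    rintro rfl
    have h5 : y = 0 := by
      have := hyQ.symm
      rwa [_root_.map_eq_zero] at this
    apply hgm0
    have : (⟨y ^ m, hyV⟩ : gV (OL A L) L) = 0 := Subtype.ext (by
      change y ^ m = 0
      rw [h5, zero_pow hm.ne'])
    rw [this, map_zero]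
  obtain ⟨h5, h6⟩ := MZ.inv_gA h3 h40
  obtain ⟨h7, h8⟩ := MZ.pow_gA h5 m
  have h1' : yQ ^ m ∈ gA A := by
    have : yQ ^ m = ModularCurve.coeffMap (algebraMap L Qb) (y ^ m) := by rw [hyQ, map_pow]
    rw [this]; exact h1
  have h2' : gAR (⟨_, h1'⟩ : gA A) = gAR (⟨_, h3⟩ : gA A) ^ m := by
    have e0 : yQ ^ m = ModularCurve.coeffMap (algebraMap L Qb) (y ^ m) := by rw [hyQ, map_pow]
    have e1 : (⟨_, h1'⟩ : gA A) = ⟨_, h1⟩ := Subtype.ext e0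
    rw [e1, h2, hgr, map_pow, h4]
  obtain ⟨h9, h10⟩ := MZ.mul_gA h7 h1'
  refine toric_of_pow hq hA B hN hqM hlev hm hχ hε hqN hU hW hyQ0 hyX
    (z := (ModularCurve.coeffMap (algebraMap L Qb) g)⁻¹)
    (inv_mem (MZ.coeffMap_mem_F0 ⟨g, hg⟩)) h9 ?_ hσ hcyc
  rw [h10, h8, h6, h2', ← mul_pow, inv_mul_cancel₀ h40, one_pow]

section Curve

open WeierstrassCurve WeierstrassCurve.Affine WeierstrassCurve.Affine.Point
open Fermat.Agent.EC Fermat.Agent.RT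

variable {W : WeierstrassCurve ℤ} {p : ℕ}

/-- A point outside of the toric line is not toric. -/
theorem false_of_toric (hΔ : W.Δ ≠ 0) (hW : W.IsSemistableModel) [hp : Fact p.Prime]
    (hp2 : p ≠ 2) {A : ValuationSubring Qb} (hA : A.LiesOverPrime p)
    {x : TorsP (W.map (Int.castRingHom ℚ)) p} (hx : x ∉ kerSub A (ss_vint W A))
    (h : ∀ σ ∈ A.inertiaSubgroupIn ℚ, ∀ c : ℕ, (∀ ζ : Qb, ζ ^ p = 1 → σ ζ = ζ ^ c) →
      σ • x = c • x) : False := by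
  obtain ⟨ζ, hζ⟩ := exists_primitiveRoot p
  obtain ⟨σ, hσ, hσζ⟩ := Conn.exists_inertia_ne hp.out hp2 hA hζ
  obtain ⟨c, -, hc⟩ := hζ.eq_pow_of_pow_eq_one (ξ := σ ζ) (by
    rw [← map_pow, hζ.pow_eq_one, map_one])
  have h1 := h σ hσ c (fun ξ hξ => by
    obtain ⟨i, -, rfl⟩ := hζ.eq_pow_of_pow_eq_one hξ
    rw [map_pow, ← hc, ← pow_mul, ← pow_mul, mul_comm])
  have h2 : σ • x - x ∈ kerSub A (ss_vint W A) := ss_inKer hΔ hW hp2 hA hσ x
  rw [h1] at h2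
  have h3 : c • x - x = ((c : ZMod p) - 1) • x := by
    rw [sub_smul, one_smul, Nat.cast_smul_eq_nsmul]
  rw [h3] at h2
  by_cases hc1 : (c : ZMod p) - 1 = 0
  · apply hσζ
    have h4 : (c : ZMod p) = ((1 : ℕ) : ZMod p) := by rw [Nat.cast_one]; exact sub_eq_zero.mp hc1
    rw [ZMod.natCast_eq_natCast_iff'] at h4
    have h5 := (pow_eq_pow_mod c hζ.pow_eq_one)
    have h6 := (pow_eq_pow_mod 1 hζ.pow_eq_one)
    rw [← hc, h5, h4, ← h6, pow_one]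
  · exact hx ((Submodule.smul_mem_iff _ hc1).mp h2)

end Curve

end Fermat.Agent.MP
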