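import Mathlib

/-!
Representations with scalar traces contain the given representation.
-/

set_option autoImplicit false
set_option linter.unusedSectionVars false

open Matrix

noncomputable section

namespace Fermat.Agent.MP

section Emb

variable {F E G : Type*} [Field F] [Ring E] [Algebra F E] [Group G]
  {P : G →* E} {ρ : G →* Matrix (Fin 2) (Fin 2) F}

/-- the graph -/
def graphS (P : G →* E) (ρ : G →* Matrix (Fin 2) (Fin 2) F) :
    Submodule F (E × Eᵐᵒᵖ × Matrix (Fin 2) (Fin 2) F) :=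
  Submodule.span F (Set.range fun g => (P g, MulOpposite.op ((ρ g).det • P g⁻¹), ρ g))

theorem graphS_gen (g : G) : (P g, MulOpposite.op ((ρ g).det • P g⁻¹), ρ g) ∈ graphS P ρ :=
  Submodule.subset_span ⟨g, rfl⟩

theorem graphS_mul {a b : E × Eᵐᵒᵖ × Matrix (Fin 2) (Fin 2) F} (ha : a ∈ graphS P ρ)
    (hb : b ∈ graphS P ρ) : a * b ∈ graphS P ρ := by
  unfold graphS at ha hb
  induction ha using Submodule.span_induction with
  | mem a ha =>
    induction hb using Submodule.span_induction with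
    | mem b hb =>
      obtain ⟨g, rfl⟩ := ha
      obtain ⟨k, rfl⟩ := hb
      have h := graphS_gen (P := P) (ρ := ρ) (g * k)
      convert h using 1
      refine Prod.ext (map_mul P g k).symm (Prod.ext ?_ (map_mul ρ g k).symm)
      change MulOpposite.op (((ρ k).det • P k⁻¹) * ((ρ g).det • P g⁻¹)) = _
      rw [map_mul ρ, det_mul, _root_.mul_inv_rev, map_mul P k⁻¹, smul_mul_smul_comm, mul_comm (ρ k).det]
    | zero => rw [mul_zero]; exact zero_mem _
    | add x y _ _ hx hy => rw [mul_add]; exact add_mem hx hy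
    | smul r x _ hx => rw [mul_smul_comm]; exact Submodule.smul_mem _ _ hx
  | zero => rw [zero_mul]; exact zero_mem _
  | add x y _ _ hx hy => rw [add_mul]; exact add_mem hx hy
  | smul r x _ hx => rw [smul_mul_assoc]; exact Submodule.smul_mem _ _ hx

theorem graphS_tr (h : ∀ g, algebraMap F E (ρ g).trace = P g + algebraMap F E (ρ g).det * P g⁻¹)
    {a : E × Eᵐᵒᵖ × Matrix (Fin 2) (Fin 2) F} (ha : a ∈ graphS P ρ) :
    a.1 + a.2.1.unop = algebraMap F E a.2.2.trace := by
  unfold graphS at ha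
  induction ha using Submodule.span_induction with
  | mem a ha =>
    obtain ⟨g, rfl⟩ := ha
    change P g + (ρ g).det • P g⁻¹ = algebraMap F E (ρ g).trace
    rw [h, Algebra.smul_def]
  | zero => simp
  | add x y _ _ hx hy =>
    rw [Prod.fst_add, Prod.snd_add, Prod.fst_add, Prod.snd_add, MulOpposite.unop_add,
      Matrix.trace_add, map_add, ← hx, ← hy]
    abel
  | smul r x _ hx =>
    rw [Prod.smul_fst, Prod.smul_snd, Prod.smul_fst, Prod.smul_snd, MulOpposite.unop_smul,
      Matrix.trace_smul, ← smul_add, hx, smul_eq_mul, map_mul, Algebra.smul_def]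

theorem graphS_surj (hspan : Submodule.span F (Set.range ρ) = ⊤)
    (M : Matrix (Fin 2) (Fin 2) F) : ∃ x y, (x, y, M) ∈ graphS P ρ := by
  have hM : M ∈ Submodule.span F (Set.range ρ) := hspan ▸ Submodule.mem_top
  induction hM using Submodule.span_induction with
  | mem a ha =>
    obtain ⟨g, rfl⟩ := ha
    exact ⟨_, _, graphS_gen g⟩
  | zero => exact ⟨0, 0, zero_mem _⟩
  | add x y _ _ hx hy =>
    obtain ⟨a, b, h1⟩ := hx
    obtain ⟨a', b', h2⟩ := hy
    exact ⟨a + a', b + b', add_mem h1 h2⟩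
  | smul r x _ hx =>
    obtain ⟨a, b, h1⟩ := hx
    exact ⟨r • a, r • b, Submodule.smul_mem _ r h1⟩

/-- the kernel of `ρ` acts trivially -/
theorem graphS_ker (h : ∀ g, algebraMap F E (ρ g).trace = P g + algebraMap F E (ρ g).det * P g⁻¹)
    (hspan : Submodule.span F (Set.range ρ) = ⊤) {x : E} {y : Eᵐᵒᵖ}
    (hx : (x, y, (0 : Matrix (Fin 2) (Fin 2) F)) ∈ graphS P ρ) : x = 0 := by
  have hxy : x + y.unop = 0 := by
    have := graphS_tr h hx
    rwa [Matrix.trace_zero, map_zero] at this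
  have hy : y.unop = -x := eq_neg_of_add_eq_zero_right hxy
  -- the relation
  have key : ∀ (b : E) (b' : Eᵐᵒᵖ) (M : Matrix (Fin 2) (Fin 2) F), (b, b', M) ∈ graphS P ρ →
      x * b + b * x = algebraMap F E M.trace * x := by
    intro b b' M hb
    have h1 := graphS_tr h (graphS_mul hx hb)
    have h2 := graphS_tr h hb
    change x * b + b'.unop * y.unop = algebraMap F E ((0 : Matrix (Fin 2) (Fin 2) F) * M).trace at h1
    change b + b'.unop = algebraMap F E M.trace at h2
    rw [zero_mul, Matrix.trace_zero, map_zero, hy, mul_neg, ← sub_eq_add_neg, sub_eq_zero] at h1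
    rw [h1, ← h2, add_mul, add_comm]
  obtain ⟨b₁, b₁', hb₁⟩ := graphS_surj (P := P) hspan !![0, 1; 0, 0]
  obtain ⟨b₂, b₂', hb₂⟩ := graphS_surj (P := P) hspan !![0, 0; 1, 0]
  have k1 := key _ _ _ hb₁
  have k2 := key _ _ _ hb₂
  rw [show (!![0, 1; 0, 0] : Matrix (Fin 2) (Fin 2) F).trace = 0 by simp [Matrix.trace_fin_two],
    map_zero, zero_mul] at k1
  rw [show (!![0, 0; 1, 0] : Matrix (Fin 2) (Fin 2) F).trace = 0 by simp [Matrix.trace_fin_two],
    map_zero, zero_mul] at k2
  have hc : x * (b₁ * b₂) = b₁ * b₂ * x := by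
    have e1 : x * b₁ = -(b₁ * x) := eq_neg_of_add_eq_zero_left k1
    have e2 : x * b₂ = -(b₂ * x) := eq_neg_of_add_eq_zero_left k2
    rw [← mul_assoc, e1, neg_mul, mul_assoc, e2, mul_neg, neg_neg, mul_assoc]
  have k3 := key _ _ _ (graphS_mul hb₁ hb₂)
  have hmul : (!![0, 1; 0, 0] * !![0, 0; 1, 0] : Matrix (Fin 2) (Fin 2) F) = !![1, 0; 0, 0] := by
    ext i j; fin_cases i <;> fin_cases j <;> simp
  have k4 := key _ _ _ (graphS_mul (graphS_mul hb₁ hb₂) (graphS_mul hb₁ hb₂))
  have htr : (!![1, 0; 0, 0] : Matrix (Fin 2) (Fin 2) F).trace = 1 := by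
    simp [Matrix.trace_fin_two]
  have hmul2 : (!![1, 0; 0, 0] * !![1, 0; 0, 0] : Matrix (Fin 2) (Fin 2) F) = !![1, 0; 0, 0] := by
    ext i j; fin_cases i <;> fin_cases j <;> simp
  change x * (b₁ * b₂) + (b₁ * b₂) * x =
    algebraMap F E (!![0, 1; 0, 0] * !![0, 0; 1, 0] : Matrix (Fin 2) (Fin 2) F).trace * x at k3
  change x * ((b₁ * b₂) * (b₁ * b₂)) + ((b₁ * b₂) * (b₁ * b₂)) * x =
    algebraMap F E ((!![0, 1; 0, 0] * !![0, 0; 1, 0]) * (!![0, 1; 0, 0] * !![0, 0; 1, 0]) :
      Matrix (Fin 2) (Fin 2) F).trace * x at k4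
  rw [hmul, htr, map_one, one_mul, ← hc] at k3
  rw [hmul, hmul2, htr, map_one, one_mul] at k4
  obtain ⟨e, he⟩ : ∃ e, e = b₁ * b₂ := ⟨_, rfl⟩
  rw [← he] at k3 k4 hc
  have hc2 : (e * e) * x = x * (e * e) := by rw [mul_assoc, ← hc, ← mul_assoc, ← hc, mul_assoc]
  rw [hc2] at k4
  -- `x e + x e = x` and `x e² + x e² = x`
  have k5 : x * (e * e) + x * (e * e) = x * e := by
    rw [← mul_assoc, ← add_mul, k3]
  rw [k5] at k4
  rw [k4] at k3
  simpa using k3

/-- **The representation extends to the matrix algebra.** -/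
theorem exists_lift_matrix
    (h : ∀ g, algebraMap F E (ρ g).trace = P g + algebraMap F E (ρ g).det * P g⁻¹)
    (hspan : Submodule.span F (Set.range ρ) = ⊤) :
    ∃ γ : Matrix (Fin 2) (Fin 2) F →ₐ[F] E, ∀ g, γ (ρ g) = P g := by
  have huniq : ∀ {M : Matrix (Fin 2) (Fin 2) F} {x x' : E} {y y' : Eᵐᵒᵖ},
      (x, y, M) ∈ graphS P ρ → (x', y', M) ∈ graphS P ρ → x = x' := by
    intro M x x' y y' h1 h2
    have h3 := sub_mem h1 h2
    have h4 : ((x, y, M) - (x', y', M) : E × Eᵐᵒᵖ × Matrix (Fin 2) (Fin 2) F) =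
        (x - x', y - y', 0) := by
      refine Prod.ext rfl (Prod.ext rfl (sub_self M))
    rw [h4] at h3
    exact sub_eq_zero.mp (graphS_ker h hspan h3)
  choose γ δ hγ using graphS_surj (P := P) hspan
  refine ⟨{ toFun := γ, map_one' := ?_, map_mul' := ?_, map_zero' := ?_, map_add' := ?_,
            commutes' := ?_ }, fun g => huniq (hγ _) (graphS_gen g)⟩
  · have h1 := graphS_gen (P := P) (ρ := ρ) 1
    rw [map_one P, map_one ρ] at h1
    exact huniq (hγ _) h1
  · intro M M'
    exact huniq (hγ _) (graphS_mul (hγ M) (hγ M'))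
  · exact huniq (hγ _) (zero_mem _)
  · intro M M'
    exact huniq (hγ _) (add_mem (hγ M) (hγ M'))
  · intro r
    have h1 := graphS_gen (P := P) (ρ := ρ) 1
    rw [map_one P, map_one ρ] at h1
    have h2 := Submodule.smul_mem _ r h1
    have e1 : algebraMap F (Matrix (Fin 2) (Fin 2) F) r = r • 1 := Algebra.algebraMap_eq_smul_one r
    have e2 : algebraMap F E r = r • 1 := Algebra.algebraMap_eq_smul_one r
    rw [e2]
    have h3 := hγ (algebraMap F (Matrix (Fin 2) (Fin 2) F) r)
    rw [e1] at h3 ⊢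
    exact huniq h3 h2

variable {V : Type*} [AddCommGroup V] [Module E V]

/-- **Embedding of the standard representation.** -/
theorem exists_emb
    (h : ∀ g, algebraMap F E (ρ g).trace = P g + algebraMap F E (ρ g).det * P g⁻¹)
    (hspan : Submodule.span F (Set.range ρ) = ⊤) {x' : V} (hx' : x' ≠ 0) :
    ∃ f : (Fin 2 → F) →+ V, Function.Injective f ∧ (∀ g v, f (ρ g *ᵥ v) = P g • f v) ∧
      ∀ U : AddSubgroup V, (∀ (r : F), ∀ u ∈ U, algebraMap F E r • u ∈ U) →
        (∀ g, ∀ u ∈ U, P g • u ∈ U) → x' ∈ U → ∀ v, f v ∈ U := by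
  obtain ⟨γ, hγ⟩ := exists_lift_matrix h hspan
  -- the vector
  obtain ⟨M₀, hM₀⟩ : ∃ M₀ : Matrix (Fin 2) (Fin 2) F, γ !![1, 0; 0, 0] • γ M₀ • x' = γ M₀ • x' ∧
      γ M₀ • x' ≠ 0 := by
    by_cases h1 : γ !![1, 0; 0, 0] • x' = 0
    · refine ⟨!![0, 1; 0, 0], ?_, ?_⟩
      · rw [smul_smul, ← map_mul]
        congr 2
        ext i j; fin_cases i <;> fin_cases j <;> simp
      · intro h0
        apply hx'
        have h2 : γ !![0, 0; 1, 0] • γ !![0, 1; 0, 0] • x' = 0 := by rw [h0, smul_zero]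
        rw [smul_smul, ← map_mul] at h2
        have h3 : x' = γ !![1, 0; 0, 0] • x' + γ (!![0, 0; 1, 0] * !![0, 1; 0, 0]) • x' := by
          rw [← add_smul, ← map_add]
          have : (!![1, 0; 0, 0] + !![0, 0; 1, 0] * !![0, 1; 0, 0] :
              Matrix (Fin 2) (Fin 2) F) = 1 := by
            ext i j
            fin_cases i <;> fin_cases j <;> simp
          rw [this, map_one, one_smul]
        rw [h3, h1, h2, add_zero]
    · refine ⟨!![1, 0; 0, 0], ?_, h1⟩
      rw [smul_smul, ← map_mul]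
      congr 2
      ext i j; fin_cases i <;> fin_cases j <;> simp
  obtain ⟨x₁, hx₁⟩ : ∃ x₁, x₁ = γ M₀ • x' := ⟨_, rfl⟩
  rw [← hx₁] at hM₀
  let col : (Fin 2 → F) → Matrix (Fin 2) (Fin 2) F := fun v => !![v 0, 0; v 1, 0]
  have hcoladd : ∀ v w, col (v + w) = col v + col w := by
    intro v w
    ext i j
    fin_cases i <;> fin_cases j <;> simp [col]
  have hcolmul : ∀ (M : Matrix (Fin 2) (Fin 2) F) (v), col (M *ᵥ v) = M * col v := by
    intro M v
    ext i j
    fin_cases i <;> fin_cases j <;>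
      simp [col, Matrix.mulVec, dotProduct, Matrix.mul_apply, Fin.sum_univ_two]
  let f : (Fin 2 → F) →+ V :=
    { toFun := fun v => γ (col v) • x₁
      map_zero' := by
        have : col 0 = 0 := by
          ext i j
          fin_cases i <;> fin_cases j <;> simp [col]
        rw [this, map_zero, zero_smul]
      map_add' := fun v w => by rw [hcoladd, map_add, add_smul] }
  have hf : ∀ v, f v = γ (col v) • x₁ := fun v => rfl
  refine ⟨f, ?_, fun g v => ?_, fun U hU1 hU2 hxU v => ?_⟩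
  · rw [injective_iff_map_eq_zero]
    intro v hv
    rw [hf] at hv
    have key : ∀ i : Fin 2, v i = 0 := by
      intro i
      by_contra hvi
      have h1 : γ (Matrix.single 0 i 1 * col v) • x₁ = 0 := by
        rw [map_mul, ← smul_smul, hv, smul_zero]
      have h2 : Matrix.single 0 i 1 * col v = algebraMap F (Matrix (Fin 2) (Fin 2) F) (v i) *
          !![1, 0; 0, 0] := by
        rw [← Algebra.smul_def]
        ext a b
        fin_cases i <;> fin_cases a <;> fin_cases b <;>
          simp [col, Matrix.mul_apply, Matrix.single, Fin.sum_univ_two]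
      rw [h2, map_mul, ← smul_smul, hM₀.1, AlgHom.commutes] at h1
      apply hM₀.2
      have h3 : algebraMap F E (v i)⁻¹ • algebraMap F E (v i) • x₁ = 0 := by rw [h1, smul_zero]
      rwa [smul_smul, ← map_mul, inv_mul_cancel₀ hvi, map_one, one_smul] at h3
    ext i
    exact key i
  · rw [hf, hf, hcolmul, map_mul, hγ, smul_smul]
  · rw [hf, hx₁, smul_smul, ← map_mul]
    have hall : ∀ M : Matrix (Fin 2) (Fin 2) F, γ M • x' ∈ U := by
      intro M
      have hM : M ∈ Submodule.span F (Set.range ρ) := hspan ▸ Submodule.mem_top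
      induction hM using Submodule.span_induction with
      | mem a ha =>
        obtain ⟨g, rfl⟩ := ha
        rw [hγ]
        exact hU2 g _ hxU
      | zero => rw [map_zero, zero_smul]; exact zero_mem _
      | add x y _ _ hx hy => rw [map_add, add_smul]; exact add_mem hx hy
      | smul r x _ hx =>
        rw [map_smul, Algebra.smul_def, ← smul_smul]
        exact hU1 r _ hx
    exact hall _

end Emb

end Fermat.Agent.MP
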