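import Mathlib
import Fermat.Agent.MP.Emb
import Fermat.Agent.MP.UW
import Fermat.Agent.MZ.Inj
import Fermat.Agent.MZ.WHecke
import Fermat.Agent.RT.LGb

/-!
The `p`-torsion of the curve inside the characters of level `4p`.
-/

set_option autoImplicit false
set_option linter.unusedSectionVars false
set_option linter.unusedVariables false
set_option linter.style.haveILetI false

open Matrix CongruenceSubgroup IsLocalRing
open scoped MatrixGroups

noncomputable section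

namespace Fermat.Agent.MP

open Fermat.Agent.RT Fermat.Agent.ESCore Fermat.Agent.LG Fermat.Agent.EC
open Fermat.Agent.RT.Ihara Fermat.Agent.ESCore.ModP Fermat.Agent.ESCore.Univ Fermat.Agent.RT.LR
open WeierstrassCurve WeierstrassCurve.Affine WeierstrassCurve.Affine.Point

local notation "Qb" => AlgebraicClosure ℚ
local notation "GQ" => (AlgebraicClosure ℚ ≃ₐ[ℚ] AlgebraicClosure ℚ)

section Res

theorem resChar_heckeChar {N₀ N l : ℕ} (h : N₀ ∣ N) (hl : l.Prime) (hlN : ¬ l ∣ N)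
    (hlN₀ : ¬ l ∣ N₀) (χ : Gamma0 N₀ →* ℂˣ) :
    heckeChar hl hlN (resChar h χ) = resChar h (heckeChar hl hlN₀ χ) :=
  NF.heckeChar_resC h hl hlN hlN₀ χ

/-- restriction to level `4p` is injective on characters of order `p` -/
theorem eq_one_of_res {N₀ N p : ℕ} [NeZero N₀] [NeZero N] (hp : p.Prime) (hp5 : 5 ≤ p)
    (h : N₀ ∣ N) (h4 : N ∣ 2 ^ 2 * N₀) {δ : Gamma0 N₀ →* ℂˣ} (hδ : δ ^ p = 1)
    (hres : resChar h δ = 1) : δ = 1 := by
  haveI : NeZero (2 ^ 2 * N₀) := ⟨mul_ne_zero (by norm_num) (NeZero.ne N₀)⟩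
  refine MZ.eq_one_of_resChar hp hp5 (Or.inl rfl) rfl (h.trans h4) hδ ?_
  ext1 γ
  exact DFunLike.congr_fun hres ⟨γ, Gamma0_le_of_dvd h4 γ.2⟩

end Res

theorem wChar_zpow {q M N K : ℕ} [NeZero q] [NeZero M] [NeZero N] (B : Bez q M) (hK : K ∣ M)
    (hN : N = q * K) (c : Gamma0 N →* ℂˣ) (n : ℤ) :
    B.wChar hK hN (c ^ n) = (B.wChar hK hN c) ^ n := by
  ext1 γ
  obtain ⟨γ', h1, -⟩ := B.exists_wChar hK hN γ
  refine (B.wChar_apply hK hN (c ^ n) h1).trans ?_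
  change (c γ') ^ n = (B.wChar hK hN c γ) ^ n
  rw [B.wChar_apply hK hN c h1]

section W

variable {N q M m : ℕ} [NeZero q] [NeZero M] [NeZero N]

/-- `w` on parabolic characters -/
def wX (B : Bez q M) (hN : N = q * M) (x : XG N m) (hx : IsPar x.1) : XG N m :=
  ⟨B.wChar dvd_rfl hN x.1, (B.wChar_isPar dvd_rfl hN hx).mem_XG (by
    rw [← B.wChar_pow]
    have : x.1 ^ m = 1 := x.2.1
    rw [this, B.wChar_one])⟩

theorem wX_coe (B : Bez q M) (hN : N = q * M) (x : XG N m) (hx : IsPar x.1) :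
    (wX B hN x hx).1 = B.wChar dvd_rfl hN x.1 := rfl

/-- decomposition under `w` -/
theorem exists_sign (B : Bez q M) (hN : N = q * M) {x : XG N m} (hx : IsPar x.1) (hx1 : x ≠ 1) :
    ∃ ε : ℤ, (ε = 1 ∨ ε = -1) ∧ ((x * wX B hN x hx ≠ 1 ∧ ε = -1 ∧
      B.wChar dvd_rfl hN (x * wX B hN x hx).1 = ((x * wX B hN x hx) ^ (-ε)).1) ∨
      (ε = 1 ∧ B.wChar dvd_rfl hN x.1 = (x ^ (-ε)).1)) := by
  by_cases h : x * wX B hN x hx = 1
  · refine ⟨1, Or.inl rfl, Or.inr ⟨rfl, ?_⟩⟩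
    have h1 : wX B hN x hx = x⁻¹ := eq_inv_of_mul_eq_one_right h
    rw [_root_.zpow_neg_one, ← h1]
    rfl
  · refine ⟨-1, Or.inr rfl, Or.inl ⟨h, rfl, ?_⟩⟩
    rw [neg_neg, _root_.zpow_one]
    change B.wChar dvd_rfl hN (x.1 * B.wChar dvd_rfl hN x.1) = x.1 * B.wChar dvd_rfl hN x.1
    rw [B.wChar_mul, Bez.wChar_wChar, mul_comm]

end W

section Main

variable {p : ℕ} [hp : Fact p.Prime] {W : WeierstrassCurve ℤ}

set_option maxHeartbeats 1000000 in
/-- **`W[p]` inside the characters of level `4p`.** -/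
theorem exists_emb_XG (hΔ : W.Δ ≠ 0) (hp5 : 5 ≤ p) (hirr : W.ModRepIsIrreducible p)
    {N₀ N : ℕ} [NeZero N₀] [NeZero N] (h : W.IsResiduallyModularOfLevel p N₀) (hd : N₀ ∣ N)
    (h4 : N ∣ 2 ^ 2 * N₀) [NeZero p] (B : Bez p 4) (hN : N = p * 4) (hpN : p ∣ N) :
    ∃ ε : ℤ, (ε = 1 ∨ ε = -1) ∧ ∃ f : (Fin 2 → ZMod p) →+ Additive (XG N p),
      Function.Injective f ∧
      (∀ (σ : GQ) (v : Fin 2 → ZMod p), f (rhoW p hΔ σ *ᵥ v) =
        Additive.ofMul (galX N hp.out.pos σ (f v).toMul)) ∧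
      ∀ v, IsPar (f v).toMul.1 ∧ heckeXU hp.out.ne_zero hpN p (f v).toMul = (f v).toMul ^ ε ∧
        B.wChar dvd_rfl hN (f v).toMul.1 = ((f v).toMul ^ (-ε)).1 := by
  have hp2 : p ≠ 2 := by omega
  have hm := hp.out.pos
  set S : Finset ℕ := insert p W.Δ.natAbs.primeFactors with hS
  have hpS : p ∈ S := Finset.mem_insert_self _ _
  have hΔS : ∀ l : ℕ, l.Prime → (l : ℤ) ∣ W.Δ → l ∈ S := fun l hl h =>
    Finset.mem_insert_of_mem (Nat.mem_primeFactors.mpr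
      ⟨hl, Int.natCast_dvd.mp h, Int.natAbs_ne_zero.mpr hΔ⟩)
  obtain ⟨l₁, hl₁, hl₁S, hl₁g, hl₁p, hl₁m, hne₁⟩ := exists_l1 hp2 hΔ hirr N S
  have hl₁N := not_dvd_of_dvd_sub_one hl₁ hl₁m
  obtain ⟨χ₀, hχ₀, hT₀⟩ := exists_char_of_modular hΔ hp2 hirr h S hpS hΔS
  have hpar : ∀ x : XG N p, Additive.ofMul x ∈ eigV N p S W.apOfModel → IsPar x.1 :=
    fun x hx => isPar_of_eigen hp2 hl₁ hl₁N hl₁m (hx l₁ hl₁ hl₁N hl₁S) hne₁
  -- the class at level `N`
  obtain ⟨x₁, hx₁⟩ : ∃ x₁, x₁ = resX hd p χ₀ := ⟨_, rfl⟩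
  have hx₁1 : x₁ ≠ 1 := by
    intro h1
    apply hχ₀
    apply Subtype.ext
    refine eq_one_of_res hp.out hp5 hd h4 χ₀.2.1 ?_
    rw [hx₁] at h1
    exact congrArg Subtype.val h1
  have hx₁E : Additive.ofMul x₁ ∈ eigV N p S W.apOfModel := by
    intro l hl hlN hlS
    have hlN₀ : ¬ l ∣ N₀ := fun h => hlN (h.trans hd)
    apply Additive.toMul.injective
    apply Subtype.ext
    have h1 := congrArg Subtype.val (hT₀ l hl hlN₀ hlS)
    change heckeChar hl hlN x₁.1 = x₁.1 ^ (W.apOfModel l)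
    change heckeChar hl hlN₀ χ₀.1 = χ₀.1 ^ (W.apOfModel l) at h1
    have e1 : x₁.1 = resChar hd χ₀.1 := by rw [hx₁]; rfl
    rw [e1, resChar_heckeChar hd hl hlN hlN₀, h1]
    rfl
  -- `w` preserves the eigencharacters
  have hwE : ∀ (x : XG N p) (hx : Additive.ofMul x ∈ eigV N p S W.apOfModel),
      Additive.ofMul (wX B hN x (hpar x hx)) ∈ eigV N p S W.apOfModel := by
    intro x hx l hl hlN hlS
    apply Additive.toMul.injective
    apply Subtype.ext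
    change heckeChar hl hlN (B.wChar dvd_rfl hN x.1) = (B.wChar dvd_rfl hN x.1) ^ (W.apOfModel l)
    rw [← MZ.wChar_hecke B hp.out hN hm (hpar x hx) hl hlN]
    have h1 : heckeChar hl hlN x.1 = x.1 ^ (W.apOfModel l) :=
      congrArg (fun z : Additive (XG N p) => z.toMul.1) (hx l hl hlN hlS)
    rw [h1]
    exact wChar_zpow B dvd_rfl hN x.1 (W.apOfModel l)
  -- the eigenvector of `w`
  obtain ⟨ε, hε, x', hx'1, hx'E, hx'W⟩ : ∃ ε : ℤ, (ε = 1 ∨ ε = -1) ∧ ∃ x' : XG N p, x' ≠ 1 ∧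
      Additive.ofMul x' ∈ eigV N p S W.apOfModel ∧
      B.wChar dvd_rfl hN x'.1 = (x' ^ (-ε)).1 := by
    obtain ⟨ε, hε, ⟨h1, -, h2⟩ | ⟨-, h2⟩⟩ := exists_sign B hN (hpar x₁ hx₁E) hx₁1
    · exact ⟨ε, hε, _, h1, add_mem hx₁E (hwE x₁ hx₁E), h2⟩
    · exact ⟨ε, hε, _, hx₁1, hx₁E, h2⟩
  letI := algV N p S W.apOfModel
  have hR := scalRep_eigV (N := N) (p := p) hΔ S
  have hspan := span_rhoW hΔ hp2 hirr
  have hmem : ∀ (σ : GQ) (x : XG N p), Additive.ofMul x ∈ eigV N p S W.apOfModel →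
      Additive.ofMul (galX N hm σ x) ∈ eigV N p S W.apOfModel := fun σ x hx => gal_mem_eigV σ hx
  obtain ⟨f, hf, hfeq, hfU⟩ := exists_emb (V := eigV N p S W.apOfModel) (P := galV N p S W.apOfModel)
    (ρ := rhoW p hΔ) (fun g => hR.tr g) hspan (x' := ⟨Additive.ofMul x', hx'E⟩) (fun h0 =>
      hx'1 (congrArg (fun z : eigV N p S W.apOfModel => z.1.toMul) h0))
  -- the eigenspace of `w`
  let U : AddSubgroup (eigV N p S W.apOfModel) :=
    { carrier := {u | B.wChar dvd_rfl hN u.1.toMul.1 = (u.1.toMul ^ (-ε)).1}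
      add_mem' := by
        intro a b ha hb
        change B.wChar dvd_rfl hN (a.1.toMul.1 * b.1.toMul.1) = ((a.1.toMul * b.1.toMul) ^ (-ε)).1
        have ha' : B.wChar dvd_rfl hN a.1.toMul.1 = (a.1.toMul ^ (-ε)).1 := ha
        have hb' : B.wChar dvd_rfl hN b.1.toMul.1 = (b.1.toMul ^ (-ε)).1 := hb
        rw [B.wChar_mul, ha', hb', _root_.mul_zpow]
        rfl
      zero_mem' := by
        change B.wChar dvd_rfl hN 1 = ((1 : XG N p) ^ (-ε)).1
        rw [B.wChar_one, _root_.one_zpow]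
        rfl
      neg_mem' := by
        intro a ha
        have ha' : B.wChar dvd_rfl hN a.1.toMul.1 = (a.1.toMul ^ (-ε)).1 := ha
        change B.wChar dvd_rfl hN (a.1.toMul.1)⁻¹ = ((a.1.toMul)⁻¹ ^ (-ε)).1
        have h2 : B.wChar dvd_rfl hN (a.1.toMul.1)⁻¹ * B.wChar dvd_rfl hN a.1.toMul.1 = 1 := by
          rw [← B.wChar_mul, inv_mul_cancel, B.wChar_one]
        rw [eq_inv_of_mul_eq_one_left h2, ha', _root_.inv_zpow]
        rfl }
  have hU : ∀ v, f v ∈ U := by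
    refine hfU U ?_ ?_ hx'W
    · intro r u hu
      have h1 : algebraMap (ZMod p) (AddMonoid.End (eigV N p S W.apOfModel)) r =
          ((r.val : ℕ) : AddMonoid.End (eigV N p S W.apOfModel)) := by
        conv_lhs => rw [← ZMod.natCast_zmod_val r]
        exact map_natCast _ _
      rw [h1]
      change ((r.val : ℕ) : AddMonoid.End (eigV N p S W.apOfModel)) u ∈ U
      rw [AddMonoid.End.natCast_apply]
      exact nsmul_mem hu _
    · intro σ u hu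
      have hu' : B.wChar dvd_rfl hN u.1.toMul.1 = (u.1.toMul ^ (-ε)).1 := hu
      have h1 := wChar_galX' B hp.out hN hm σ (hpar _ u.2) (hpar _ (hmem σ _ u.2)) hu'
      change B.wChar dvd_rfl hN (galX N hm σ u.1.toMul).1 = ((galX N hm σ u.1.toMul) ^ (-ε)).1
      refine h1.trans ?_
      exact congrArg Subtype.val (map_zpow (galX N hm σ) u.1.toMul (-ε))
  refine ⟨ε, hε, (eigV N p S W.apOfModel).subtype.comp f,
    Subtype.coe_injective.comp hf, fun σ v => ?_, fun v => ?_⟩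
  · have h1 := hfeq σ v
    exact congrArg Subtype.val h1
  · have h1 : B.wChar dvd_rfl hN (f v).1.toMul.1 = ((f v).1.toMul ^ (-ε)).1 := hU v
    refine ⟨hpar _ (f v).2, ?_, h1⟩
    apply Subtype.ext
    change heckeCharU hp.out.ne_zero hpN (f v).1.toMul.1 = ((f v).1.toMul ^ ε).1
    refine (heckeCharU_eq hp.out B hN hpN (hpar _ (f v).2)).trans ?_
    have h2 : (B.wChar dvd_rfl hN (f v).1.toMul.1)⁻¹ = (((f v).1.toMul ^ (-ε))⁻¹ : XG N p).1 := by
      rw [h1]; rfl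
    refine h2.trans ?_
    rw [_root_.zpow_neg, inv_inv]

/-- **`W[p]` inside the characters of level `4p`**, in terms of points. -/
theorem exists_emb_tors (hΔ : W.Δ ≠ 0) (hp5 : 5 ≤ p) (hirr : W.ModRepIsIrreducible p)
    {N₀ N : ℕ} [NeZero N₀] [NeZero N] (h : W.IsResiduallyModularOfLevel p N₀) (hd : N₀ ∣ N)
    (h4 : N ∣ 2 ^ 2 * N₀) [NeZero p] (B : Bez p 4) (hN : N = p * 4) (hpN : p ∣ N) :
    ∃ ε : ℤ, (ε = 1 ∨ ε = -1) ∧
      ∃ f : TorsP (W.map (Int.castRingHom ℚ)) p →+ Additive (XG N p),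
      Function.Injective f ∧
      (∀ (σ : GQ) (x : TorsP (W.map (Int.castRingHom ℚ)) p), f (σ • x) =
        Additive.ofMul (galX N hp.out.pos σ (f x).toMul)) ∧
      ∀ x, IsPar (f x).toMul.1 ∧ heckeXU hp.out.ne_zero hpN p (f x).toMul = (f x).toMul ^ ε ∧
        B.wChar dvd_rfl hN (f x).toMul.1 = ((f x).toMul ^ (-ε)).1 := by
  obtain ⟨ε, hε, f, hf, hfσ, hfv⟩ := exists_emb_XG hΔ hp5 hirr h hd h4 B hN hpN
  obtain ⟨b, hb⟩ : ∃ b, b = torsBasis p W hΔ := ⟨_, rfl⟩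
  refine ⟨ε, hε, f.comp (b.equivFun : TorsP (W.map (Int.castRingHom ℚ)) p →ₗ[ZMod p]
    (Fin 2 → ZMod p)).toAddMonoidHom, hf.comp b.equivFun.injective, fun σ x => ?_,
    fun x => hfv _⟩
  have h1 := hfσ σ (b.equivFun x)
  have h2 : rhoW p hΔ σ *ᵥ (b.equivFun x) = b.equivFun (σ • x) := by
    rw [rhoW_apply, ← hb]
    exact modRep_mulVec b σ x
  rw [h2] at h1
  exact h1

end Main

end Fermat.Agent.MP
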