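import Fermat.Agent.MP.PWDef
import Fermat.Agent.MP.Fin
import Fermat.Agent.MP.Gal
import Fermat.Agent.RT.S44Asm

/-!
# Impossibility of the levels `p` and `2p` for the Frey curve, from (PW)
-/

set_option autoImplicit false
set_option linter.unusedSectionVars false

noncomputable section

open WeierstrassCurve WeierstrassCurve.Affine WeierstrassCurve.Affine.Point
open Fermat.Agent.ModFun Fermat.Agent.ESCore Fermat.Agent.LG Fermat.Agent.EC Fermat.Agent.RT
open CongruenceSubgroup (Gamma0)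

namespace Fermat.Agent.MP

local notation "Qb" => AlgebraicClosure ℚ
local notation "GQ" => (AlgebraicClosure ℚ ≃ₐ[ℚ] AlgebraicClosure ℚ)

section Core

variable {W : WeierstrassCurve ℤ} {p : ℕ} [hp : Fact p.Prime] [NeZero p]

/-- The core of the argument. -/
theorem core_of (hPW : PWProp) (hΔ : W.Δ ≠ 0) (hW : W.IsSemistableModel) (hp5 : 5 ≤ p)
    (hirr : W.ModRepIsIrreducible p) (hd : (p : ℤ) ∣ W.Δ) (hk : p ∣ padicValInt p W.Δ)
    {N₀ : ℕ} [NeZero N₀] (hN₀ : N₀ ∣ 2 * p) (hpN₀ : p ∣ N₀)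
    (h : W.IsResiduallyModularOfLevel p N₀) : False := by
  have hp2 : p ≠ 2 := by omega
  obtain ⟨N, hN⟩ : ∃ N, N = p * 4 := ⟨_, rfl⟩
  have : NeZero N := ⟨by rw [hN]; exact mul_ne_zero hp.out.ne_zero (by norm_num)⟩
  have hpN : p ∣ N := hN ▸ dvd_mul_right p 4
  have h1 : N₀ ∣ N := hN₀.trans (hN ▸ ⟨2, by ring⟩)
  have h2 : N ∣ 2 ^ 2 * N₀ := by
    rw [hN, mul_comm]
    exact mul_dvd_mul_left _ hpN₀
  have hcop : p.Coprime 4 :=
    Nat.Coprime.pow_right 2 ((Nat.coprime_primes hp.out Nat.prime_two).mpr hp2)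
  obtain ⟨B⟩ := nonempty_bez hcop
  have hqM : ¬ p ∣ 4 := by
    intro h
    have := Nat.Coprime.eq_one_of_dvd hcop h
    exact hp.out.ne_one this
  obtain ⟨ε, hε, f, hf, hfσ, hfx⟩ := exists_emb_tors hΔ hp5 hirr h h1 h2 B hN hpN
  obtain ⟨A, hA, -⟩ := exists_frob_at hp.out
  have := isElliptic_map hΔ
  have hvp : A.valuation (p : Qb) < 1 := hA
  have hc4 : A.valuation ((W.map (Int.castRingHom ℚ))⁄Qb).c₄ = 1 := by
    rw [ss_c₄]; exact v_int_eq_one hp.out hvp (hW p hp.out hd)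
  have hΔ1 : A.valuation ((W.map (Int.castRingHom ℚ))⁄Qb).Δ < 1 := by
    rw [ss_Δ]; exact v_int_lt hvp hd
  -- a point outside of the toric line, with a good character
  obtain ⟨x, hx, hpeu⟩ : ∃ x : TorsP (W.map (Int.castRingHom ℚ)) p,
      x ∉ kerSub A (ss_vint W A) ∧ PeuChar A N p hp.out (f x).toMul := by
    have hne := kerSub_ne_top_of_mult hp2 (ss_vint W A) hc4 hΔ1 (p := p)
    obtain ⟨x, hx⟩ : ∃ x : TorsP (W.map (Int.castRingHom ℚ)) p, x ∉ kerSub A (ss_vint W A) := by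
      by_contra hcon
      push Not at hcon
      exact hne (eq_top_iff.mpr fun z _ => hcon z)
    have hfix : ∀ (σ : GQ) (z : TorsP (W.map (Int.castRingHom ℚ)) p),
        galX N hp.out.pos σ (f z).toMul = (f z).toMul ↔ σ • z = z := by
      intro σ z
      constructor
      · intro h
        apply hf
        rw [hfσ, h]
        rfl
      · intro h
        have := hfσ σ z
        rw [h] at this
        exact (congrArg Additive.toMul this).symm
    by_cases hbot : kerSub A (ss_vint W A) = (⊥ : Submodule (ZMod p) (TorsP (W.map (Int.castRingHom ℚ)) p))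
    · refine ⟨x, hx, Or.inl fun σ hσ => (hfix σ x).mpr ?_⟩
      have h3 : σ • x - x ∈ kerSub A (ss_vint W A) := ss_inKer hΔ hW hp2 hA hσ x
      rw [hbot, Submodule.mem_bot] at h3
      exact sub_eq_zero.mp h3
    · rcases ss_peu hΔ hW hp2 hd hk hA hx with ⟨x', hx', hx'σ⟩ | ⟨htr, η, h3, h4, h5⟩
      · refine ⟨x', fun h => hx ?_, Or.inl fun σ hσ => (hfix σ x').mpr (hx'σ σ hσ)⟩
        have := Submodule.sub_mem _ h hx'
        rwa [sub_sub_cancel] at this
      · obtain ⟨K, hK⟩ : ∃ K : AddSubgroup (TorsP (W.map (Int.castRingHom ℚ)) p),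
          K = (kerSub A (ss_vint W A)).toAddSubgroup := ⟨_, rfl⟩
        have hKc : Nat.card K = p := by
          rw [hK]
          exact card_kerSub_of_mult hp2 (ss_vint W A) hc4 hΔ1 hbot
        obtain ⟨T, hT⟩ : ∃ T : Subgroup (XG N p), T = AddSubgroup.toSubgroup' (K.map f) := ⟨_, rfl⟩
        have hTm : ∀ τ : XG N p, τ ∈ T ↔ ∃ z ∈ K, f z = Additive.ofMul τ := by
          intro τ
          rw [hT]
          exact Iff.rfl
        refine ⟨x, hx, Or.inr ⟨⟨T, ?_, fun σ hσ => ?_, fun τ hτ => ?_⟩, η, fun σ hσ h => ?_, h4,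
          fun σ hσ h => ?_⟩⟩
        · have e : Nat.card T = Nat.card (K.map f) := by
            rw [hT]
            exact Nat.card_congr (Equiv.refl _)
          exact (e.trans (Nat.card_congr (K.equivMapOfInjective f hf).symm.toEquiv)).trans hKc
        · rw [hTm]
          refine ⟨σ • x - x, ?_, ?_⟩
          · rw [hK]
            exact ss_inKer hΔ hW hp2 hA hσ x
          · rw [map_sub, hfσ]
            rfl
        · obtain ⟨z, hz, hzτ⟩ := (hTm τ).mp hτ
          obtain ⟨σ, hσ, hσx⟩ := htr (z + x) (by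
            rw [add_sub_cancel_right]
            rw [hK] at hz
            exact hz)
          refine ⟨σ, hσ, ?_⟩
          have h6 := hfσ σ x
          rw [hσx, map_add, hzτ] at h6
          exact (congrArg Additive.toMul h6).symm
        · exact h3 σ hσ ((hfix σ x).mp h)
        · exact h5 σ hσ fun h' => h ((hfix σ x).mpr h')
  obtain ⟨hpar, hU, hWc⟩ := hfx x
  obtain ⟨y, hy0, hy, z, hz, hzA, hz1⟩ := hPW hp.out hp5 hN hA (f x).toMul hpar hpeu
  refine false_of_toric hΔ hW hp2 hA hx fun σ hσ c hc => ?_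
  have h3 := toric_of_pow hp.out hA B hN hqM (Or.inl ⟨hp2, dvd_rfl⟩) hp.out.pos hpar hε hpN hU hWc
    hy0 hy hz hzA hz1 hσ hc
  apply hf
  rw [hfσ, h3, map_nsmul]
  rfl

/-- The `p`-adic valuation of the discriminant of the Frey curve. -/
theorem dvd_padic_freyInt (P : FreyPackage) [Fact P.p.Prime] :
    P.p ∣ padicValInt P.p P.freyCurveInt.Δ := by
  have h2 := freyInt_Δ P
  have hΔ : P.freyCurveInt.Δ ≠ 0 := freyInt_Δ_ne_zero P
  have hp5 := P.hp5
  have hp256 : ¬ (P.p : ℤ) ∣ 256 := by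
    intro h
    have h5 : P.p ∣ 2 ^ 8 := by exact_mod_cast h
    have h6 := (Nat.prime_dvd_prime_iff_eq P.pp Nat.prime_two).mp (P.pp.dvd_of_dvd_pow h5)
    omega
  have hne : (P.a ^ P.p * P.b ^ P.p * P.c ^ P.p) ^ 2 ≠ 0 := by
    rw [← h2]
    exact mul_ne_zero (by norm_num) hΔ
  have e : (P.a ^ P.p * P.b ^ P.p * P.c ^ P.p) ^ 2 = ((P.a * P.b * P.c) ^ 2) ^ P.p := by
    rw [← mul_pow, ← mul_pow, ← pow_mul, ← pow_mul, mul_comm P.p 2]
  have h3 := congrArg (padicValInt P.p) h2
  rw [padicValInt.mul (by norm_num) hΔ, padicValInt.eq_zero_of_not_dvd hp256, zero_add, e] at h3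
  rw [h3]
  have h4 : ((P.a * P.b * P.c) ^ 2) ≠ 0 := by
    intro h0
    rw [e, h0, zero_pow P.pp.ne_zero] at hne
    exact hne rfl
  have h5 : ∀ n : ℕ, padicValInt P.p (((P.a * P.b * P.c) ^ 2) ^ n) =
      n * padicValInt P.p ((P.a * P.b * P.c) ^ 2) := by
    intro n
    induction n with
    | zero => simp
    | succ n ih =>
      rw [pow_succ, padicValInt.mul (pow_ne_zero _ h4) h4, ih]
      ring
  rw [h5]
  exact dvd_mul_right _ _

/-- **No level dividing `2p` and divisible by `p`**, from (PW). -/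
theorem hcore_of (hPW : PWProp) (P : FreyPackage) (habc : (P.p : ℤ) ∣ P.a * P.b * P.c)
    (hirr : GaloisRepIsIrreducible (K := AlgebraicClosure ℚ) ℚ P.freyCurve P.p)
    (N' : ℕ) (hN' : N' ∣ 2 * P.p) (hpN' : P.p ∣ N') (hmod : P.ModularRepOfLevel N') : False := by
  have : Fact P.p.Prime := ⟨P.pp⟩
  have : NeZero P.p := ⟨P.pp.ne_zero⟩
  have hN0 : N' ≠ 0 := by
    rintro rfl
    rw [zero_dvd_iff] at hN'
    have := P.pp.pos
    omega
  have : NeZero N' := ⟨hN0⟩
  have hΔ : P.freyCurveInt.Δ ≠ 0 := freyInt_Δ_ne_zero P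
  have hss : P.freyCurveInt.IsSemistableModel := freyInt_semistable P
  have hWmap := freyInt_map P
  have hW : P.freyCurveInt.IsIntegralModelOf P.freyCurve := hWmap ▸ ⟨1, by simp⟩
  have hres := residuallyModular_of_modularRep hN0 hmod hW
  have hirr' : P.freyCurveInt.ModRepIsIrreducible P.p := by
    unfold WeierstrassCurve.ModRepIsIrreducible
    rw [hWmap]
    exact hirr
  have hd : (P.p : ℤ) ∣ P.freyCurveInt.Δ := by
    have h2 := freyInt_Δ P
    have h3 : (P.p : ℤ) ∣ 256 * P.freyCurveInt.Δ := by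
      rw [h2, ← mul_pow, ← mul_pow]
      exact dvd_pow (dvd_pow habc P.pp.ne_zero) two_ne_zero
    rcases (Nat.prime_iff_prime_int.mp P.pp).dvd_or_dvd h3 with h4 | h4
    · exfalso
      have h5 : P.p ∣ 2 ^ 8 := by exact_mod_cast h4
      have h6 := (Nat.prime_dvd_prime_iff_eq P.pp Nat.prime_two).mp (P.pp.dvd_of_dvd_pow h5)
      have := P.hp5
      omega
    · exact h4
  exact core_of hPW hΔ hss P.hp5 hirr' hd (dvd_padic_freyInt P) hN' hpN' hres

end Core

end Fermat.Agent.MP
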