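import Mathlib
import Fermat.Agent.CA.Loc
import Fermat.Agent.LG.Core

/-!
# The slope theorem: definitions

`O` is a discrete valuation ring with uniformiser `π`, residue characteristic `p`; `F` is a function
field in one variable, `P₁`, `P₀` are two components of the special fibre of its model over `O`
which cross normally at every point where they meet (local equations `u` for `P₀` and `u'` for
`P₁`).
-/

set_option autoImplicit false
set_option linter.unusedSectionVars false

open IsLocalRing Polynomial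

universe u

namespace Fermat.Agent.MP

open Fermat.Agent.Geo Fermat.Agent.LG Fermat.Agent.CA

section Defs

variable {O K F : Type u} [CommRing O] [IsDomain O] [IsDiscreteValuationRing O]
  [Field K] [Field F] [Algebra O K] [Algebra O F] [Algebra K F]
  {t : K} {π : O}

/-- A point lying on the component `P` only. -/
structure SmPt (y : Ideal (chart O (algebraMap K F t))) [y.IsPrime] (π : O)
    (P : ValuationSubring F) : Prop where
  eq : LocEq y P (algebraMap O F π)
  val : ValAt y P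

/-- An ordinary double point on the components `P₁` (with equation `u' = 0`) and `P₀` (with
equation `u = 0`). -/
structure CrPt (y : Ideal (chart O (algebraMap K F t))) [y.IsPrime] (π : O)
    (P₁ P₀ : ValuationSubring F) (u u' : F) : Prop where
  eq₀ : LocEq y P₀ u
  eq₁ : LocEq y P₁ u'
  val₁ : ValAt y P₁
  val₀ : ValAt y P₀
  mul : ∃ c ∈ locS y, ¬ locM y c ∧ u * u' = algebraMap O F π * c
  gen : ∀ x, locM y x → ∃ a ∈ locS y, ∃ b ∈ locS y, x = u * a + u' * b

/-- The geometric hypotheses. -/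
structure TwoComp (ht : IsParam O t) (hπ : Prime π) (P₁ P₀ : ValuationSubring F) (u u' : F) :
    Prop where
  over₁ : Over (gaussVal ht hπ) (algebraMap O K π) P₁
  over₀ : Over (gaussVal ht hπ) (algebraMap O K π) P₀
  unif₁ : ∀ x ∈ P₁.nonunits, x / algebraMap O F π ∈ P₁
  unif₀ : ∀ x ∈ P₀.nonunits, x / algebraMap O F π ∈ P₀
  sm₁ : ∀ (y : Ideal (chart O (algebraMap K F t))) [y.IsMaximal],
    Meets y P₁ → ¬ Meets y P₀ → SmPt y π P₁
  sm₀ : ∀ (y : Ideal (chart O (algebraMap K F t))) [y.IsMaximal],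
    Meets y P₀ → ¬ Meets y P₁ → SmPt y π P₀
  cr : ∀ (y : Ideal (chart O (algebraMap K F t))) [y.IsMaximal],
    Meets y P₁ → Meets y P₀ → CrPt y π P₁ P₀ u u'
  smi₁ : ∀ (y : Ideal (chart O (algebraMap K F t⁻¹))) [y.IsMaximal],
    locM y (algebraMap K F t⁻¹) → Meets y P₁ → SmPt y π P₁
  smi₀ : ∀ (y : Ideal (chart O (algebraMap K F t⁻¹))) [y.IsMaximal],
    locM y (algebraMap K F t⁻¹) → Meets y P₀ → SmPt y π P₀

/-- `E = F(η)` is a totally ramified extension of constants, of degree `p`, with minimal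
different. -/
structure EisExt (O F : Type u) {E : Type u} [CommRing O] [Field F] [Field E] [Algebra O E]
    [Algebra F E] (π : O) (p : ℕ) (η : E) (c : ℕ → O) : Prop where
  eq : η ^ p = algebraMap O E π * ∑ i ∈ Finset.range p, algebraMap O E (c i) * η ^ i
  c0 : IsUnit (c 0)
  c1 : IsUnit (c 1)
  span : ∀ x : E, ∃ a : ℕ → F, x = ∑ i ∈ Finset.range p, algebraMap F E (a i) * η ^ i

variable (t) in
/-- The conclusion: the orders of the reduction `h₀` of `h` on the component `P₁` are `≡ m` at the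
crossing points and `≡ 0` elsewhere, with `m` independent of the crossing point. -/
def SlopeRes (P₁ P₀ : ValuationSubring F) (u : F) (p : ℕ) (h₀ : F) (m : ℤ) : Prop :=
  (∀ (y : Ideal (chart O (algebraMap K F t))) [y.IsMaximal], Meets y P₁ → Meets y P₀ →
    ∃ g r : F, g ≠ 0 ∧ g ∈ P₁ ∧ g⁻¹ ∈ P₁ ∧ r ∈ locS y ∧ ¬ locM y r ∧
      h₀ - g ^ p * u ^ m * r ∈ P₁.nonunits) ∧
  (∀ (y : Ideal (chart O (algebraMap K F t))) [y.IsMaximal], Meets y P₁ → ¬ Meets y P₀ →
    ∃ g r : F, g ≠ 0 ∧ g ∈ P₁ ∧ g⁻¹ ∈ P₁ ∧ r ∈ locS y ∧ ¬ locM y r ∧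
      h₀ - g ^ p * r ∈ P₁.nonunits) ∧
  (∀ (y : Ideal (chart O (algebraMap K F t⁻¹))) [y.IsMaximal],
    locM y (algebraMap K F t⁻¹) → Meets y P₁ →
    ∃ g r : F, g ≠ 0 ∧ g ∈ P₁ ∧ g⁻¹ ∈ P₁ ∧ r ∈ locS y ∧ ¬ locM y r ∧
      h₀ - g ^ p * r ∈ P₁.nonunits)

/-- All places in characteristic zero have order divisible by `m`. -/
def HorDvd {O E : Type u} [CommRing O] [Field E] [Algebra O E] (π : O) (m : ℕ) (h : E) : Prop :=
  ∀ V : ValuationSubring E, V ≠ ⊤ → (∀ o : O, algebraMap O E o ∈ V) →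
      (algebraMap O E π)⁻¹ ∈ V → ∃ g : E, g ≠ 0 ∧ g ^ m * h ∈ V ∧ (g ^ m * h)⁻¹ ∈ V

end Defs

end Fermat.Agent.MP
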