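import Mathlib
import Fermat.Agent.CA.Ord
import Fermat.Agent.MP.SlopeDef

/-!
# Functions without poles on a component of the special fibre are constant
-/

set_option autoImplicit false
set_option linter.unusedSectionVars false
set_option linter.unusedVariables false

open IsLocalRing Polynomial

universe u

namespace Fermat.Agent.MP

open Fermat.Agent.Geo Fermat.Agent.LG Fermat.Agent.CA

/-- Over an algebraically closed field. -/
theorem mem_range_of_closed {k κ : Type u} [Field k] [Field κ] [IsAlgClosed k] (f : k →+* κ)
    {x : κ} (hx : ∀ V : ValuationSubring κ, (∀ a, f a ∈ V) → x ∈ V) : ∃ a, f a = x := by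
  letI : Algebra k κ := f.toAlgebra
  have h1 : x ∈ (⨅ V : {V : ValuationSubring κ // (Set.range f) ⊆ V.toSubring},
      V.1.toSubring) := by
    rw [Subring.mem_iInf]
    rintro ⟨V, hV⟩
    exact hx V fun a => hV ⟨a, rfl⟩
  rw [iInf_valuationSubring_superset] at h1
  have h2 : IsIntegral k x := by
    have h3 : IsIntegral (Subring.closure (Set.range f)) x := h1
    obtain ⟨p, hp, hpx⟩ := h3
    have hle : Subring.closure (Set.range f) ≤ f.range := by
      rw [Subring.closure_le]; rintro _ ⟨a, rfl⟩; exact ⟨a, rfl⟩
    have h4 : IsIntegral f.range x := by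
      refine ⟨p.map (Subring.inclusion hle), hp.map _, ?_⟩
      rw [eval₂_map]
      exact hpx
    obtain ⟨q, hq, hqx⟩ := h4
    have hsurj : Function.Surjective f.rangeRestrict := f.rangeRestrict_surjective
    obtain ⟨q', hq', -, hq'm⟩ := lifts_and_degree_eq_and_monic
      ((lifts_iff_coeff_lifts q).mpr fun n => hsurj _) hq
    refine ⟨q', hq'm, ?_⟩
    rw [← hq', eval₂_map] at hqx
    exact hqx
  have h5 : (minpoly k x).degree = 1 :=
    IsAlgClosed.degree_eq_one_of_irreducible k (minpoly.irreducible h2)
  obtain ⟨a, ha⟩ := minpoly.mem_range_of_degree_eq_one k x h5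
  exact ⟨a, ha⟩

section

variable {O K F : Type u} [CommRing O] [IsDomain O] [IsDiscreteValuationRing O] [CharZero O]
  [Field K] [Field F] [Algebra O K] [Algebra O F] [Algebra K F] [IsScalarTower O K F]
  {t : K} {π : O} [FiniteDimensional K F] [Algebra.IsSeparable K F]
  {ht : IsParam O t} {hπ : Prime π} {P : ValuationSubring F}

theorem O_mem_over (hP : Over (gaussVal ht hπ) (algebraMap O K π) P) (a : O) :
    algebraMap O F a ∈ P :=
  mem_of_intOver hP.1 (intOver_of_mem_chart ht hπ
    ((chart O (algebraMap K F t)).algebraMap_mem a))

theorem over_inv (hP : Over (gaussVal ht hπ) (algebraMap O K π) P) :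
    Over (gaussVal ht.inv hπ) (algebraMap O K π) P := by
  rw [gaussVal_inv ht ht.inv hπ]; exact hP

theorem max_mem_nonunits (hP : Over (gaussVal ht hπ) (algebraMap O K π) P) {a : O}
    (ha : a ∈ maximalIdeal O) : algebraMap O F a ∈ P.nonunits := by
  obtain ⟨c, rfl⟩ : π ∣ a := by
    rw [hπ.irreducible.maximalIdeal_eq, Ideal.mem_span_singleton] at ha
    exact ha
  rw [map_mul, mul_comm, IsScalarTower.algebraMap_apply O K F π]
  exact mul_mem_nonunits (O_mem_over hP c) hP.2

theorem res_mem_of_reg {u : K} {hu : ∀ x ∈ chart O (algebraMap K F u), x ∈ P}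
    {V : ValuationSubring (ResidueField P)}
    {hV : ∀ x (hx : x ∈ chart O (algebraMap K F u)), residue P ⟨x, hu x hx⟩ ∈ V}
    [hy : (redPt (residue P) V hu hV).IsPrime] {δ : F} (hδ : δ ∈ P)
    (hreg : ∃ r ∈ locS (redPt (residue P) V hu hV), δ - r ∈ P.nonunits) :
    residue P ⟨δ, hδ⟩ ∈ V := by
  obtain ⟨r, ⟨d, hd, hdr⟩, hδr⟩ := hreg
  have hrP : r ∈ P := by
    have := P.sub_mem hδ (P.nonunits_le hδr)
    rwa [sub_sub_cancel] at this
  have h1 : residue P ⟨δ, hδ⟩ = residue P ⟨r, hrP⟩ := by
    rw [← sub_eq_zero, ← map_sub]
    exact coe_nonunits_iff.mpr hδr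
  have h2 : residue P ⟨d, hu d d.2⟩ ∉ V.nonunits := fun h => hd (mem_redPt.mpr h)
  have h3 := inv_mem_of_notMem_nonunits h2
  have h4 : residue P ⟨d, hu d d.2⟩ ≠ 0 := fun h0 => h2 (h0 ▸ zero_mem_nonunits V)
  have h5 : residue P ⟨d, hu d d.2⟩ * residue P ⟨r, hrP⟩ = residue P ⟨_, hu _ hdr⟩ := by
    rw [← map_mul]; rfl
  have h6 := V.mul_mem _ _ h3 (hV _ hdr)
  rw [← h5, ← mul_assoc, inv_mul_cancel₀ h4, one_mul, ← h1] at h6
  exact h6

theorem const_of_regular [IsAlgClosed (ResidueField O)]
    (hP : Over (gaussVal ht hπ) (algebraMap O K π) P) {δ : F} (hδ : δ ∈ P)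
    (hf : ∀ (y : Ideal (chart O (algebraMap K F t))) [y.IsMaximal], Meets y P →
      ∃ r ∈ locS y, δ - r ∈ P.nonunits)
    (hi : ∀ (y : Ideal (chart O (algebraMap K F t⁻¹))) [y.IsMaximal],
      locM y (algebraMap K F t⁻¹) → Meets y P → ∃ r ∈ locS y, δ - r ∈ P.nonunits) :
    ∃ c : O, δ - algebraMap O F c ∈ P.nonunits := by
  classical
  have hP' := over_inv hP
  let f : O →+* ResidueField P := (residue P).comp
    ((algebraMap O F).codRestrict P.toSubring (O_mem_over hP))
  have hf0 : ∀ a ∈ maximalIdeal O, f a = 0 := fun a ha =>
    coe_nonunits_iff.mpr (max_mem_nonunits hP ha)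
  haveI : IsLocalHom f := ⟨fun a ha => by
    by_contra hna
    have := hf0 a ((mem_maximalIdeal a).mpr hna)
    rw [this] at ha
    exact not_isUnit_zero ha⟩
  let g : ResidueField O →+* ResidueField P := ResidueField.lift f
  have hg : ∀ a, g (residue O a) = f a := fun a => rfl
  have hkey : ∀ V : ValuationSubring (ResidueField P), (∀ a, g a ∈ V) →
      residue P ⟨δ, hδ⟩ ∈ V := by
    intro V hgV
    by_contra hδV
    have hO : ∀ a : O, f a ∈ V := fun a => by rw [← hg]; exact hgV _
    have hu : ∀ x ∈ chart O (algebraMap K F t), x ∈ P := fun x hx => chart_mem_over hP hx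
    have hu' : ∀ x ∈ chart O (algebraMap K F t⁻¹), x ∈ P := fun x hx => chart_mem_over hP' hx
    have htP : algebraMap K F t ∈ P := hu _ (self_mem_chart _)
    have htP' : algebraMap K F t⁻¹ ∈ P := hu' _ (self_mem_chart _)
    by_cases htV : residue P ⟨_, htP⟩ ∈ V
    · -- the finite chart
      have hV : ∀ x (hx : x ∈ chart O (algebraMap K F t)), residue P ⟨x, hu x hx⟩ ∈ V :=
        red_mem_of_chart hu (fun a => hO a) htV
      haveI : (redPt (residue P) V hu hV).IsPrime := redPt_isPrime
      have hb : ∃ b : O, residue P ⟨_, htP⟩ - f b ∈ V.nonunits := by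
        by_contra hcon
        push Not at hcon
        -- every polynomial in `t` is a unit of `V`
        have hpoly : ∀ q : (ResidueField O)[X], q ≠ 0 →
            (q.eval₂ g (residue P ⟨_, htP⟩))⁻¹ ∈ V := by
          intro q hq
          have hsplit := IsAlgClosed.splits q
          rw [hsplit.eq_prod_roots, eval₂_mul, eval₂_C, mul_inv]
          refine V.mul_mem _ _ ?_ ?_
          · rw [← map_inv₀]; exact hgV _
          · have : ∀ s : Multiset (ResidueField O),
                (((s.map fun a => X - C a).prod).eval₂ g (residue P ⟨_, htP⟩))⁻¹ ∈ V := by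
              intro s
              induction s using Multiset.induction_on with
              | empty => simp
              | cons a s ih =>
                rw [Multiset.map_cons, Multiset.prod_cons, eval₂_mul, mul_inv]
                refine V.mul_mem _ _ ?_ ih
                rw [eval₂_sub, eval₂_X, eval₂_C]
                obtain ⟨b, rfl⟩ := residue_surjective a
                exact inv_mem_of_notMem_nonunits (hcon b)
            exact this _
        apply hδV
        obtain ⟨n, a, ⟨i, hi, hai⟩, hsum⟩ := exists_poly_equation ht hπ δ
        -- reduce the equation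
        have hred : ∑ i ∈ Finset.range (n + 1),
            ((a i).map (residue O)).eval₂ g (residue P ⟨_, htP⟩) * residue P ⟨δ, hδ⟩ ^ i = 0 := by
          have h1 : ∀ q : O[X], (q.map (residue O)).eval₂ g (residue P ⟨_, htP⟩) =
              residue P ⟨aeval (algebraMap K F t) q, hu _ (aeval_mem_chart _ q)⟩ := by
            intro q
            rw [eval₂_map]
            have h2 : g.comp (residue O) = f := RingHom.ext fun _ => rfl
            rw [h2]
            have h3 : (⟨aeval (algebraMap K F t) q, hu _ (aeval_mem_chart _ q)⟩ : P) =
                q.eval₂ ((algebraMap O F).codRestrict P.toSubring (O_mem_over hP))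
                  (⟨_, htP⟩ : P) := by
              apply Subtype.ext
              change aeval (algebraMap K F t) q = P.subtype (q.eval₂ _ _)
              rw [hom_eval₂, aeval_def]
              rfl
            rw [h3, hom_eval₂]
          have h4 : (∑ i ∈ Finset.range (n + 1),
              (⟨aeval (algebraMap K F t) (a i), hu _ (aeval_mem_chart _ (a i))⟩ : P) *
                ⟨δ, hδ⟩ ^ i) = 0 := by
            apply Subtype.ext
            push_cast
            exact hsum
          have h5 := congrArg (residue P) h4
          rw [map_sum, map_zero] at h5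
          rw [← h5]
          exact Finset.sum_congr rfl fun i _ => by rw [h1, map_mul, map_pow]
        -- leading coefficient
        have hne : (a i).map (residue O) ≠ 0 := by
          intro h0
          apply hai
          rw [C_dvd_iff_dvd_coeff]
          intro j
          have h1 := congrArg (fun q => q.coeff j) h0
          simp only [coeff_map, coeff_zero] at h1
          rw [residue_eq_zero_iff, hπ.irreducible.maximalIdeal_eq, Ideal.mem_span_singleton] at h1
          exact h1
        have hcoef : ∀ i, ((a i).map (residue O)).eval₂ g (residue P ⟨_, htP⟩) ∈ V := by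
          intro i
          rw [eval₂_eq_sum_range]
          exact sum_mem fun j _ => mul_mem (hgV _) (pow_mem htV j)
        have huniv : ∀ (n : ℕ), (∃ i ≤ n, (a i).map (residue O) ≠ 0) →
            ∑ i ∈ Finset.range (n + 1),
              ((a i).map (residue O)).eval₂ g (residue P ⟨_, htP⟩) * residue P ⟨δ, hδ⟩ ^ i = 0 →
            residue P ⟨δ, hδ⟩ ∈ V := by
          intro n
          induction n with
          | zero =>
            rintro ⟨i, hi, hai⟩ hs
            obtain rfl : i = 0 := by omega
            exfalso
            rw [zero_add, Finset.sum_range_one, pow_zero, mul_one] at hs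
            exact hδV (by
              have h1 := hpoly _ hai
              -- the polynomial vanishes at `t`: impossible
              have h2 : residue P ⟨aeval (algebraMap K F t) (a 0),
                  hu _ (aeval_mem_chart _ (a 0))⟩ = 0 := by
                rw [← hs, eval₂_map]
                have h2 : g.comp (residue O) = f := RingHom.ext fun _ => rfl
                rw [h2]
                have h3 : (⟨aeval (algebraMap K F t) (a 0), hu _ (aeval_mem_chart _ (a 0))⟩ : P) =
                    (a 0).eval₂ ((algebraMap O F).codRestrict P.toSubring (O_mem_over hP))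
                      (⟨_, htP⟩ : P) := by
                  apply Subtype.ext
                  change aeval (algebraMap K F t) (a 0) = P.subtype ((a 0).eval₂ _ _)
                  rw [hom_eval₂, aeval_def]
                  rfl
                rw [h3, hom_eval₂]
              have h3 := coe_nonunits_iff.mp h2
              exact absurd h3 (aeval_notMem_nonunits hP fun hdvd => hai (by
                rw [C_dvd_iff_dvd_coeff] at hdvd
                ext j
                rw [coeff_map, coeff_zero, residue_eq_zero_iff, hπ.irreducible.maximalIdeal_eq,
                  Ideal.mem_span_singleton]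
                exact hdvd j)))
          | succ n ih =>
            rintro ⟨i, hi, hai⟩ hs
            by_cases hlead : (a (n + 1)).map (residue O) = 0
            · apply ih
              · refine ⟨i, ?_, hai⟩
                by_contra hin
                obtain rfl : i = n + 1 := by omega
                exact hai hlead
              · rw [Finset.sum_range_succ, hlead, eval₂_zero, zero_mul, add_zero] at hs
                exact hs
            · have hinv := hpoly _ hlead
              by_contra hδV'
              have hδi : (residue P ⟨δ, hδ⟩)⁻¹ ∈ V.nonunits := by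
                by_contra h
                have := inv_mem_of_notMem_nonunits h
                rw [inv_inv] at this
                exact hδV' this
              have hδ0 : residue P ⟨δ, hδ⟩ ≠ 0 := fun h0 => hδV' (h0 ▸ V.zero_mem)
              have hl0 : ((a (n + 1)).map (residue O)).eval₂ g (residue P ⟨_, htP⟩) ≠ 0 := by
                intro h0
                rw [Finset.sum_range_succ, h0, zero_mul, add_zero] at hs
                -- evaluate: nonzero polynomial cannot vanish at `t`
                have h2 : residue P ⟨aeval (algebraMap K F t) (a (n + 1)),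
                    hu _ (aeval_mem_chart _ (a (n + 1)))⟩ = 0 := by
                  rw [← h0, eval₂_map]
                  have h2 : g.comp (residue O) = f := RingHom.ext fun _ => rfl
                  rw [h2]
                  have h3 : (⟨aeval (algebraMap K F t) (a (n + 1)),
                      hu _ (aeval_mem_chart _ (a (n + 1)))⟩ : P) =
                      (a (n + 1)).eval₂ ((algebraMap O F).codRestrict P.toSubring (O_mem_over hP))
                        (⟨_, htP⟩ : P) := by
                    apply Subtype.ext
                    change aeval (algebraMap K F t) (a (n + 1)) = P.subtype ((a (n + 1)).eval₂ _ _)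
                    rw [hom_eval₂, aeval_def]
                    rfl
                  rw [h3, hom_eval₂]
                have h3 := coe_nonunits_iff.mp h2
                exact absurd h3 (aeval_notMem_nonunits hP fun hdvd => hlead (by
                  rw [C_dvd_iff_dvd_coeff] at hdvd
                  ext j
                  rw [coeff_map, coeff_zero, residue_eq_zero_iff, hπ.irreducible.maximalIdeal_eq,
                    Ideal.mem_span_singleton]
                  exact hdvd j))
              rw [Finset.sum_range_succ] at hs
              have h6 : (1 : ResidueField P) = -(∑ i ∈ Finset.range (n + 1),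
                  (((a (n + 1)).map (residue O)).eval₂ g (residue P ⟨_, htP⟩))⁻¹ *
                  ((a i).map (residue O)).eval₂ g (residue P ⟨_, htP⟩) *
                  (residue P ⟨δ, hδ⟩)⁻¹ ^ (n + 1 - i)) := by
                have h7 : ∀ i ∈ Finset.range (n + 1),
                    (((a (n + 1)).map (residue O)).eval₂ g (residue P ⟨_, htP⟩))⁻¹ *
                    ((a i).map (residue O)).eval₂ g (residue P ⟨_, htP⟩) *
                    (residue P ⟨δ, hδ⟩)⁻¹ ^ (n + 1 - i) =
                    (((a (n + 1)).map (residue O)).eval₂ g (residue P ⟨_, htP⟩))⁻¹ *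
                    (residue P ⟨δ, hδ⟩)⁻¹ ^ (n + 1) *
                    (((a i).map (residue O)).eval₂ g (residue P ⟨_, htP⟩) *
                      residue P ⟨δ, hδ⟩ ^ i) := by
                  intro i hi
                  rw [Finset.mem_range] at hi
                  have h8 : (residue P ⟨δ, hδ⟩)⁻¹ ^ (n + 1) = (residue P ⟨δ, hδ⟩)⁻¹ ^ (n + 1 - i) *
                      (residue P ⟨δ, hδ⟩)⁻¹ ^ i := by
                    rw [← pow_add]; congr 1; omega
                  rw [h8]
                  have h9 : (residue P ⟨δ, hδ⟩)⁻¹ ^ i * residue P ⟨δ, hδ⟩ ^ i = 1 := by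
                    rw [← mul_pow, inv_mul_cancel₀ hδ0, one_pow]
                  linear_combination (-(((a (n + 1)).map (residue O)).eval₂ g
                    (residue P ⟨_, htP⟩))⁻¹ * ((a i).map (residue O)).eval₂ g
                    (residue P ⟨_, htP⟩) * (residue P ⟨δ, hδ⟩)⁻¹ ^ (n + 1 - i)) * h9
                rw [Finset.sum_congr rfl h7, ← Finset.mul_sum]
                have h10 := eq_neg_of_add_eq_zero_left hs
                rw [h10]
                have h9 : (residue P ⟨δ, hδ⟩)⁻¹ ^ (n + 1) * residue P ⟨δ, hδ⟩ ^ (n + 1) = 1 := by
                  rw [← mul_pow, inv_mul_cancel₀ hδ0, one_pow]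
                have h12 := inv_mul_cancel₀ hl0
                linear_combination -h12 - (((a (n + 1)).map (residue O)).eval₂ g
                    (residue P ⟨_, htP⟩))⁻¹ * ((a (n + 1)).map (residue O)).eval₂ g
                    (residue P ⟨_, htP⟩) * h9
              have h11 : (1 : ResidueField P) ∈ V.nonunits := by
                rw [h6]
                apply nonunits_neg
                have : ∀ s : Finset ℕ, (∀ i ∈ s, i < n + 1) → ∑ i ∈ s,
                    (((a (n + 1)).map (residue O)).eval₂ g (residue P ⟨_, htP⟩))⁻¹ *
                    ((a i).map (residue O)).eval₂ g (residue P ⟨_, htP⟩) *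
                    (residue P ⟨δ, hδ⟩)⁻¹ ^ (n + 1 - i) ∈ V.nonunits := by
                  intro s
                  induction s using Finset.induction_on with
                  | empty => intro _; rw [Finset.sum_empty]; exact zero_mem_nonunits _
                  | insert j s hj ih =>
                    intro hs
                    rw [Finset.sum_insert hj]
                    refine nonunits_add ?_ (ih fun i hi => hs i (Finset.mem_insert_of_mem hi))
                    have hjn := hs j (Finset.mem_insert_self _ _)
                    obtain ⟨m, hm⟩ : ∃ m, n + 1 - j = m + 1 := ⟨n - j, by omega⟩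
                    rw [hm, pow_succ, ← mul_assoc]
                    exact mul_mem_nonunits (V.mul_mem _ _ (V.mul_mem _ _ hinv (hcoef j))
                      (pow_mem (show _ ∈ V from V.nonunits_le hδi) m)) hδi
                exact this _ fun i hi => Finset.mem_range.mp hi
              rw [ValuationSubring.mem_nonunits_iff] at h11
              simp at h11
        exact huniv n ⟨i, hi, hne⟩ hred
      obtain ⟨b, hb⟩ := hb
      haveI : (redPt (residue P) V hu hV).IsMaximal :=
        redPt_isMaximal (c := b) hπ (fun a ha => hf0 a ha) (by
          have e : (⟨algebraMap K F t - algebraMap O F b, hu _ (sub_mem (self_mem_chart _)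
              ((chart O (algebraMap K F t)).algebraMap_mem b))⟩ : P) =
              ⟨_, htP⟩ - ⟨algebraMap O F b, O_mem_over hP b⟩ := rfl
          rw [e, map_sub]
          exact hb)
      have hmeet : Meets (redPt (residue P) V hu hV) P :=
        redPt_meets fun x hx => coe_nonunits_iff.mpr hx
      exact hδV (res_mem_of_reg hδ (hf _ hmeet))
    · -- the chart at infinity
      have ht0 : residue P ⟨_, htP⟩ ≠ 0 := fun h0 => htV (h0 ▸ V.zero_mem)
      have hinv : residue P ⟨_, htP'⟩ = (residue P ⟨_, htP⟩)⁻¹ := by
        refine eq_inv_of_mul_eq_one_left ?_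
        rw [← map_mul]
        have : (⟨_, htP'⟩ : P) * ⟨_, htP⟩ = 1 := by
          apply Subtype.ext
          change algebraMap K F t⁻¹ * algebraMap K F t = 1
          rw [← map_mul, inv_mul_cancel₀ ht.ne_zero, map_one]
        rw [this, map_one]
      have htV' : residue P ⟨_, htP'⟩ ∈ V.nonunits := by
        rw [hinv]
        by_contra h
        have := inv_mem_of_notMem_nonunits h
        rw [inv_inv] at this
        exact htV this
      have hV : ∀ x (hx : x ∈ chart O (algebraMap K F t⁻¹)), residue P ⟨x, hu' x hx⟩ ∈ V :=
        red_mem_of_chart hu' (fun a => hO a) (V.nonunits_le htV')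
      haveI : (redPt (residue P) V hu' hV).IsPrime := redPt_isPrime
      haveI : (redPt (residue P) V hu' hV).IsMaximal :=
        redPt_isMaximal (c := 0) hπ (fun a ha => hf0 a ha) (by
          have e : (⟨algebraMap K F t⁻¹ - algebraMap O F 0, hu' _ (sub_mem (self_mem_chart _)
              ((chart O (algebraMap K F t⁻¹)).algebraMap_mem 0))⟩ : P) = ⟨_, htP'⟩ :=
            Subtype.ext (by simp)
          rw [e]
          exact htV')
      have hmeet : Meets (redPt (residue P) V hu' hV) P :=
        redPt_meets fun x hx => coe_nonunits_iff.mpr hx
      have hty : locM (redPt (residue P) V hu' hV) (algebraMap K F t⁻¹) := by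
        have h1 : (⟨_, self_mem_chart _⟩ : chart O (algebraMap K F t⁻¹)) ∈
            redPt (residue P) V hu' hV := mem_redPt.mpr htV'
        exact locM_of_mem h1
      exact hδV (res_mem_of_reg hδ (hi _ hty hmeet))
  obtain ⟨a, ha⟩ := mem_range_of_closed g hkey
  obtain ⟨c, rfl⟩ := residue_surjective a
  refine ⟨c, ?_⟩
  have h1 : residue P (⟨δ, hδ⟩ - ⟨algebraMap O F c, O_mem_over hP c⟩) = 0 := by
    rw [map_sub, sub_eq_zero, ← ha]
    rfl
  exact coe_nonunits_iff.mp h1

end

end Fermat.Agent.MP
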