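import Mathlib

/-!
# Class groups of local rings of semistable curves after totally ramified base change

`R` is a two dimensional regular local ring with parameters `X`, `Y`; `S = R[y]` with
`y ^ p = X Y · unit`.  We show that every prime ideal of `S` not containing `y` is principal after
inverting `X`.
-/

set_option autoImplicit false

open IsLocalRing

namespace Fermat.Agent.MP

theorem aux_field {K : Type*} [Field K] {a b c d e : K} (hc : c ≠ 0) :
    a * (b / c) * (c * d * e) = d * (a * b * e) := by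
  field_simp

/-- A generator modulo an ideal with a comparability property. -/
theorem exists_gen_mod {S : Type*} [CommRing S] {I J : Ideal S} (hfg : I.FG)
    (hval : ∀ x ∈ I, ∀ x' ∈ I, ∃ c, x - c * x' ∈ J ∨ x' - c * x ∈ J) :
    ∃ f ∈ I, I ≤ Ideal.span {f} ⊔ J := by
  classical
  obtain ⟨T, rfl⟩ := hfg
  have key : ∀ T' : Finset S, T' ⊆ T → ∃ f ∈ Ideal.span (T : Set S),
      ∀ x ∈ T', x ∈ Ideal.span {f} ⊔ J := by
    intro T'
    induction T' using Finset.induction_on with
    | empty => exact fun _ => ⟨0, Ideal.zero_mem _, by simp⟩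
    | insert x T' hx ih =>
      intro hT
      obtain ⟨f, hf, hfT⟩ := ih fun z hz => hT (Finset.mem_insert_of_mem hz)
      have hxT : x ∈ Ideal.span (T : Set S) := Ideal.subset_span (hT (Finset.mem_insert_self _ _))
      obtain ⟨c, hc | hc⟩ := hval x hxT f hf
      · refine ⟨f, hf, fun z hz => ?_⟩
        rcases Finset.mem_insert.mp hz with rfl | hz
        · have h1 : z = c * f + (z - c * f) := by ring
          rw [h1]
          exact Submodule.add_mem_sup (Ideal.mul_mem_left _ _ (Ideal.mem_span_singleton_self f)) hc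
        · exact hfT z hz
      · refine ⟨x, hxT, fun z hz => ?_⟩
        have hfx : Ideal.span {f} ⊔ J ≤ Ideal.span {x} ⊔ J := by
          refine sup_le ?_ le_sup_right
          rw [Ideal.span_singleton_le_iff_mem]
          have h1 : f = c * x + (f - c * x) := by ring
          rw [h1]
          exact Submodule.add_mem_sup (Ideal.mul_mem_left _ _ (Ideal.mem_span_singleton_self x)) hc
        rcases Finset.mem_insert.mp hz with rfl | hz
        · exact Submodule.mem_sup_left (Ideal.mem_span_singleton_self z)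
        · exact hfx (hfT z hz)
  obtain ⟨f, hf, hfT⟩ := key T subset_rfl
  exact ⟨f, hf, Ideal.span_le.mpr fun z hz => hfT z hz⟩

/-- The situation. -/
structure Eis {R S : Type*} [CommRing R] [CommRing S] [Algebra R S] (X Y : R) (y : S) (p : ℕ) :
    Prop where
  pos : 0 < p
  pX : Prime X
  pY : Prime Y
  nXY : ¬ X ∣ Y
  nYX : ¬ Y ∣ X
  max : ∀ c : R, ¬ IsUnit c → ∃ a b, c = X * a + Y * b
  valX : ∀ a b : R, ∃ c, X ∣ a - c * b ∨ X ∣ b - c * a
  valY : ∀ a b : R, ∃ c, Y ∣ a - c * b ∨ Y ∣ b - c * a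
  gen : ∀ v : S, ∃ (a : R) (w : S), v = algebraMap R S a + y * w
  yp : ∃ u : S, IsUnit u ∧ y ^ p = algebraMap R S (X * Y) * u
  indX : ∀ j < p, ∀ a : R, (∃ v w : S, algebraMap R S a * y ^ j =
    v * algebraMap R S X + w * y ^ (j + 1)) → X ∣ a
  indY : ∀ a : R, (∃ v w : S, algebraMap R S a = v * algebraMap R S Y + w * y) → Y ∣ a

namespace Eis

variable {R S : Type*} [CommRing R] [CommRing S] [Algebra R S] {X Y : R} {y : S} {p : ℕ}

variable (X y) in
/-- the ideal `(X, y ^ j)` -/
def aX (j : ℕ) : Ideal S := Ideal.span {algebraMap R S X, y ^ j}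

variable (Y y) in
/-- the ideal `(Y, y)` -/
def aY : Ideal S := Ideal.span {algebraMap R S Y, y}

theorem mem_aX {j : ℕ} {x : S} :
    x ∈ aX X y j ↔ ∃ v w : S, v * algebraMap R S X + w * y ^ j = x := Ideal.mem_span_pair

theorem mem_aY {x : S} : x ∈ aY Y y ↔ ∃ v w : S, v * algebraMap R S Y + w * y = x :=
  Ideal.mem_span_pair

theorem X_mem (j : ℕ) : algebraMap R S X ∈ aX X y j := Ideal.subset_span (by simp)

theorem yj_mem (j : ℕ) : y ^ j ∈ aX X y j := Ideal.subset_span (by simp)

theorem Y_mem : algebraMap R S Y ∈ aY Y y := Ideal.subset_span (by simp)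

theorem y_mem : y ∈ aY Y y := Ideal.subset_span (by simp)

theorem aX_antitone : Antitone (aX X y) := by
  intro i j hij
  rw [aX, Ideal.span_le]
  rintro x (rfl | rfl)
  · exact X_mem i
  · obtain ⟨k, rfl⟩ := Nat.exists_eq_add_of_le hij
    rw [pow_add]
    exact Ideal.mul_mem_right _ _ (yj_mem i)

theorem aX_zero : aX X y 0 = ⊤ := by
  rw [Ideal.eq_top_iff_one, ← pow_zero y]
  exact yj_mem 0

variable (h : Eis X Y y p)
include h

theorem indX' {j : ℕ} (hj : j < p) {a : R} (ha : algebraMap R S a * y ^ j ∈ aX X y (j + 1)) :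
    X ∣ a := by
  obtain ⟨v, w, hvw⟩ := mem_aX.mp ha
  exact h.indX j hj a ⟨v, w, hvw.symm⟩

theorem indX0 {a : R} (ha : algebraMap R S a ∈ aX X y 1) : X ∣ a := by
  apply h.indX' h.pos
  rwa [pow_zero, mul_one]

theorem indY' {a : R} (ha : algebraMap R S a ∈ aY Y y) : Y ∣ a := by
  obtain ⟨v, w, hvw⟩ := mem_aY.mp ha
  exact h.indY a ⟨v, w, hvw.symm⟩

theorem step (j : ℕ) {x : S} (hx : x ∈ aX X y j) :
    ∃ a : R, x - algebraMap R S a * y ^ j ∈ aX X y (j + 1) := by
  obtain ⟨v, w, rfl⟩ := mem_aX.mp hx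
  obtain ⟨a, w', rfl⟩ := h.gen w
  refine ⟨a, mem_aX.mpr ⟨v, w', ?_⟩⟩
  ring

theorem stepY (x : S) : ∃ a : R, x - algebraMap R S a ∈ aY Y y := by
  obtain ⟨a, w, rfl⟩ := h.gen x
  refine ⟨a, ?_⟩
  rw [add_sub_cancel_left]
  exact Ideal.mul_mem_right _ _ y_mem

theorem dvd_XY {a : R} (h1 : X ∣ a) (h2 : Y ∣ a) : X * Y ∣ a := by
  obtain ⟨b, rfl⟩ := h1
  rcases h.pY.dvd_or_dvd h2 with h3 | h3
  · exact absurd h3 h.nYX
  · exact _root_.mul_dvd_mul_left X h3

theorem y_dvd_of {a : R} (h1 : X * Y ∣ a) : y ^ p ∣ algebraMap R S a := by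
  obtain ⟨b, rfl⟩ := h1
  obtain ⟨u, hu, hyp⟩ := h.yp
  rw [hyp, hu.mul_right_dvd]
  exact ⟨algebraMap R S b, map_mul _ _ _⟩

/-- division by `y` -/
theorem div_y {j : ℕ} (hj : j < p) {x : S} (hx : x ∈ aX X y (j + 1)) (hxY : x ∈ aY Y y) :
    ∃ x', x = y * x' ∧ x' ∈ aX X y j := by
  obtain ⟨a, w, hxa⟩ := h.gen x
  have h1 : X ∣ a := by
    apply h.indX0
    have h2 : algebraMap R S a = x - w * y := by rw [hxa]; ring
    rw [h2]
    refine sub_mem (aX_antitone (by omega) hx) (Ideal.mul_mem_left _ _ ?_)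
    have := yj_mem (X := X) (y := y) 1
    rwa [pow_one] at this
  have h2 : Y ∣ a := by
    apply h.indY'
    have h2 : algebraMap R S a = x - w * y := by rw [hxa]; ring
    rw [h2]
    exact sub_mem hxY (Ideal.mul_mem_left _ _ y_mem)
  have h3 : y ∣ algebraMap R S a := (dvd_pow_self y h.pos.ne').trans (h.y_dvd_of (h.dvd_XY h1 h2))
  obtain ⟨b, hb⟩ := h3
  obtain ⟨x', hx'⟩ : ∃ x', x = y * x' := ⟨b + w, by rw [hxa, hb]; ring⟩
  refine ⟨x', hx', ?_⟩
  have key : ∀ i ≤ j, x' ∈ aX X y i := by
    intro i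
    induction i with
    | zero => intro _; rw [aX_zero]; trivial
    | succ i ih =>
      intro hi
      obtain ⟨c, hc⟩ := h.step i (ih (by omega))
      have h4 : y * (x' - algebraMap R S c * y ^ i) ∈ aX X y (i + 2) := by
        obtain ⟨v, w, hvw⟩ := mem_aX.mp hc
        refine mem_aX.mpr ⟨y * v, w, ?_⟩
        rw [← hvw]
        ring
      have h5 : y * x' ∈ aX X y (i + 2) := by
        rw [← hx']
        exact aX_antitone (by omega) hx
      have h6 : algebraMap R S c * y ^ (i + 1) ∈ aX X y (i + 1 + 1) := by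
        have := sub_mem h5 h4
        convert this using 1
        ring
      have h7 : X ∣ c := h.indX' (by omega) h6
      obtain ⟨d, rfl⟩ := h7
      have h8 : algebraMap R S (X * d) * y ^ i ∈ aX X y (i + 1) := by
        rw [map_mul, mul_assoc]
        exact Ideal.mul_mem_right _ _ (X_mem _)
      have := add_mem hc h8
      rwa [sub_add_cancel] at this
  exact key j le_rfl

theorem X_dvd_of_mem {x : S} (hx : x ∈ aX X y p) : algebraMap R S X ∣ x := by
  obtain ⟨v, w, rfl⟩ := mem_aX.mp hx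
  obtain ⟨u, hu, hyp⟩ := h.yp
  refine dvd_add (dvd_mul_left _ _) (Dvd.dvd.mul_left ?_ _)
  rw [hyp, map_mul, mul_assoc]
  exact dvd_mul_right _ _

theorem X_notMem_aY : algebraMap R S X ∉ aY Y y := fun h1 => h.nYX (h.indY' h1)

theorem aY_prime : (aY Y y).IsPrime := by
  constructor
  · rw [Ne, Ideal.eq_top_iff_one, ← map_one (algebraMap R S)]
    intro h1
    exact h.pY.not_dvd_one (h.indY' h1)
  · intro x x' hxx
    obtain ⟨a, ha⟩ := h.stepY x
    obtain ⟨a', ha'⟩ := h.stepY x'
    have h1 : algebraMap R S (a * a') ∈ aY Y y := by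
      have h2 : algebraMap R S (a * a') = x * x' - (x - algebraMap R S a) * x' -
          algebraMap R S a * (x' - algebraMap R S a') := by rw [map_mul]; ring
      rw [h2]
      exact sub_mem (sub_mem hxx (Ideal.mul_mem_right _ _ ha)) (Ideal.mul_mem_left _ _ ha')
    have hY : ∀ {x : S} {a : R}, x - algebraMap R S a ∈ aY Y y → Y ∣ a → x ∈ aY Y y := by
      rintro x a hxa ⟨b, rfl⟩
      have h3 : algebraMap R S (Y * b) ∈ aY Y y := by
        rw [map_mul]
        exact Ideal.mul_mem_right _ _ Y_mem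
      have := add_mem hxa h3
      rwa [sub_add_cancel] at this
    rcases h.pY.dvd_or_dvd (h.indY' h1) with h2 | h2
    · exact Or.inl (hY ha h2)
    · exact Or.inr (hY ha' h2)

theorem X_mul_mem {x : S} (hx : x ∈ aY Y y) : y ∣ algebraMap R S X * x := by
  obtain ⟨v, w, rfl⟩ := mem_aY.mp hx
  have h1 : y ∣ algebraMap R S (X * Y) :=
    (dvd_pow_self y h.pos.ne').trans (h.y_dvd_of dvd_rfl)
  have h2 : algebraMap R S X * (v * algebraMap R S Y + w * y) =
      v * algebraMap R S (X * Y) + (algebraMap R S X * w) * y := by rw [map_mul]; ring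
  rw [h2]
  exact dvd_add (Dvd.dvd.mul_left h1 _) (dvd_mul_left _ _)

variable [IsDomain S] [IsNoetherianRing S] [IsLocalRing S]

/-- a prime ideal not containing `y` is not contained in `(Y, y)` -/
theorem not_le_aY {I : Ideal S} [hI : I.IsPrime] (hI0 : I ≠ ⊥) (hy : y ∉ I) : ¬ I ≤ aY Y y := by
  intro hle
  -- `X I ⊆ y I`
  have h1 : ∀ x ∈ I, ∃ x' ∈ I, algebraMap R S X * x = y * x' := by
    intro x hx
    obtain ⟨x', hx'⟩ := h.X_mul_mem (hle hx)
    refine ⟨x', ?_, hx'⟩
    have h2 : y * x' ∈ I := by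
      rw [← hx']
      exact I.mul_mem_left _ hx
    exact (hI.mem_or_mem h2).resolve_left hy
  -- `X / y` is integral
  let K := FractionRing S
  have hy0 : algebraMap S K y ≠ 0 := by
    rw [Ne, IsFractionRing.to_map_eq_zero_iff]
    rintro rfl
    exact hy I.zero_mem
  let z : K := algebraMap S K (algebraMap R S X) / algebraMap S K y
  let N : Submodule S K := Submodule.map (Algebra.linearMap S K) I
  have hfg : N.FG := Submodule.FG.map _ ((isNoetherianRing_iff_ideal_fg S).mp inferInstance I)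
  have hN : ∃ n ∈ N, n ≠ 0 := by
    obtain ⟨x, hx, hx0⟩ := Submodule.exists_mem_ne_zero_of_ne_bot hI0
    refine ⟨algebraMap S K x, ⟨x, hx, rfl⟩, ?_⟩
    rw [Ne, IsFractionRing.to_map_eq_zero_iff]
    exact hx0
  have hz : IsIntegral S z := by
    refine isIntegral_of_smul_mem_submodule (M := K) (N := N) ?_ hfg z ?_
    · intro hb
      obtain ⟨n, hn, hn0⟩ := hN
      rw [hb] at hn
      exact hn0 ((Submodule.mem_bot S).mp hn)
    · rintro _ ⟨x, hx, rfl⟩
      obtain ⟨x', hx', hxx⟩ := h1 x hx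
      refine ⟨x', hx', ?_⟩
      change algebraMap S K x' = z * algebraMap S K x
      have := congrArg (algebraMap S K) hxx
      rw [map_mul, map_mul] at this
      rw [div_mul_eq_mul_div, this, mul_div_cancel_left₀ _ hy0]
  obtain ⟨P, hP, hPz⟩ := hz
  -- clear denominators
  have h2 : ∃ s : S, algebraMap R S X ^ P.natDegree = y * s := by
    have h3 := hPz
    rw [Polynomial.eval₂_eq_sum_range, Finset.sum_range_succ, hP.coeff_natDegree, map_one,
      one_mul] at h3
    refine ⟨-∑ i ∈ Finset.range P.natDegree, P.coeff i * algebraMap R S X ^ i *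
      y ^ (P.natDegree - 1 - i), ?_⟩
    apply IsFractionRing.injective S K
    have h4 : ∀ i ∈ Finset.range P.natDegree, algebraMap S K (P.coeff i) * z ^ i *
        algebraMap S K y ^ P.natDegree = algebraMap S K (y * (P.coeff i *
        algebraMap R S X ^ i * y ^ (P.natDegree - 1 - i))) := by
      intro i hi
      rw [Finset.mem_range] at hi
      have h5 : algebraMap S K y ^ P.natDegree = algebraMap S K y ^ i * algebraMap S K y *
          algebraMap S K y ^ (P.natDegree - 1 - i) := by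
        rw [← pow_succ, ← pow_add]
        congr 1
        omega
      rw [h5, div_pow, map_mul, map_mul, map_mul, map_pow, map_pow]
      exact aux_field (pow_ne_zero i hy0)
    have h6 : z ^ P.natDegree * algebraMap S K y ^ P.natDegree =
        algebraMap S K (algebraMap R S X) ^ P.natDegree := by
      rw [← mul_pow, div_mul_cancel₀ _ hy0]
    have h7 := congrArg (· * algebraMap S K y ^ P.natDegree) h3
    simp only [add_mul, Finset.sum_mul, zero_mul] at h7
    rw [Finset.sum_congr rfl h4, h6, ← map_sum, ← map_pow, ← Finset.mul_sum] at h7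
    rw [mul_neg, map_neg, eq_neg_iff_add_eq_zero, add_comm]
    exact h7
  obtain ⟨s, hs⟩ := h2
  have h3 : algebraMap R S X ^ P.natDegree ∈ aY Y y := by
    rw [hs]
    exact Ideal.mul_mem_right _ _ y_mem
  exact h.X_notMem_aY (h.aY_prime.mem_of_pow_mem _ h3)

omit [IsDomain S] [IsNoetherianRing S] in
theorem y_nonunit : y ∈ maximalIdeal S := by
  rw [mem_maximalIdeal, mem_nonunits_iff]
  intro hu
  exact h.aY_prime.ne_top (Ideal.eq_top_of_isUnit_mem _ y_mem hu)

omit [IsDomain S] [IsNoetherianRing S] in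
theorem X_nonunit : algebraMap R S X ∈ maximalIdeal S := by
  rw [mem_maximalIdeal, mem_nonunits_iff]
  intro hu
  obtain ⟨w, hw⟩ := hu.exists_left_inv
  apply h.pX.not_dvd_one
  apply h.indX0
  rw [map_one, ← hw]
  exact Ideal.mul_mem_left _ _ (X_mem _)

/-- **Prime ideals not containing `y` are principal after inverting `X`.** -/
theorem exists_gen {I : Ideal S} [hI : I.IsPrime] (hI0 : I ≠ ⊥) (hy : y ∉ I) :
    ∃ f ∈ I, ∀ x ∈ I, f ∣ algebraMap R S X * x := by
  have hfgI : I.FG := (isNoetherianRing_iff_ideal_fg S).mp inferInstance I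
  have hXI : algebraMap R S X ∉ I := by
    intro hX
    obtain ⟨u, hu, hyp⟩ := h.yp
    apply hy
    apply hI.mem_of_pow_mem p
    rw [hyp, map_mul, mul_assoc]
    exact I.mul_mem_right _ hX
  -- the index of the jump
  let M : ℕ → Ideal S := fun j => (I ⊓ aX X y j) ⊔ aY Y y
  have hManti : Antitone M := fun i j hij =>
    sup_le_sup_right (inf_le_inf_left _ (aX_antitone hij)) _
  have hM0 : M 0 = I ⊔ aY Y y := by
    change (I ⊓ aX X y 0) ⊔ aY Y y = _
    rw [aX_zero, inf_top_eq]
  have hMp : M p ≠ M 0 := by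
    intro heq
    apply h.not_le_aY hI0 hy
    refine Submodule.le_of_le_smul_of_le_jacobson_bot (I := maximalIdeal S) hfgI ?_ ?_
    · rw [IsLocalRing.jacobson_eq_maximalIdeal ⊥ bot_ne_top]
    · have h1 : I ≤ M p := by
        rw [heq, hM0]
        exact le_sup_left
      refine h1.trans ?_
      refine sup_le ?_ le_sup_left
      rintro x ⟨hxI, hxp⟩
      obtain ⟨x', rfl⟩ := h.X_dvd_of_mem hxp
      have hx' : x' ∈ I := (hI.mem_or_mem hxI).resolve_left hXI
      exact Submodule.mem_sup_right (Submodule.smul_mem_smul h.X_nonunit hx')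
  obtain ⟨j, hjp, hj1, hj2⟩ : ∃ j < p, M j = M 0 ∧ M (j + 1) ≠ M 0 := by
    by_contra hcon
    push Not at hcon
    have h1 : ∀ j ≤ p, M j = M 0 := by
      intro j
      induction j with
      | zero => exact fun _ => rfl
      | succ j ih => exact fun hj => hcon j (by omega) (ih (by omega))
    exact hMp (h1 p le_rfl)
  -- the generator
  have hfgj : (I ⊓ aX X y j).FG := (isNoetherianRing_iff_ideal_fg S).mp inferInstance _
  obtain ⟨f, hf, hfgen⟩ := exists_gen_mod (J := aY Y y) hfgj (by
    intro x _ x' _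
    obtain ⟨a, ha⟩ := h.stepY x
    obtain ⟨a', ha'⟩ := h.stepY x'
    have key : ∀ {x x' : S} {a a' c : R}, x - algebraMap R S a ∈ aY Y y →
        x' - algebraMap R S a' ∈ aY Y y → Y ∣ a - c * a' →
        x - algebraMap R S c * x' ∈ aY Y y := by
      rintro x x' a a' c ha ha' ⟨b, hb⟩
      have h1 : x - algebraMap R S c * x' = (x - algebraMap R S a) -
          algebraMap R S c * (x' - algebraMap R S a') + algebraMap R S (a - c * a') := by
        rw [map_sub, map_mul]; ring
      rw [h1, hb, map_mul]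
      exact add_mem (sub_mem ha (Ideal.mul_mem_left _ _ ha')) (Ideal.mul_mem_right _ _ Y_mem)
    obtain ⟨c, hc | hc⟩ := h.valY a a'
    · exact ⟨_, Or.inl (key ha ha' hc)⟩
    · exact ⟨_, Or.inr (key ha' ha hc)⟩)
  have hMj : M j ≤ Ideal.span {f} ⊔ aY Y y := sup_le hfgen le_sup_right
  -- `f` is not in the sum of the two smaller ideals
  have hfnot : ∀ k ∈ I, k ∈ aY Y y → ∀ g ∈ I, g ∈ aX X y (j + 1) → f ≠ k + g := by
    rintro k hk hkY g hg hgX rfl
    apply hj2
    rw [← hj1]
    refine le_antisymm (hManti (Nat.le_succ j)) (hMj.trans (sup_le ?_ le_sup_right))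
    rw [Ideal.span_singleton_le_iff_mem, add_comm k g]
    exact Submodule.add_mem_sup ⟨hg, hgX⟩ hkY
  -- the key inclusion
  have hkey : ∀ x ∈ I ⊓ aX X y j, x ∈ aY Y y →
      x ∈ Ideal.span {f} ⊔ maximalIdeal S • (I ⊓ aX X y j) := by
    rintro x ⟨hxI, hxj⟩ hxY
    obtain ⟨hfI, hfj⟩ := hf
    obtain ⟨a, ha⟩ := h.step j hxj
    obtain ⟨b, hb⟩ := h.step j hfj
    -- comparison
    have hno : ∀ c : R, ¬ X ∣ b - c * a := by
      rintro c ⟨d, hd⟩
      have h1 : f - algebraMap R S c * x ∈ aX X y (j + 1) := by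
        have h2 : f - algebraMap R S c * x = (f - algebraMap R S b * y ^ j) -
            algebraMap R S c * (x - algebraMap R S a * y ^ j) +
            algebraMap R S (b - c * a) * y ^ j := by
          rw [map_sub, map_mul]; ring
        rw [h2, hd, map_mul, mul_assoc]
        exact add_mem (sub_mem hb (Ideal.mul_mem_left _ _ ha)) (Ideal.mul_mem_right _ _ (X_mem _))
      refine hfnot (algebraMap R S c * x) (I.mul_mem_left _ hxI) (Ideal.mul_mem_left _ _ hxY)
        (f - algebraMap R S c * x) (sub_mem hfI (I.mul_mem_left _ hxI)) h1 (by ring)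
    obtain ⟨c, hc | hc⟩ := h.valX a b
    swap
    · exact absurd hc (hno c)
    have hcu : ¬ IsUnit c := by
      intro hu
      obtain ⟨d, hd⟩ := hu.exists_left_inv
      apply hno d
      have h1 : b - d * a = -d * (a - c * b) := by
        linear_combination (-b) * hd
      rw [h1]
      exact Dvd.dvd.mul_left hc _
    obtain ⟨u, v, rfl⟩ := h.max c hcu
    set x'' : S := x - algebraMap R S (Y * v) * f with hx''
    have hx''I : x'' ∈ I := sub_mem hxI (I.mul_mem_left _ hfI)
    have hx''Y : x'' ∈ aY Y y := by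
      refine sub_mem hxY (Ideal.mul_mem_right _ _ ?_)
      rw [map_mul]
      exact Ideal.mul_mem_right _ _ Y_mem
    have hx''X : x'' ∈ aX X y (j + 1) := by
      obtain ⟨d, hd⟩ := hc
      have h1 : x'' = (x - algebraMap R S a * y ^ j) -
          algebraMap R S (Y * v) * (f - algebraMap R S b * y ^ j) +
          algebraMap R S (X * (d + u * b)) * y ^ j := by
        have h2 : X * (d + u * b) = a - (Y * v) * b := by
          linear_combination (-1) * hd
        rw [h2, hx'', map_sub, map_mul _ (Y * v) b]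
        ring
      rw [h1]
      refine add_mem (sub_mem ha (Ideal.mul_mem_left _ _ hb)) ?_
      rw [map_mul, mul_assoc]
      exact Ideal.mul_mem_right _ _ (X_mem _)
    obtain ⟨x3, hx3, hx3X⟩ := h.div_y hjp hx''X hx''Y
    have hx3I : x3 ∈ I := by
      rw [hx3] at hx''I
      exact (hI.mem_or_mem hx''I).resolve_left hy
    have h3 : x = algebraMap R S (Y * v) * f + y * x3 := by
      rw [← hx3, hx'']; ring
    rw [h3]
    exact Submodule.add_mem_sup (Ideal.mul_mem_left _ _ (Ideal.mem_span_singleton_self f))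
      (Submodule.smul_mem_smul h.y_nonunit ⟨hx3I, hx3X⟩)
  have hle : I ⊓ aX X y j ≤ Ideal.span {f} ⊔ maximalIdeal S • (I ⊓ aX X y j) := by
    intro x hx
    have h1 : x ∈ Ideal.span {f} ⊔ aY Y y := hfgen hx
    obtain ⟨u, hu, v, hv, rfl⟩ := Submodule.mem_sup.mp h1
    obtain ⟨c, rfl⟩ := Ideal.mem_span_singleton'.mp hu
    have h2 : v ∈ I ⊓ aX X y j := by
      have := sub_mem hx (Ideal.mul_mem_left _ c hf)
      rwa [add_sub_cancel_left] at this
    exact add_mem (Submodule.mem_sup_left (Ideal.mul_mem_left _ _ (Ideal.mem_span_singleton_self f)))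
      (hkey v h2 hv)
  have hfin : I ⊓ aX X y j ≤ Ideal.span {f} := by
    apply Submodule.le_of_le_smul_of_le_jacobson_bot hfgj _ hle
    rw [IsLocalRing.jacobson_eq_maximalIdeal ⊥ bot_ne_top]
  refine ⟨f, hf.1, fun x hx => ?_⟩
  rw [← Ideal.mem_span_singleton]
  exact hfin ⟨I.mul_mem_left _ hx, Ideal.mul_mem_right _ _ (X_mem _)⟩

end Eis

end Fermat.Agent.MP
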