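import Mathlib
import Fermat.Agent.MP.Loc1
import Fermat.Agent.CA.Ufd
import Fermat.Agent.CA.Loc

/-!
# Factorisation of functions whose divisor is divisible, near a crossing point
-/

set_option autoImplicit false

open IsLocalRing

namespace Fermat.Agent.MP

open Fermat.Agent.Geo Fermat.Agent.CA

namespace Eis

variable {R S T : Type*} [CommRing R] [CommRing S] [Algebra R S] {X Y : R} {y : S} {p : ℕ}
  [IsDomain S] [IsNoetherianRing S] [IsLocalRing S] [CommRing T] [IsDomain T] [Algebra S T]
  [IsLocalization.Away (algebraMap R S X) T]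

theorem X_ne (h : Eis X Y y p) : algebraMap R S X ≠ 0 := by
  intro h0
  apply h.X_notMem_aY
  rw [h0]
  exact zero_mem _

theorem injT (h : Eis X Y y p) : Function.Injective (algebraMap S T) :=
  IsLocalization.injective T (powers_le_nonZeroDivisors_of_noZeroDivisors h.X_ne)

theorem isUnit_X (T : Type*) [CommRing T] [Algebra S T] [IsLocalization.Away (algebraMap R S X) T] :
    IsUnit (algebraMap S T (algebraMap R S X)) := IsLocalization.Away.algebraMap_isUnit _

theorem y_ne (h : Eis X Y y p) : y ≠ 0 := by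
  rintro rfl
  apply h.pX.not_dvd_one
  apply h.indX0 (y := 0)
  have h1 := h.y_dvd_of (a := X * Y) dvd_rfl
  rw [zero_pow h.pos.ne', zero_dvd_iff, map_mul] at h1
  rcases mul_eq_zero.mp h1 with h2 | h2
  · exact absurd h2 h.X_ne
  · exfalso
    apply h.nXY
    apply h.indX0
    rw [h2]
    exact zero_mem _

/-- elements of `(Y, y)` are multiples of `y` in `T` -/
theorem dvd_T (h : Eis X Y y p) {x : S} (hx : x ∈ aY Y y) :
    algebraMap S T y ∣ algebraMap S T x := by
  obtain ⟨c, hc⟩ := h.X_mul_mem hx
  have h1 : algebraMap S T y ∣ algebraMap S T (algebraMap R S X) * algebraMap S T x := by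
    rw [← map_mul, hc, map_mul]
    exact dvd_mul_right _ _
  exact (isUnit_X (R := R) (S := S) (X := X) T).dvd_mul_left.mp h1

theorem exists_S (T : Type*) [CommRing T] [Algebra S T]
    [IsLocalization.Away (algebraMap R S X) T] (t : T) :
    ∃ (n : ℕ) (s : S), algebraMap S T (algebraMap R S X) ^ n * t = algebraMap S T s := by
  obtain ⟨n, s, hs⟩ := IsLocalization.Away.surj (algebraMap R S X) t
  exact ⟨n, s, by rw [mul_comm]; exact hs⟩

theorem dvd_T_iff (h : Eis X Y y p) {x : S} :
    algebraMap S T y ∣ algebraMap S T x ↔ x ∈ aY Y y := by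
  refine ⟨fun hx => ?_, h.dvd_T⟩
  obtain ⟨c, hc⟩ := hx
  obtain ⟨n, s, hs⟩ := exists_S (R := R) (S := S) (X := X) T c
  have h1 : algebraMap R S X ^ n * x = y * s := by
    apply h.injT (T := T)
    rw [map_mul, map_pow, map_mul, hc, ← hs]
    ring
  have h2 : algebraMap R S X ^ n * x ∈ aY Y y := by
    rw [h1]
    exact Ideal.mul_mem_right _ _ y_mem
  rcases h.aY_prime.mem_or_mem h2 with h3 | h3
  · exact absurd (h.aY_prime.mem_of_pow_mem _ h3) h.X_notMem_aY
  · exact h3

theorem y_prime (h : Eis X Y y p) : Prime (algebraMap S T y) := by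
  refine ⟨?_, ?_, ?_⟩
  · rw [Ne, map_eq_zero_iff _ (h.injT (T := T))]
    exact h.y_ne
  · intro hu
    have h1 : algebraMap S T y ∣ algebraMap S T (1 : S) := hu.dvd
    rw [h.dvd_T_iff] at h1
    exact h.aY_prime.ne_top ((Ideal.eq_top_iff_one _).mpr h1)
  · intro a b hab
    obtain ⟨n, s, hs⟩ := exists_S (R := R) (S := S) (X := X) T a
    obtain ⟨k, t, ht⟩ := exists_S (R := R) (S := S) (X := X) T b
    have h1 : algebraMap S T y ∣ algebraMap S T (s * t) := by
      rw [map_mul, ← hs, ← ht]
      have : algebraMap S T (algebraMap R S X) ^ n * a *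
          (algebraMap S T (algebraMap R S X) ^ k * b) =
          algebraMap S T (algebraMap R S X) ^ (n + k) * (a * b) := by ring
      rw [this]
      exact Dvd.dvd.mul_left hab _
    rw [h.dvd_T_iff] at h1
    have key : ∀ {n : ℕ} {a : T} {s : S}, algebraMap S T (algebraMap R S X) ^ n * a =
        algebraMap S T s → s ∈ aY Y y → algebraMap S T y ∣ a := by
      intro n a s hs hsY
      have h2 := h.dvd_T (T := T) hsY
      rw [← hs] at h2
      exact ((isUnit_X (R := R) (S := S) (X := X) T).pow n).dvd_mul_left.mp h2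
    rcases h.aY_prime.mem_or_mem h1 with h2 | h2
    · exact Or.inl (key hs h2)
    · exact Or.inr (key ht h2)

/-- **The localised ring is factorial.** -/
theorem ufd (h : Eis X Y y p) : UniqueFactorizationMonoid T := by
  refine UniqueFactorizationMonoid.iff_exists_prime_mem_of_isPrime.mpr fun J hJ0 hJ => ?_
  set I := J.comap (algebraMap S T) with hI
  have hIp : I.IsPrime := Ideal.IsPrime.comap _
  have hI0 : I ≠ ⊥ := by
    intro h0
    obtain ⟨t, ht, ht0⟩ := Submodule.exists_mem_ne_zero_of_ne_bot hJ0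
    obtain ⟨n, s, hs⟩ := exists_S (R := R) (S := S) (X := X) T t
    have h1 : s ∈ I := by
      rw [hI, Ideal.mem_comap, ← hs]
      exact J.mul_mem_left _ ht
    rw [h0, Ideal.mem_bot] at h1
    rw [h1, map_zero] at hs
    exact ht0 ((((isUnit_X (R := R) (S := S) (X := X) T).pow n).mul_right_eq_zero).mp hs)
  by_cases hy : y ∈ I
  · exact ⟨_, hy, h.y_prime⟩
  obtain ⟨f, hf, hfI⟩ := h.exists_gen hI0 hy
  have hJf : J = Ideal.span {algebraMap S T f} := by
    refine le_antisymm (fun t ht => ?_) ?_
    · obtain ⟨n, s, hs⟩ := exists_S (R := R) (S := S) (X := X) T t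
      have h1 : s ∈ I := by
        rw [hI, Ideal.mem_comap, ← hs]
        exact J.mul_mem_left _ ht
      rw [Ideal.mem_span_singleton]
      have h2 : algebraMap S T f ∣ algebraMap S T (algebraMap R S X) * algebraMap S T s := by
        rw [← map_mul]
        exact map_dvd _ (hfI s h1)
      rw [(isUnit_X (R := R) (S := S) (X := X) T).dvd_mul_left, ← hs,
        ((isUnit_X (R := R) (S := S) (X := X) T).pow n).dvd_mul_left] at h2
      exact h2
    · rw [Ideal.span_singleton_le_iff_mem]
      exact hf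
  refine ⟨algebraMap S T f, hf, ?_⟩
  have hf0 : algebraMap S T f ≠ 0 := by
    intro h0
    rw [h0] at hJf
    exact hJ0 (by rw [hJf]; simp)
  rw [← Ideal.span_singleton_prime hf0, ← hJf]
  exact hJ

end Eis

/-! ### Valuation rings of the components -/

/-- The valuation ring attached to the component `Z = 0`. -/
structure Cmp {R S K : Type*} [CommRing R] [CommRing S] [Algebra R S] [Field K] [Algebra S K]
    (Z : R) (y : S) (V : ValuationSubring K) : Prop where
  mem : ∀ s : S, algebraMap S K s ∈ V
  unit : ∀ a : R, ¬ Z ∣ a → (algebraMap S K (algebraMap R S a))⁻¹ ∈ V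
  non : algebraMap S K y ∈ V.nonunits

section Val

variable {K : Type*} [Field K] {V : ValuationSubring K}

theorem inv_mem_of_notMem {x : K} (h : x ∉ V.nonunits) : x⁻¹ ∈ V := by
  rw [ValuationSubring.mem_nonunits_iff_or, not_or, not_not] at h
  exact h.2

theorem nonunits_mul {x z : K} (hx : x ∈ V) (hz : z ∈ V.nonunits) : x * z ∈ V.nonunits :=
  mul_mem_nonunits hx hz

end Val

namespace Eis

section K

variable {R S T K : Type*} [CommRing R] [CommRing S] [Algebra R S] {X Y : R} {y : S} {p : ℕ}
  [IsDomain S] [IsNoetherianRing S] [IsLocalRing S] [Field K] [Algebra S K] [IsFractionRing S K]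
  {V : ValuationSubring K}

theorem unit_Y (h : Eis X Y y p) (hV : Cmp Y y V) {s : S} (hs : s ∉ aY Y y) :
    (algebraMap S K s)⁻¹ ∈ V := by
  obtain ⟨a, w, hsa⟩ := h.gen s
  have hYa : ¬ Y ∣ a := by
    rintro ⟨b, rfl⟩
    apply hs
    rw [hsa, map_mul]
    exact add_mem (Ideal.mul_mem_right _ _ Y_mem) (Ideal.mul_mem_right _ _ y_mem)
  apply inv_mem_of_notMem
  intro hn
  have h1 : algebraMap S K (algebraMap R S a) ∈ V.nonunits := by
    have h2 : algebraMap S K (algebraMap R S a) = algebraMap S K s -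
        algebraMap S K w * algebraMap S K y := by
      rw [hsa, map_add, map_mul]; ring
    rw [h2]
    exact nonunits_sub hn (nonunits_mul (hV.mem w) hV.non)
  have h3 := hV.unit a hYa
  refine notMem_nonunits_of_inv h3 ?_ h1
  intro h0
  rw [map_eq_zero_iff _ (IsFractionRing.injective S K)] at h0
  apply hYa
  apply h.indY'
  rw [h0]
  exact zero_mem _

theorem X_eq (h : Eis X Y y p) (hV : Cmp X y V) :
    ∃ c : K, c ∈ V ∧ c⁻¹ ∈ V ∧ algebraMap S K (algebraMap R S X) = algebraMap S K y ^ p * c := by
  obtain ⟨u, hu, hyp⟩ := h.yp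
  obtain ⟨u', hu'⟩ := hu.exists_left_inv
  have hY := hV.unit Y h.nXY
  have hY0 : algebraMap S K (algebraMap R S Y) ≠ 0 := by
    intro h0
    rw [map_eq_zero_iff _ (IsFractionRing.injective S K)] at h0
    apply h.nXY
    apply h.indX0
    rw [h0]
    exact zero_mem _
  have hu0 : algebraMap S K u' * algebraMap S K u = 1 := by
    rw [← map_mul, hu', map_one]
  refine ⟨algebraMap S K u' * (algebraMap S K (algebraMap R S Y))⁻¹, mul_mem (hV.mem u') hY, ?_, ?_⟩
  · have h1 : (algebraMap S K u' * (algebraMap S K (algebraMap R S Y))⁻¹)⁻¹ =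
        algebraMap S K u * algebraMap S K (algebraMap R S Y) := by
      rw [mul_inv, inv_inv, inv_eq_of_mul_eq_one_right hu0]
    rw [h1]
    exact mul_mem (hV.mem u) (hV.mem _)
  · rw [← map_pow, hyp, map_mul, map_mul, map_mul]
    have h1 : algebraMap S K (algebraMap R S X) * algebraMap S K (algebraMap R S Y) *
        algebraMap S K u * (algebraMap S K u' * (algebraMap S K (algebraMap R S Y))⁻¹) =
        algebraMap S K (algebraMap R S X) * (algebraMap S K u' * algebraMap S K u) *
          (algebraMap S K (algebraMap R S Y) * (algebraMap S K (algebraMap R S Y))⁻¹) := by ring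
    rw [h1, hu0, mul_inv_cancel₀ hY0, mul_one, mul_one]

theorem unit_X (h : Eis X Y y p) (hV : Cmp X y V) {i : ℕ} (hi : i < p) {s : S}
    (hs : s ∈ aX X y i) (hs' : s ∉ aX X y (i + 1)) :
    algebraMap S K s / algebraMap S K y ^ i ∈ V ∧
      (algebraMap S K s / algebraMap S K y ^ i)⁻¹ ∈ V := by
  obtain ⟨v, w, rfl⟩ := mem_aX.mp hs
  obtain ⟨b, w', rfl⟩ := h.gen w
  have hXb : ¬ X ∣ b := by
    rintro ⟨d, rfl⟩
    apply hs'
    have h1 : v * algebraMap R S X + (algebraMap R S (X * d) + y * w') * y ^ i =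
        (v + algebraMap R S d * y ^ i) * algebraMap R S X + w' * y ^ (i + 1) := by
      rw [map_mul]; ring
    rw [h1]
    exact mem_aX.mpr ⟨_, _, rfl⟩
  obtain ⟨c, hc, hci, hX⟩ := h.X_eq hV
  have hy0 : algebraMap S K y ≠ 0 := by
    rw [Ne, map_eq_zero_iff _ (IsFractionRing.injective S K)]
    exact h.y_ne
  obtain ⟨k, hk⟩ : ∃ k, p = i + 1 + k := Nat.exists_eq_add_of_lt hi |>.imp fun k hk => by omega
  have key : algebraMap S K (v * algebraMap R S X + (algebraMap R S b + y * w') * y ^ i) /
      algebraMap S K y ^ i = algebraMap S K (algebraMap R S b) +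
        (algebraMap S K v * algebraMap S K y ^ k * c + algebraMap S K w') * algebraMap S K y := by
    rw [map_add, map_mul, map_mul, map_add, map_mul, map_pow, hX, hk, pow_add, pow_add, pow_one]
    have := pow_ne_zero i hy0
    field_simp
    ring
  have hm2 : (algebraMap S K v * algebraMap S K y ^ k * c + algebraMap S K w') *
      algebraMap S K y ∈ V.nonunits :=
    nonunits_mul (add_mem (mul_mem (mul_mem (hV.mem v) (pow_mem (hV.mem y) k)) hc) (hV.mem w'))
      hV.non
  rw [key]
  refine ⟨add_mem (hV.mem _) (ValuationSubring.nonunits_subset hm2), inv_mem_of_notMem ?_⟩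
  intro hn
  have h1 := nonunits_sub hn hm2
  rw [add_sub_cancel_right] at h1
  refine notMem_nonunits_of_inv (hV.unit b hXb) ?_ h1
  intro h0
  rw [map_eq_zero_iff _ (IsFractionRing.injective S K)] at h0
  apply hXb
  apply h.indX0
  rw [h0]
  exact zero_mem _

end K

end Eis

end Fermat.Agent.MP
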