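import Mathlib
import Fermat.Agent.MP.Loc2
import Fermat.Agent.CA.ValZ

/-!
# Local factorisation at a crossing point
-/

set_option autoImplicit false

open IsLocalRing

universe u

namespace Fermat.Agent.MP

open Fermat.Agent.Geo Fermat.Agent.CA

section Vl

variable {K : Type u} [Field K] {V : ValuationSubring K} {u x : K} {k k' : ℤ}

theorem zpow_unit (hn : u ∈ V.nonunits) {j : ℤ} (h : UC V (u ^ j) (u ^ j)) : j = 0 := by
  have key : ∀ n : ℕ, 0 < n → u ^ n ∈ V.nonunits := by
    intro n hn'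
    obtain ⟨r, rfl⟩ : ∃ r, n = r + 1 := ⟨n - 1, by omega⟩
    rw [pow_succ]
    exact mul_mem_nonunits (pow_mem (show u ∈ V from V.nonunits_le hn) r) hn
  rcases lt_trichotomy j 0 with hj | hj | hj
  · exfalso
    obtain ⟨n, hn⟩ : ∃ n : ℕ, -j = n := ⟨(-j).toNat, by omega⟩
    have h1 := h.invs
    rw [← zpow_neg, hn, zpow_natCast] at h1
    exact h1.notMem (key n (by omega))
  · exact hj
  · exfalso
    obtain ⟨n, hn⟩ : ∃ n : ℕ, j = n := ⟨j.toNat, by omega⟩
    rw [hn, zpow_natCast] at h
    exact h.notMem (key n (by omega))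

theorem vl_uniq (h : Vl V u x k) (h' : Vl V u x k') (hn : u ∈ V.nonunits) (h0 : u ≠ 0) :
    k = k' := by
  have h1 := h.div h' h0
  rw [div_self h.ne] at h1
  have h2 : UC V (u ^ (k - k')) (u ^ (k - k')) := by
    have := UC.invs h1
    rwa [one_div, inv_inv] at this
  have := zpow_unit hn h2
  omega

end Vl

namespace Eis

section K

variable {R S K : Type u} [CommRing R] [CommRing S] [Algebra R S] {X Y : R} {y : S} {p : ℕ}
  [IsDomain S] [IsNoetherianRing S] [IsLocalRing S] [Field K] [Algebra S K] [IsFractionRing S K]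
  {V : ValuationSubring K}

theorem yK_ne (h : Eis X Y y p) : algebraMap S K y ≠ 0 := by
  rw [Ne, map_eq_zero_iff _ (IsFractionRing.injective S K)]
  exact h.y_ne

theorem vl_X (h : Eis X Y y p) (hV : Cmp X y V) :
    Vl V (algebraMap S K y) (algebraMap S K (algebraMap R S X)) p := by
  obtain ⟨c, hc, hci, hX⟩ := h.X_eq hV
  have hy0 : algebraMap S K y ^ p ≠ 0 := pow_ne_zero _ h.yK_ne
  have hX0 : algebraMap S K (algebraMap R S X) ≠ 0 := by
    rw [Ne, map_eq_zero_iff _ (IsFractionRing.injective S K)]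
    exact h.X_ne
  have hc0 : c ≠ 0 := by
    rintro rfl
    rw [mul_zero] at hX
    exact hX0 hX
  rw [Vl, zpow_natCast, hX, mul_div_cancel_left₀ _ hy0]
  exact UC.refl hc0 hc hci

theorem vl_of_aX (h : Eis X Y y p) (hV : Cmp X y V) {i : ℕ} (hi : i < p) {s : S}
    (hs : s ∈ aX X y i) (hs' : s ∉ aX X y (i + 1)) :
    Vl V (algebraMap S K y) (algebraMap S K s) i := by
  obtain ⟨h1, h2⟩ := h.unit_X hV hi hs hs'
  have hs0 : algebraMap S K s ≠ 0 := by
    rw [Ne, map_eq_zero_iff _ (IsFractionRing.injective S K)]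
    rintro rfl
    exact hs' (zero_mem _)
  rw [Vl, zpow_natCast]
  exact UC.refl (div_ne_zero hs0 (pow_ne_zero _ h.yK_ne)) h1 h2

theorem X_nonunit' (h : Eis X Y y p) : ¬ IsUnit (algebraMap R S X) := by
  intro hu
  have h1 := h.X_nonunit
  exact h1 hu

theorem exists_aX (h : Eis X Y y p) {s : S} (hs : ¬ algebraMap R S X ∣ s) :
    ∃ i < p, s ∈ aX X y i ∧ s ∉ aX X y (i + 1) := by
  have hp : s ∉ aX X y p := by
    intro hsp
    obtain ⟨v, w, rfl⟩ := mem_aX.mp hsp
    obtain ⟨u, hu, hyp⟩ := h.yp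
    apply hs
    rw [hyp]
    exact ⟨v + w * (algebraMap R S Y * u), by rw [map_mul]; ring⟩
  have h0 : s ∈ aX X y 0 := by rw [aX_zero]; trivial
  by_contra hcon
  push Not at hcon
  have : ∀ i ≤ p, s ∈ aX X y i := by
    intro i
    induction i with
    | zero => exact fun _ => h0
    | succ i ih => exact fun hi => hcon i (by omega) (ih (by omega))
  exact hp (this p le_rfl)

/-- Divisors of powers of `X`. -/
theorem dvd_pow_X (h : Eis X Y y p) (hV : Cmp X y V) {r r' : S} {k : ℕ}
    (hr : r * r' = algebraMap R S X ^ k) : ∃ (a : ℕ) (ε : S), IsUnit ε ∧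
      r = algebraMap R S X ^ a * ε := by
  have hXk : algebraMap R S X ^ k ≠ 0 := pow_ne_zero _ h.X_ne
  have hr0 : r ≠ 0 := by rintro rfl; rw [zero_mul] at hr; exact hXk hr.symm
  have hr0' : r' ≠ 0 := by rintro rfl; rw [mul_zero] at hr; exact hXk hr.symm
  obtain ⟨a, r₁, hr₁, e₁⟩ := WfDvdMonoid.max_power_factor' hr0 h.X_nonunit'
  obtain ⟨a', r₂, hr₂, e₂⟩ := WfDvdMonoid.max_power_factor' hr0' h.X_nonunit'
  obtain ⟨i, hi, m1, m2⟩ := h.exists_aX hr₁
  obtain ⟨j, hj, n1, n2⟩ := h.exists_aX hr₂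
  have hy0 := h.yK_ne (K := K)
  have E : algebraMap R S X ^ (a + a') * (r₁ * r₂) = algebraMap R S X ^ k := by
    rw [← hr, e₁, e₂]; ring
  have v1 : Vl V (algebraMap S K y) (algebraMap S K (algebraMap R S X ^ k)) (k * p) := by
    rw [map_pow]
    exact (h.vl_X hV).pow hy0 k
  have v2 : Vl V (algebraMap S K y) (algebraMap S K (algebraMap R S X ^ k))
      ((a + a' : ℕ) * p + (i + j)) := by
    rw [← E, map_mul, map_mul, map_pow]
    exact ((h.vl_X hV).pow hy0 _).mul ((h.vl_of_aX hV hi m1 m2).mul (h.vl_of_aX hV hj n1 n2) hy0) hy0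
  have hk := vl_uniq v1 v2 hV.non hy0
  have hij : i + j = 0 ∨ i + j = p := by
    have h1 : (k : ℤ) * p = ((a + a' : ℕ) : ℤ) * p + (i + j) := hk
    have h2 : k * p = (a + a') * p + (i + j) := by exact_mod_cast h1
    have h3 : p ∣ i + j := by
      have h4 : p ∣ (a + a') * p + (i + j) := by rw [← h2]; exact dvd_mul_left p k
      exact (Nat.dvd_add_right (dvd_mul_left p _)).mp h4
    obtain ⟨c, hc⟩ := h3
    have h5 : c < 2 := by
      by_contra hcon
      have : p * 2 ≤ p * c := Nat.mul_le_mul_left p (by omega)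
      omega
    interval_cases c
    · left; omega
    · right; omega
  rcases hij with hij | hij
  · have hka : k = a + a' := by
      have h1 : (k : ℤ) * p = ((a + a' : ℕ) : ℤ) * p + (i + j) := hk
      have h2 : k * p = (a + a') * p + (i + j) := by exact_mod_cast h1
      rw [hij, add_zero] at h2
      exact Nat.eq_of_mul_eq_mul_right h.pos h2
    rw [hka] at E
    have h1 : r₁ * r₂ = 1 := by
      have h2 := mul_left_cancel₀ (pow_ne_zero _ h.X_ne) (E.trans (mul_one _).symm)
      exact h2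
    exact ⟨a, r₁, IsUnit.of_mul_eq_one _ h1, e₁⟩
  · exfalso
    have hka : k = a + a' + 1 := by
      have h1 : (k : ℤ) * p = ((a + a' : ℕ) : ℤ) * p + (i + j) := hk
      have h2 : k * p = (a + a') * p + (i + j) := by exact_mod_cast h1
      rw [hij] at h2
      have h3 : k * p = (a + a' + 1) * p := by rw [h2]; ring
      exact Nat.eq_of_mul_eq_mul_right h.pos h3
    rw [hka, pow_succ] at E
    have h1 : r₁ * r₂ = algebraMap R S X := mul_left_cancel₀ (pow_ne_zero _ h.X_ne) E
    obtain ⟨v, w, hvw⟩ := mem_aX.mp m1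
    obtain ⟨v', w', hvw'⟩ := mem_aX.mp n1
    obtain ⟨u, hu, hyp⟩ := h.yp
    have h2 : algebraMap R S X * (v * v' * algebraMap R S X + v * w' * y ^ j + v' * w * y ^ i +
        w * w' * (algebraMap R S Y * u)) = algebraMap R S X * 1 := by
      rw [mul_one]
      conv_rhs => rw [← h1, ← hvw, ← hvw']
      have h3 : (v * algebraMap R S X + w * y ^ i) * (v' * algebraMap R S X + w' * y ^ j) =
          algebraMap R S X * (v * v' * algebraMap R S X + v * w' * y ^ j + v' * w * y ^ i) +
          w * w' * y ^ (i + j) := by rw [pow_add]; ring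
      rw [h3, hij, hyp, map_mul]
      ring
    have h3 := mul_left_cancel₀ h.X_ne h2
    have hnon : (v * v' * algebraMap R S X + v * w' * y ^ j + v' * w * y ^ i +
        w * w' * (algebraMap R S Y * u)) ∈ maximalIdeal S := by
      have hy : y ∈ maximalIdeal S := (mem_maximalIdeal _).mpr h.y_nonunit
      have hX : algebraMap R S X ∈ maximalIdeal S := (mem_maximalIdeal _).mpr h.X_nonunit'
      have hY : algebraMap R S Y ∈ maximalIdeal S := by
        rw [mem_maximalIdeal]
        intro hYu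
        have h4 : aY Y y ≤ maximalIdeal S := IsLocalRing.le_maximalIdeal h.aY_prime.ne_top
        exact (mem_maximalIdeal _).mp (h4 Y_mem) hYu
      have hyj : ∀ n, 0 < n → y ^ n ∈ maximalIdeal S := fun n hn => Ideal.pow_mem_of_mem _ hy n hn
      have hj0 : 0 < j := by omega
      have hi0 : 0 < i := by omega
      exact add_mem (add_mem (add_mem (Ideal.mul_mem_left _ _ hX)
        (Ideal.mul_mem_left _ _ (hyj j hj0))) (Ideal.mul_mem_left _ _ (hyj i hi0)))
        (Ideal.mul_mem_left _ _ (Ideal.mul_mem_right _ _ hY))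
    rw [h3] at hnon
    exact (mem_maximalIdeal _).mp hnon isUnit_one

end K

section Factor

variable {R S K : Type u} [CommRing R] [CommRing S] [Algebra R S] {X Y : R} {y : S} {p : ℕ}
  [IsDomain S] [IsNoetherianRing S] [IsLocalRing S] [Field K] [Algebra S K] [IsFractionRing S K]
  {V : ValuationSubring K}

theorem unitY (h : Eis X Y y p) (h₁ : Cmp Y y V) {s : S} (hs : s ∉ aY Y y) :
    UC V (algebraMap S K s) (algebraMap S K s) := by
  refine UC.refl ?_ (h₁.mem s) (h.unit_Y h₁ hs)
  rw [Ne, map_eq_zero_iff _ (IsFractionRing.injective S K)]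
  rintro rfl
  exact hs (zero_mem _)

theorem factor_aux (T : Type u) [CommRing T] [IsDomain T] [Algebra S T]
    [IsLocalization.Away (algebraMap R S X) T] [Algebra T K] [IsScalarTower S T K]
    [IsFractionRing T K]
    (h : Eis X Y y p) {V₁ V₀ : ValuationSubring K} (h₁ : Cmp Y y V₁) (h₀ : Cmp X y V₀)
    {m : ℕ} (hm : 0 < m) {x : K} (hx : x ≠ 0)
    (H₁ : ∃ g : K, g ≠ 0 ∧ g ^ m * x ∈ V₁ ∧ (g ^ m * x)⁻¹ ∈ V₁)
    (Hh : ∀ V : ValuationSubring K, V ≠ ⊤ → (∀ s : S, algebraMap S K s ∈ V) →
      (algebraMap S K y)⁻¹ ∈ V → ∃ g : K, g ≠ 0 ∧ g ^ m * x ∈ V ∧ (g ^ m * x)⁻¹ ∈ V) :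
    ∃ (l : ℤ) (ε : S) (g : K), IsUnit ε ∧ g ≠ 0 ∧
      x = algebraMap S K (algebraMap R S X) ^ l * algebraMap S K ε * g ^ m := by
  classical
  haveI : UniqueFactorizationMonoid T := h.ufd (R := R) (S := S) (X := X) (Y := Y) (y := y)
  have hXK : algebraMap S K (algebraMap R S X) ≠ 0 := by
    rw [Ne, map_eq_zero_iff _ (IsFractionRing.injective S K)]
    exact h.X_ne
  have hXT : algebraMap S T (algebraMap R S X) ≠ 0 := by
    rw [Ne, map_eq_zero_iff _ (h.injT (T := T))]
    exact h.X_ne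
  have hXu : UC V₁ (algebraMap S K (algebraMap R S X)) (algebraMap S K (algebraMap R S X)) :=
    h.unitY h₁ h.X_notMem_aY
  -- elements of `T` not divisible by `y` are units of `V₁`
  have key : ∀ a : T, ¬ algebraMap S T y ∣ a → UC V₁ (algebraMap T K a) (algebraMap T K a) := by
    intro a ha
    obtain ⟨n, s, hs⟩ := exists_S (R := R) (S := S) (X := X) T a
    have hsY : s ∉ aY Y y := by
      intro hsY
      have h2 := h.dvd_T (T := T) hsY
      rw [← hs] at h2
      exact ha (((isUnit_X (R := R) (S := S) (X := X) T).pow n).dvd_mul_left.mp h2)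
    have h3 := h.unitY h₁ hsY
    have e : algebraMap T K a = algebraMap S K s / algebraMap S K (algebraMap R S X) ^ n := by
      rw [eq_div_iff (pow_ne_zero _ hXK), IsScalarTower.algebraMap_apply S T K s, ← hs,
        IsScalarTower.algebraMap_apply S T K (algebraMap R S X), map_mul, map_pow]
      ring
    have hXn : UC V₁ (algebraMap S K (algebraMap R S X) ^ n)
        (algebraMap S K (algebraMap R S X) ^ n) := by
      clear e h3 hsY hs
      induction n with
      | zero => rw [pow_zero]; exact UC.refl one_ne_zero (one_mem _) (by rw [inv_one]; exact one_mem _)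
      | succ n ih => rw [pow_succ]; exact ih.mul hXu
    rw [e]
    exact h3.div hXn
  have hyp : Prime (algebraMap S T y) := h.y_prime (T := T)
  -- the valuation ring of `y`
  have hle : ∀ z ∈ V₁, z ∈ primeVal K hyp := by
    intro z hz
    by_cases hz0 : z = 0
    · rw [hz0]; exact zero_mem _
    obtain ⟨a, b, hb, hab⟩ := IsFractionRing.div_surjective (A := T) z
    have hb0 : b ≠ 0 := nonZeroDivisors.ne_zero hb
    have ha0 : a ≠ 0 := by
      rintro rfl
      rw [map_zero, zero_div] at hab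
      exact hz0 hab.symm
    obtain ⟨i, a₁, ha₁, rfl⟩ := WfDvdMonoid.max_power_factor' ha0 hyp.not_isUnit
    obtain ⟨j, b₁, hb₁, rfl⟩ := WfDvdMonoid.max_power_factor' hb0 hyp.not_isUnit
    have hyK : algebraMap T K (algebraMap S T y) ≠ 0 := by
      rw [← IsScalarTower.algebraMap_apply]; exact h.yK_ne
    have ua := key a₁ ha₁
    have ub := key b₁ hb₁
    rw [map_mul, map_mul, map_pow, map_pow] at hab
    have hij : j ≤ i := by
      by_contra hcon
      obtain ⟨k, hk⟩ : ∃ k, j = i + (k + 1) := ⟨j - i - 1, by omega⟩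
      have h1 : (algebraMap T K (algebraMap S T y)) ^ (k + 1) ∈ V₁.nonunits := by
        rw [pow_succ, ← IsScalarTower.algebraMap_apply]
        exact mul_mem_nonunits (pow_mem (h₁.mem y) k) h₁.non
      have h2 : z * (algebraMap T K b₁ * (algebraMap T K (algebraMap S T y)) ^ (k + 1)) =
          algebraMap T K a₁ := by
        have hb1 := ub.ne
        rw [← hab, hk, pow_add]
        field_simp
      have h3 : algebraMap T K a₁ ∈ V₁.nonunits := by
        rw [← h2]
        exact mul_mem_nonunits hz (mul_mem_nonunits ub.mem h1)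
      exact ua.notMem h3
    obtain ⟨k, rfl⟩ := Nat.exists_eq_add_of_le hij
    have e : z = algebraMap T K (algebraMap S T y ^ k * a₁) * (algebraMap T K b₁)⁻¹ := by
      have hb1 := ub.ne
      rw [← hab, pow_add, map_mul, map_pow]
      field_simp
    rw [e]
    exact mul_mem (algebraMap_mem_primeVal hyp _) (inv_mem_primeVal hyp hb₁)
  obtain ⟨u, g, hg0, hu⟩ := exists_unit_mul_pow (R := T) hm x hx (by
    intro ϖ hϖ
    by_cases hϖy : ϖ ∣ algebraMap S T y
    · have hass := hϖ.associated_of_dvd hyp hϖy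
      obtain ⟨g, hg, g1, g2⟩ := H₁
      have hconv : ∀ z ∈ primeVal K hyp, z ∈ primeVal K hϖ := by
        intro z hz
        obtain ⟨s, b, hs, hsb⟩ := (mem_primeVal_iff hyp).mp hz
        exact (mem_primeVal_iff hϖ).mpr ⟨s, b, fun h3 => hs (hass.symm.dvd.trans h3), hsb⟩
      exact ⟨g, hg, hconv _ (hle _ g1), hconv _ (hle _ g2)⟩
    · refine Hh _ ?_ (fun s => ?_) ?_
      · intro htop
        have h1 : (algebraMap T K ϖ)⁻¹ ∈ primeVal K hϖ := by rw [htop]; trivial
        obtain ⟨s, b, hs, hsb⟩ := (mem_primeVal_iff hϖ).mp h1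
        apply hs
        refine ⟨b, ?_⟩
        apply IsFractionRing.injective T K
        have hp0 : algebraMap T K ϖ ≠ 0 := by
          rw [Ne, map_eq_zero_iff _ (IsFractionRing.injective T K)]
          exact hϖ.ne_zero
        rw [map_mul, ← hsb]
        field_simp
      · rw [IsScalarTower.algebraMap_apply S T K]
        exact algebraMap_mem_primeVal hϖ _
      · rw [IsScalarTower.algebraMap_apply S T K]
        exact inv_mem_primeVal hϖ hϖy)
  obtain ⟨n, s, hs⟩ := exists_S (R := R) (S := S) (X := X) T (u : T)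
  obtain ⟨n', s', hs'⟩ := exists_S (R := R) (S := S) (X := X) T ((u⁻¹ : Tˣ) : T)
  have hss : s * s' = algebraMap R S X ^ (n + n') := by
    apply h.injT (T := T)
    rw [map_mul, ← hs, ← hs', map_pow, pow_add]
    have : (u : T) * ((u⁻¹ : Tˣ) : T) = 1 := Units.mul_inv u
    linear_combination (algebraMap S T (algebraMap R S X) ^ n *
      algebraMap S T (algebraMap R S X) ^ n') * this
  obtain ⟨a, ε, hε, rfl⟩ := h.dvd_pow_X h₀ hss
  refine ⟨a - n, ε, g, hε, hg0, ?_⟩
  have e : algebraMap T K (u : T) = algebraMap S K (algebraMap R S X) ^ ((a : ℤ) - n) *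
      algebraMap S K ε := by
    rw [zpow_sub₀ hXK, zpow_natCast, zpow_natCast, div_mul_eq_mul_div,
      eq_div_iff (pow_ne_zero _ hXK)]
    have h1 := congrArg (algebraMap T K) hs
    rw [map_mul, map_pow, ← IsScalarTower.algebraMap_apply S T K,
      ← IsScalarTower.algebraMap_apply S T K, map_mul, map_pow] at h1
    rw [mul_comm, h1]
  rw [hu, e]

/-- **Local factorisation at a crossing point.** -/
theorem factor (h : Eis X Y y p) {V₁ V₀ : ValuationSubring K} (h₁ : Cmp Y y V₁) (h₀ : Cmp X y V₀)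
    {m : ℕ} (hm : 0 < m) {x : K} (hx : x ≠ 0)
    (H₁ : ∃ g : K, g ≠ 0 ∧ g ^ m * x ∈ V₁ ∧ (g ^ m * x)⁻¹ ∈ V₁)
    (Hh : ∀ V : ValuationSubring K, V ≠ ⊤ → (∀ s : S, algebraMap S K s ∈ V) →
      (algebraMap S K y)⁻¹ ∈ V → ∃ g : K, g ≠ 0 ∧ g ^ m * x ∈ V ∧ (g ^ m * x)⁻¹ ∈ V) :
    ∃ (l : ℤ) (ε : S) (g : K), IsUnit ε ∧ g ≠ 0 ∧
      x = algebraMap S K (algebraMap R S X) ^ l * algebraMap S K ε * g ^ m := by
  have hXK : algebraMap S K (algebraMap R S X) ≠ 0 := by
    rw [Ne, map_eq_zero_iff _ (IsFractionRing.injective S K)]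
    exact h.X_ne
  let T := Localization.Away (algebraMap R S X)
  haveI : IsDomain T := IsLocalization.isDomain_localization
    (powers_le_nonZeroDivisors_of_noZeroDivisors h.X_ne)
  letI : Algebra T K := (IsLocalization.Away.lift (S := T) (algebraMap R S X)
    (g := algebraMap S K) hXK.isUnit).toAlgebra
  haveI : IsScalarTower S T K := IsScalarTower.of_algebraMap_eq fun s =>
    (IsLocalization.Away.lift_eq (S := T) (algebraMap R S X) hXK.isUnit s).symm
  haveI : IsFractionRing T K := IsFractionRing.isFractionRing_of_isDomain_of_isLocalization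
    (Submonoid.powers (algebraMap R S X)) T K
  exact factor_aux T h h₁ h₀ hm hx H₁ Hh

end Factor

end Eis

end Fermat.Agent.MP
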