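import Mathlib
import Fermat.Agent.MP.Loc3

/-!
# Local factorisation at a point lying on one component only
-/

set_option autoImplicit false

open IsLocalRing

universe u

namespace Fermat.Agent.MP

open Fermat.Agent.Geo Fermat.Agent.CA

/-- The situation at a point of one component (with equation `Z = 0`). -/
structure EisS {R S : Type*} [CommRing R] [CommRing S] [Algebra R S] (Z : R) (y : S) (p : ℕ) :
    Prop where
  pos : 0 < p
  ne : y ≠ 0
  pZ : Prime Z
  val : ∀ a b : R, ∃ c, Z ∣ a - c * b ∨ Z ∣ b - c * a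
  gen : ∀ v : S, ∃ (a : R) (w : S), v = algebraMap R S a + y * w
  yp : ∃ u : S, IsUnit u ∧ y ^ p = algebraMap R S Z * u
  ind : ∀ a : R, y ∣ algebraMap R S a → Z ∣ a

namespace EisS

section

variable {R S : Type*} [CommRing R] [CommRing S] [Algebra R S] {Z : R} {y : S} {p : ℕ}
  (h : EisS Z y p)
include h

theorem y_dvd {a : R} (ha : Z ∣ a) : y ∣ algebraMap R S a := by
  obtain ⟨b, rfl⟩ := ha
  obtain ⟨u, hu, hyp⟩ := h.yp
  have h1 : y ∣ algebraMap R S Z * u := by
    rw [← hyp]
    exact dvd_pow_self y h.pos.ne'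
  rw [hu.dvd_mul_right] at h1
  rw [map_mul]
  exact h1.mul_right _

theorem y_prime : Prime y := by
  refine ⟨h.ne, ?_, ?_⟩
  · intro hu
    have h1 : y ∣ algebraMap R S 1 := hu.dvd
    exact h.pZ.not_dvd_one (h.ind 1 h1)
  · intro s t hst
    obtain ⟨a, w, rfl⟩ := h.gen s
    obtain ⟨b, w', rfl⟩ := h.gen t
    have h1 : y ∣ algebraMap R S (a * b) := by
      have e : (algebraMap R S a + y * w) * (algebraMap R S b + y * w') =
          algebraMap R S (a * b) + y * (algebraMap R S a * w' + w * algebraMap R S b +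
            y * w * w') := by
        rw [map_mul]; ring
      rw [e] at hst
      exact (dvd_add_left (dvd_mul_right _ _)).mp hst
    rcases h.pZ.dvd_or_dvd (h.ind _ h1) with h2 | h2
    · exact Or.inl (dvd_add (h.y_dvd h2) (dvd_mul_right _ _))
    · exact Or.inr (dvd_add (h.y_dvd h2) (dvd_mul_right _ _))

theorem y_val (s t : S) : ∃ c, y ∣ s - c * t ∨ y ∣ t - c * s := by
  obtain ⟨a, w, rfl⟩ := h.gen s
  obtain ⟨b, w', rfl⟩ := h.gen t
  have key : ∀ (a b : R) (w w' : S) (c : R), Z ∣ a - c * b →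
      y ∣ (algebraMap R S a + y * w) - algebraMap R S c * (algebraMap R S b + y * w') := by
    intro a b w w' c hc
    have e : (algebraMap R S a + y * w) - algebraMap R S c * (algebraMap R S b + y * w') =
        algebraMap R S (a - c * b) + y * (w - algebraMap R S c * w') := by
      rw [map_sub, map_mul]; ring
    rw [e]
    exact dvd_add (h.y_dvd hc) (dvd_mul_right _ _)
  obtain ⟨c, hc | hc⟩ := h.val a b
  · exact ⟨_, Or.inl (key a b w w' c hc)⟩
  · exact ⟨_, Or.inr (key b a w' w c hc)⟩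

theorem ufd [IsDomain S] [IsNoetherianRing S] [IsLocalRing S] : UniqueFactorizationMonoid S :=
  ufd_of_prime ((mem_maximalIdeal _).mpr h.y_prime.not_isUnit) h.y_prime h.y_val

end

section Factor

variable {R S K : Type u} [CommRing R] [CommRing S] [Algebra R S] {Z : R} {y : S} {p : ℕ}
  [IsDomain S] [IsNoetherianRing S] [IsLocalRing S] [Field K] [Algebra S K] [IsFractionRing S K]
  {V : ValuationSubring K}

theorem unitS (h : EisS Z y p) (hV : Cmp Z y V) {s : S} (hs : ¬ y ∣ s) :
    UC V (algebraMap S K s) (algebraMap S K s) := by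
  have hs0 : algebraMap S K s ≠ 0 := by
    rw [Ne, map_eq_zero_iff _ (IsFractionRing.injective S K)]
    rintro rfl
    exact hs (dvd_zero _)
  refine UC.refl hs0 (hV.mem s) (inv_mem_of_notMem fun hn => ?_)
  obtain ⟨a, w, rfl⟩ := h.gen s
  have hZa : ¬ Z ∣ a := fun h1 => hs (dvd_add (h.y_dvd h1) (dvd_mul_right _ _))
  have h1 : algebraMap S K (algebraMap R S a) ∈ V.nonunits := by
    have h2 : algebraMap S K (algebraMap R S a) = algebraMap S K (algebraMap R S a + y * w) -
        algebraMap S K w * algebraMap S K y := by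
      rw [map_add, map_mul]; ring
    rw [h2]
    exact nonunits_sub hn (nonunits_mul (hV.mem w) hV.non)
  refine notMem_nonunits_of_inv (hV.unit a hZa) ?_ h1
  intro h0
  rw [map_eq_zero_iff _ (IsFractionRing.injective S K)] at h0
  exact hZa (h.ind a (by rw [h0]; exact dvd_zero _))

/-- **Local factorisation at a point of one component.** -/
theorem factor (h : EisS Z y p) {V₁ : ValuationSubring K} (h₁ : Cmp Z y V₁)
    {m : ℕ} (hm : 0 < m) {x : K} (hx : x ≠ 0)
    (H₁ : ∃ g : K, g ≠ 0 ∧ g ^ m * x ∈ V₁ ∧ (g ^ m * x)⁻¹ ∈ V₁)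
    (Hh : ∀ V : ValuationSubring K, V ≠ ⊤ → (∀ s : S, algebraMap S K s ∈ V) →
      (algebraMap S K y)⁻¹ ∈ V → ∃ g : K, g ≠ 0 ∧ g ^ m * x ∈ V ∧ (g ^ m * x)⁻¹ ∈ V) :
    ∃ (ε : S) (g : K), IsUnit ε ∧ g ≠ 0 ∧ x = algebraMap S K ε * g ^ m := by
  classical
  haveI : UniqueFactorizationMonoid S := h.ufd
  have hyp := h.y_prime
  have hle : ∀ z ∈ V₁, z ∈ primeVal K hyp := by
    intro z hz
    by_cases hz0 : z = 0
    · rw [hz0]; exact zero_mem _
    obtain ⟨a, b, hb, hab⟩ := IsFractionRing.div_surjective (A := S) z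
    have hb0 : b ≠ 0 := nonZeroDivisors.ne_zero hb
    have ha0 : a ≠ 0 := by
      rintro rfl
      rw [map_zero, zero_div] at hab
      exact hz0 hab.symm
    obtain ⟨i, a₁, ha₁, rfl⟩ := WfDvdMonoid.max_power_factor' ha0 hyp.not_isUnit
    obtain ⟨j, b₁, hb₁, rfl⟩ := WfDvdMonoid.max_power_factor' hb0 hyp.not_isUnit
    have hyK : algebraMap S K y ≠ 0 := by
      rw [Ne, map_eq_zero_iff _ (IsFractionRing.injective S K)]; exact h.ne
    have ua := h.unitS h₁ ha₁
    have ub := h.unitS h₁ hb₁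
    rw [map_mul, map_mul, map_pow, map_pow] at hab
    have hij : j ≤ i := by
      by_contra hcon
      obtain ⟨k, hk⟩ : ∃ k, j = i + (k + 1) := ⟨j - i - 1, by omega⟩
      have h1 : (algebraMap S K y) ^ (k + 1) ∈ V₁.nonunits := by
        rw [pow_succ]
        exact mul_mem_nonunits (pow_mem (h₁.mem y) k) h₁.non
      have h2 : z * (algebraMap S K b₁ * (algebraMap S K y) ^ (k + 1)) =
          algebraMap S K a₁ := by
        have hb1 := ub.ne
        rw [← hab, hk, pow_add]
        field_simp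
      have h3 : algebraMap S K a₁ ∈ V₁.nonunits := by
        rw [← h2]
        exact mul_mem_nonunits hz (mul_mem_nonunits ub.mem h1)
      exact ua.notMem h3
    obtain ⟨k, rfl⟩ := Nat.exists_eq_add_of_le hij
    have e : z = algebraMap S K (y ^ k * a₁) * (algebraMap S K b₁)⁻¹ := by
      have hb1 := ub.ne
      rw [← hab, pow_add, map_mul, map_pow]
      field_simp
    rw [e]
    exact mul_mem (algebraMap_mem_primeVal hyp _) (inv_mem_primeVal hyp hb₁)
  obtain ⟨u, g, hg0, hu⟩ := exists_unit_mul_pow (R := S) hm x hx (by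
    intro ϖ hϖ
    by_cases hϖy : ϖ ∣ y
    · have hass := hϖ.associated_of_dvd hyp hϖy
      obtain ⟨g, hg, g1, g2⟩ := H₁
      have hconv : ∀ z ∈ primeVal K hyp, z ∈ primeVal K hϖ := by
        intro z hz
        obtain ⟨s, b, hs, hsb⟩ := (mem_primeVal_iff hyp).mp hz
        exact (mem_primeVal_iff hϖ).mpr ⟨s, b, fun h3 => hs (hass.symm.dvd.trans h3), hsb⟩
      exact ⟨g, hg, hconv _ (hle _ g1), hconv _ (hle _ g2)⟩
    · refine Hh _ ?_ (fun s => algebraMap_mem_primeVal hϖ s) (inv_mem_primeVal hϖ hϖy)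
      intro htop
      have h1 : (algebraMap S K ϖ)⁻¹ ∈ primeVal K hϖ := by rw [htop]; trivial
      obtain ⟨s, b, hs, hsb⟩ := (mem_primeVal_iff hϖ).mp h1
      apply hs
      refine ⟨b, ?_⟩
      apply IsFractionRing.injective S K
      have hp0 : algebraMap S K ϖ ≠ 0 := by
        rw [Ne, map_eq_zero_iff _ (IsFractionRing.injective S K)]
        exact hϖ.ne_zero
      rw [map_mul, ← hsb]
      field_simp)
  exact ⟨u, g, u.isUnit, hg0, hu⟩

end Factor

end EisS

end Fermat.Agent.MP
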