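import Mathlib
import Fermat.Agent.MP.Loc4

/-!
# The ring `R[η]`
-/

set_option autoImplicit false
set_option linter.unusedSectionVars false

open IsLocalRing Polynomial

universe u

namespace Fermat.Agent.MP

open Fermat.Agent.Geo Fermat.Agent.CA

/-- `η` is a root of an Eisenstein polynomial over the local ring `R` (with coefficients in `π R`),
and generates `E` over `F = Frac R`. -/
structure EisD {R F E : Type u} [CommRing R] [Field F] [Field E] [Algebra R E] [Algebra F E]
    (π : R) (η : E) (p : ℕ) (c : ℕ → R) : Prop where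
  two : 2 ≤ p
  non : ¬ IsUnit π
  eq : η ^ p = algebraMap R E π * ∑ i ∈ Finset.range p, algebraMap R E (c i) * η ^ i
  c0 : IsUnit (c 0)
  span : ∀ x : E, ∃ a : ℕ → F, x = ∑ i ∈ Finset.range p, algebraMap F E (a i) * η ^ i
  li : ∀ a : ℕ → F, ∑ i ∈ Finset.range p, algebraMap F E (a i) * η ^ i = 0 → ∀ i < p, a i = 0

section

variable {R F E : Type u} [CommRing R] [IsDomain R] [IsLocalRing R] [IsNoetherianRing R]
  [Field F] [Field E]
  [Algebra R F] [IsFractionRing R F] [Algebra R E] [Algebra F E] [IsScalarTower R F E]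
  {π : R} {η : E} {p : ℕ} {c : ℕ → R}

variable (R η) in
/-- The ring `R[η]`. -/
abbrev adS : Subalgebra R E := Algebra.adjoin R {η}

variable (R η) in
/-- the generator -/
def etaS : adS R η := ⟨η, Algebra.self_mem_adjoin_singleton R η⟩

namespace EisD

variable (h : EisD (F := F) π η p c)
include h

theorem rep (x : adS R η) : ∃ a : ℕ → R,
    (x : E) = ∑ i ∈ Finset.range p, algebraMap R E (a i) * η ^ i := by
  classical
  obtain ⟨x, hx⟩ := x
  induction hx using Algebra.adjoin_induction with
  | mem x hx =>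
    rw [Set.mem_singleton_iff] at hx
    subst hx
    refine ⟨fun i => if i = 1 then 1 else 0, ?_⟩
    have h2 := h.two
    rw [Finset.sum_eq_single 1]
    · simp
    · intro b _ hb; simp [hb]
    · intro h1; exact absurd (Finset.mem_range.mpr (by omega)) h1
  | algebraMap r =>
    refine ⟨fun i => if i = 0 then r else 0, ?_⟩
    have h2 := h.two
    rw [Finset.sum_eq_single 0]
    · simp
    · intro b _ hb; simp [hb]
    · intro h1; exact absurd (Finset.mem_range.mpr (by omega)) h1
  | add x y _ _ hx hy =>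
    obtain ⟨a, ha⟩ := hx
    obtain ⟨b, hb⟩ := hy
    change x = _ at ha
    change y = _ at hb
    refine ⟨fun i => a i + b i, ?_⟩
    change x + y = _
    rw [ha, hb, ← Finset.sum_add_distrib]
    exact Finset.sum_congr rfl fun i _ => by rw [map_add]; ring
  | mul x y _ _ hx hy =>
    obtain ⟨a, ha⟩ := hx
    obtain ⟨b, hb⟩ := hy
    change x = _ at ha
    change y = _ at hb
    -- the set of sums is stable under multiplication by `η`
    have hη : ∀ a : ℕ → R, ∃ b : ℕ → R,
        (∑ i ∈ Finset.range p, algebraMap R E (a i) * η ^ i) * η =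
          ∑ i ∈ Finset.range p, algebraMap R E (b i) * η ^ i := by
      intro a
      obtain ⟨q, rfl⟩ : ∃ q, p = q + 1 := ⟨p - 1, by have := h.two; omega⟩
      refine ⟨fun i => (if i = 0 then 0 else a (i - 1)) + a q * (π * c i), ?_⟩
      have e1 : ∑ i ∈ Finset.range (q + 1), algebraMap R E ((if i = 0 then 0 else a (i - 1)) +
          a q * (π * c i)) * η ^ i = ∑ i ∈ Finset.range (q + 1),
            algebraMap R E (if i = 0 then 0 else a (i - 1)) * η ^ i +
          algebraMap R E (a q) * η ^ (q + 1) := by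
        rw [h.eq, Finset.mul_sum, Finset.mul_sum, ← Finset.sum_add_distrib]
        refine Finset.sum_congr rfl fun i _ => ?_
        rw [map_add, map_mul, map_mul]
        ring
      have e2 : ∑ i ∈ Finset.range (q + 1),
            algebraMap R E (if i = 0 then 0 else a (i - 1)) * η ^ i =
          ∑ i ∈ Finset.range q, algebraMap R E (a i) * η ^ (i + 1) := by
        rw [Finset.sum_range_succ']
        simp
      rw [e1, e2, Finset.sum_range_succ, add_mul, Finset.sum_mul, pow_succ, ← mul_assoc]
      congr 1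
      refine Finset.sum_congr rfl fun i _ => ?_
      rw [pow_succ]; ring
    have hpow : ∀ n : ℕ, ∀ a : ℕ → R, ∃ b : ℕ → R,
        (∑ i ∈ Finset.range p, algebraMap R E (a i) * η ^ i) * η ^ n =
          ∑ i ∈ Finset.range p, algebraMap R E (b i) * η ^ i := by
      intro n
      induction n with
      | zero => exact fun a => ⟨a, by rw [pow_zero, mul_one]⟩
      | succ n ih =>
        intro a
        obtain ⟨b, hb⟩ := ih a
        obtain ⟨b', hb'⟩ := hη b
        exact ⟨b', by rw [pow_succ, ← mul_assoc, hb, hb']⟩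
    choose B hB using hpow
    refine ⟨fun i => ∑ j ∈ Finset.range p, b j * B j a i, ?_⟩
    change x * y = _
    rw [ha]
    conv_lhs => rw [hb]
    rw [Finset.mul_sum]
    have e2 : ∀ j, (∑ i ∈ Finset.range p, algebraMap R E (a i) * η ^ i) *
        (algebraMap R E (b j) * η ^ j) = algebraMap R E (b j) *
          ∑ i ∈ Finset.range p, algebraMap R E (B j a i) * η ^ i := by
      intro j
      rw [← hB j a]
      ring
    rw [Finset.sum_congr rfl fun j _ => e2 j]
    simp_rw [map_sum, Finset.sum_mul, Finset.mul_sum]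
    rw [Finset.sum_comm]
    exact Finset.sum_congr rfl fun i _ => Finset.sum_congr rfl fun j _ => by rw [map_mul]; ring

theorem inj_RE : Function.Injective (algebraMap R E) := by
  rw [IsScalarTower.algebraMap_eq R F E]
  exact (algebraMap F E).injective.comp (IsFractionRing.injective R F)

theorem li_R {a b : ℕ → R} (hab : ∑ i ∈ Finset.range p, algebraMap R E (a i) * η ^ i =
    ∑ i ∈ Finset.range p, algebraMap R E (b i) * η ^ i) : ∀ i < p, a i = b i := by
  intro i hi
  have h1 := h.li (fun i => algebraMap R F (a i - b i)) (by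
    have : ∀ i, algebraMap F E (algebraMap R F (a i - b i)) * η ^ i =
        algebraMap R E (a i) * η ^ i - algebraMap R E (b i) * η ^ i := by
      intro i
      rw [← IsScalarTower.algebraMap_apply, map_sub]; ring
    rw [Finset.sum_congr rfl fun i _ => this i, Finset.sum_sub_distrib, hab, sub_self]) i hi
  rw [map_eq_zero_iff _ (IsFractionRing.injective R F)] at h1
  exact sub_eq_zero.mp h1

theorem eqS : (etaS R η) ^ p = algebraMap R (adS R η) π *
    ∑ i ∈ Finset.range p, algebraMap R (adS R η) (c i) * (etaS R η) ^ i := by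
  apply Subtype.ext
  change η ^ p = _
  rw [h.eq]
  push_cast
  rfl

theorem repS (x : adS R η) : ∃ a : ℕ → R,
    x = ∑ i ∈ Finset.range p, algebraMap R (adS R η) (a i) * (etaS R η) ^ i := by
  obtain ⟨a, ha⟩ := h.rep x
  refine ⟨a, Subtype.ext ?_⟩
  rw [ha]
  push_cast
  rfl

theorem gen (x : adS R η) : ∃ (a : R) (w : adS R η), x = algebraMap R (adS R η) a +
    etaS R η * w := by
  obtain ⟨a, ha⟩ := h.repS x
  obtain ⟨q, rfl⟩ : ∃ q, p = q + 1 := ⟨p - 1, by have := h.two; omega⟩
  refine ⟨a 0, ∑ i ∈ Finset.range q, algebraMap R (adS R η) (a (i + 1)) * (etaS R η) ^ i, ?_⟩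
  rw [ha, Finset.sum_range_succ', pow_zero, mul_one, add_comm, Finset.mul_sum]
  congr 1
  exact Finset.sum_congr rfl fun i _ => by rw [pow_succ]; ring

theorem isIntegral_eta : IsIntegral R η := by
  refine ⟨Polynomial.X ^ p - C π * ∑ i ∈ Finset.range p, C (c i) * Polynomial.X ^ i, ?_, ?_⟩
  · apply monic_X_pow_sub
    rw [Finset.mul_sum, ← mem_degreeLT]
    refine Submodule.sum_mem _ fun i hi => ?_
    rw [mem_degreeLT, ← mul_assoc, ← C_mul]
    exact (degree_C_mul_X_pow_le _ _).trans_lt (WithBot.coe_lt_coe.2 (Finset.mem_range.mp hi))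
  · rw [eval₂_sub, eval₂_X_pow, eval₂_mul, eval₂_C, eval₂_finsetSum, h.eq, sub_eq_zero]
    congr 1
    exact Finset.sum_congr rfl fun i _ => by rw [eval₂_mul, eval₂_C, eval₂_X_pow]

theorem isIntegral_S : Algebra.IsIntegral R (adS R η) :=
  Algebra.IsIntegral.adjoin fun x hx => by
    rw [Set.mem_singleton_iff] at hx
    rw [hx]
    exact h.isIntegral_eta

omit h in
theorem isNoetherian_S : IsNoetherianRing (adS R η) := by
  haveI : Algebra.FiniteType R (adS R η) := by
    rw [← Subalgebra.fg_iff_finiteType]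
    exact Subalgebra.fg_adjoin_finset {η} |> fun h => by simpa using h
  exact Algebra.FiniteType.isNoetherianRing R _

theorem mem_max {M : Ideal (adS R η)} (hM : M.IsMaximal) {a : R} {w : adS R η} :
    algebraMap R (adS R η) a + etaS R η * w ∈ M ↔ ¬ IsUnit a := by
  haveI := h.isIntegral_S
  have h1 : (M.comap (algebraMap R (adS R η))).IsMaximal :=
    Ideal.isMaximal_comap_of_isIntegral_of_isMaximal (R := R) M
  have h2 : M.comap (algebraMap R (adS R η)) = maximalIdeal R :=
    IsLocalRing.eq_maximalIdeal h1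
  have hπ : algebraMap R (adS R η) π ∈ M := by
    rw [← Ideal.mem_comap, h2]
    exact (mem_maximalIdeal _).mpr h.non
  have hη : etaS R η ∈ M := by
    apply hM.isPrime.mem_of_pow_mem p
    rw [h.eqS]
    exact M.mul_mem_right _ hπ
  have h3 : algebraMap R (adS R η) a + etaS R η * w ∈ M ↔ algebraMap R (adS R η) a ∈ M :=
    (Submodule.add_mem_iff_left M (M.mul_mem_right _ hη))
  rw [h3, ← Ideal.mem_comap, h2, mem_maximalIdeal, mem_nonunits_iff]

theorem isLocal_S : IsLocalRing (adS R η) := by
  apply IsLocalRing.of_unique_max_ideal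
  obtain ⟨M, hM⟩ := Ideal.exists_maximal (adS R η)
  refine ⟨M, hM, fun M' hM' => ?_⟩
  change M'.IsMaximal at hM'
  ext x
  obtain ⟨a, w, rfl⟩ := h.gen x
  rw [h.mem_max hM, h.mem_max hM']

theorem isUnit_iff {a : R} {w : adS R η} :
    IsUnit (algebraMap R (adS R η) a + etaS R η * w) ↔ IsUnit a := by
  haveI := h.isLocal_S
  have h1 := h.mem_max (maximalIdeal.isMaximal (adS R η)) (a := a) (w := w)
  rw [mem_maximalIdeal, mem_nonunits_iff] at h1
  exact not_iff_not.mp h1

theorem isFrac_S : IsFractionRing (adS R η) E := by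
  classical
  refine IsFractionRing.of_field (adS R η) E fun x => ?_
  obtain ⟨a, rfl⟩ := h.span x
  obtain ⟨d, hd⟩ := IsLocalization.exist_integer_multiples (nonZeroDivisors R) (Finset.range p) a
  have hd0 : algebraMap R E d ≠ 0 := by
    rw [Ne, map_eq_zero_iff _ (h.inj_RE)]
    exact nonZeroDivisors.ne_zero d.2
  choose b hb using hd
  refine ⟨∑ i ∈ (Finset.range p).attach, algebraMap R (adS R η) (b i i.2) * etaS R η ^ (i : ℕ),
    algebraMap R (adS R η) d, ?_⟩
  change _ = _ / algebraMap R E d
  rw [eq_div_iff hd0]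
  have e : algebraMap (adS R η) E (∑ i ∈ (Finset.range p).attach,
      algebraMap R (adS R η) (b i i.2) * etaS R η ^ (i : ℕ)) =
      ∑ i ∈ (Finset.range p).attach, algebraMap R E (b i i.2) * η ^ (i : ℕ) := by
    rw [map_sum]
    refine Finset.sum_congr rfl fun i _ => ?_
    rw [map_mul, map_pow]
    rfl
  rw [e, ← Finset.sum_attach (Finset.range p), Finset.sum_mul]
  refine Finset.sum_congr rfl fun i _ => ?_
  have h1 := hb i i.2
  have h2 : algebraMap R E (b i i.2) = algebraMap R E d * algebraMap F E (a i) := by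
    rw [IsScalarTower.algebraMap_apply R F E, h1, Algebra.smul_def, map_mul,
      ← IsScalarTower.algebraMap_apply]
  rw [h2]
  ring

/-- The key independence property. -/
theorem coef {Z : R} (hZ : Z ∣ π) {j : ℕ} (hj : j < p) {a : R} {v w : adS R η}
    (hvw : algebraMap R (adS R η) a * etaS R η ^ j = v * algebraMap R (adS R η) Z +
      w * etaS R η ^ (j + 1)) : Z ∣ a := by
  classical
  obtain ⟨Z', hZ'⟩ := hZ
  obtain ⟨b, hb⟩ := h.repS w
  -- split `w`
  have hsplit : w * etaS R η ^ (j + 1) =
      ∑ i ∈ (Finset.range p).filter (fun i => i + (j + 1) < p),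
        algebraMap R (adS R η) (b i) * etaS R η ^ (i + (j + 1)) +
      (∑ i ∈ (Finset.range p).filter (fun i => ¬ i + (j + 1) < p),
        algebraMap R (adS R η) (b i) * etaS R η ^ (i + (j + 1) - p)) * etaS R η ^ p := by
    rw [hb, Finset.sum_mul, ← Finset.sum_filter_add_sum_filter_not (Finset.range p)
      (fun i => i + (j + 1) < p), Finset.sum_mul]
    congr 1
    · exact Finset.sum_congr rfl fun i _ => by rw [mul_assoc, ← pow_add]
    · refine Finset.sum_congr rfl fun i hi => ?_
      rw [Finset.mem_filter] at hi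
      rw [mul_assoc, mul_assoc, ← pow_add, ← pow_add, Nat.sub_add_cancel (by omega)]
  set z := ∑ i ∈ (Finset.range p).filter (fun i => ¬ i + (j + 1) < p),
        algebraMap R (adS R η) (b i) * etaS R η ^ (i + (j + 1) - p) with hz
  obtain ⟨d, hd⟩ := h.repS (v + z * (algebraMap R (adS R η) Z' *
    ∑ i ∈ Finset.range p, algebraMap R (adS R η) (c i) * (etaS R η) ^ i))
  have hmain : algebraMap R (adS R η) a * etaS R η ^ j =
      (∑ i ∈ Finset.range p, algebraMap R (adS R η) (d i) * (etaS R η) ^ i) *
        algebraMap R (adS R η) Z +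
      ∑ i ∈ (Finset.range p).filter (fun i => i + (j + 1) < p),
        algebraMap R (adS R η) (b i) * etaS R η ^ (i + (j + 1)) := by
    rw [hvw, hsplit, ← hd, h.eqS, hZ', map_mul]
    ring
  -- rewrite the last sum
  have hlast : ∑ i ∈ (Finset.range p).filter (fun i => i + (j + 1) < p),
      algebraMap R (adS R η) (b i) * etaS R η ^ (i + (j + 1)) =
      ∑ i ∈ Finset.range p, algebraMap R (adS R η) (if j + 1 ≤ i then b (i - (j + 1)) else 0) *
        etaS R η ^ i := by
    symm
    rw [← Finset.sum_filter_add_sum_filter_not (Finset.range p) (fun i => j + 1 ≤ i)]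
    have e0 : ∑ i ∈ (Finset.range p).filter (fun i => ¬ j + 1 ≤ i),
        algebraMap R (adS R η) (if j + 1 ≤ i then b (i - (j + 1)) else 0) * etaS R η ^ i = 0 :=
      Finset.sum_eq_zero fun i hi => by
        rw [Finset.mem_filter] at hi
        rw [if_neg hi.2, map_zero, zero_mul]
    rw [e0, add_zero]
    refine Finset.sum_bij' (fun i _ => i - (j + 1)) (fun i _ => i + (j + 1)) ?_ ?_ ?_ ?_ ?_
    · intro i hi
      rw [Finset.mem_filter, Finset.mem_range] at hi ⊢
      omega
    · intro i hi
      rw [Finset.mem_filter, Finset.mem_range] at hi ⊢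
      omega
    · intro i hi
      rw [Finset.mem_filter, Finset.mem_range] at hi
      omega
    · intro i hi
      rw [Finset.mem_filter, Finset.mem_range] at hi
      omega
    · intro i hi
      rw [Finset.mem_filter, Finset.mem_range] at hi
      rw [if_pos hi.2, Nat.sub_add_cancel hi.2]
  have hleft : algebraMap R (adS R η) a * etaS R η ^ j =
      ∑ i ∈ Finset.range p, algebraMap R (adS R η) (if i = j then a else 0) * etaS R η ^ i := by
    rw [Finset.sum_eq_single j]
    · rw [if_pos rfl]
    · intro i _ hi; rw [if_neg hi, map_zero, zero_mul]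
    · intro h1; exact absurd (Finset.mem_range.mpr hj) h1
  rw [hleft, hlast, Finset.sum_mul, ← Finset.sum_add_distrib] at hmain
  have hfin := congrArg (algebraMap (adS R η) E) hmain
  have e1 : algebraMap (adS R η) E (∑ i ∈ Finset.range p,
      algebraMap R (adS R η) (if i = j then a else 0) * etaS R η ^ i) =
      ∑ i ∈ Finset.range p, algebraMap R E (if i = j then a else 0) * η ^ i := by
    rw [map_sum]
    exact Finset.sum_congr rfl fun i _ => by rw [map_mul, map_pow]; rfl
  have e2 : algebraMap (adS R η) E (∑ i ∈ Finset.range p,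
      (algebraMap R (adS R η) (d i) * etaS R η ^ i * algebraMap R (adS R η) Z +
        algebraMap R (adS R η) (if j + 1 ≤ i then b (i - (j + 1)) else 0) * etaS R η ^ i)) =
      ∑ i ∈ Finset.range p, algebraMap R E (d i * Z +
        (if j + 1 ≤ i then b (i - (j + 1)) else 0)) * η ^ i := by
    rw [map_sum]
    refine Finset.sum_congr rfl fun i _ => ?_
    rw [map_add, map_mul, map_mul, map_mul, map_pow, map_add (algebraMap R E),
      map_mul (algebraMap R E)]
    change algebraMap R E (d i) * η ^ i * algebraMap R E Z + algebraMap R E _ * η ^ i = _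
    ring
  rw [e1, e2] at hfin
  have h1 := h.li_R hfin j hj
  rw [if_pos rfl, if_neg (by omega), add_zero] at h1
  exact ⟨d j, by rw [h1, mul_comm]⟩

theorem eq_unit : ∃ u : adS R η, IsUnit u ∧
    (etaS R η) ^ p = algebraMap R (adS R η) π * u := by
  refine ⟨_, ?_, h.eqS⟩
  obtain ⟨q, rfl⟩ : ∃ q, p = q + 1 := ⟨p - 1, by have := h.two; omega⟩
  have e : ∑ i ∈ Finset.range (q + 1), algebraMap R (adS R η) (c i) * etaS R η ^ i =
      algebraMap R (adS R η) (c 0) + etaS R η *
        ∑ i ∈ Finset.range q, algebraMap R (adS R η) (c (i + 1)) * etaS R η ^ i := by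
    rw [Finset.sum_range_succ', pow_zero, mul_one, add_comm, Finset.mul_sum]
    congr 1
    exact Finset.sum_congr rfl fun i _ => by rw [pow_succ]; ring
  rw [e, h.isUnit_iff]
  exact h.c0

theorem toEis {X Y : R} (hX : Prime X) (hY : Prime Y) (hXY : ¬ X ∣ Y) (hYX : ¬ Y ∣ X)
    (hmax : ∀ c : R, ¬ IsUnit c → ∃ a b, c = X * a + Y * b)
    (valX : ∀ a b : R, ∃ c, X ∣ a - c * b ∨ X ∣ b - c * a)
    (valY : ∀ a b : R, ∃ c, Y ∣ a - c * b ∨ Y ∣ b - c * a)
    (hπ : ∃ e, IsUnit e ∧ X * Y = π * e) : Eis X Y (etaS R η) p := by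
  obtain ⟨e, he, hπe⟩ := hπ
  obtain ⟨e', he'⟩ := he.exists_right_inv
  have hπX : X ∣ π := ⟨Y * e', by rw [← mul_assoc, hπe, mul_assoc, he', mul_one]⟩
  have hπY : Y ∣ π := ⟨X * e', by rw [← mul_assoc, mul_comm Y X, hπe, mul_assoc, he', mul_one]⟩
  refine ⟨by have := h.two; omega, hX, hY, hXY, hYX, hmax, valX, valY, h.gen, ?_, ?_, ?_⟩
  · obtain ⟨u, hu, hyp⟩ := h.eq_unit
    refine ⟨algebraMap R (adS R η) e' * u, ?_, ?_⟩
    · have : IsUnit e' := IsUnit.of_mul_eq_one e (by rw [mul_comm]; exact he')
      exact (this.map _).mul hu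
    · rw [hyp, ← mul_assoc, ← map_mul, hπe, mul_assoc π, he', mul_one]
  · rintro j hj a ⟨v, w, hvw⟩
    exact h.coef hπX hj hvw
  · rintro a ⟨v, w, hvw⟩
    refine h.coef hπY (j := 0) (by have := h.two; omega) (v := v) (w := w) ?_
    rw [pow_zero, mul_one, zero_add, pow_one]
    exact hvw

theorem toEisS (hπ : Prime π) (val : ∀ a b : R, ∃ c, π ∣ a - c * b ∨ π ∣ b - c * a) :
    EisS π (etaS R η) p := by
  refine ⟨by have := h.two; omega, ?_, hπ, val, h.gen, h.eq_unit, ?_⟩
  · intro h0
    obtain ⟨u, hu, hyp⟩ := h.eq_unit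
    rw [h0, zero_pow (by have := h.two; omega)] at hyp
    haveI := h.isLocal_S
    have h1 : algebraMap R (adS R η) π = 0 := (mul_eq_zero.mp hyp.symm).resolve_right hu.ne_zero
    have h2 := congrArg (fun x : adS R η => (x : E)) h1
    have h3 : algebraMap R E π = 0 := h2
    rw [map_eq_zero_iff _ h.inj_RE] at h3
    exact hπ.ne_zero h3
  · rintro a ⟨w, hw⟩
    refine h.coef dvd_rfl (j := 0) (by have := h.two; omega) (v := 0) (w := w) ?_
    rw [pow_zero, mul_one, zero_mul, zero_add, zero_add, pow_one, hw, mul_comm]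

end EisD

end

end Fermat.Agent.MP
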