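import Mathlib
import Fermat.Agent.MP.Loc5

/-!
# Valuations in a totally ramified extension of degree `p`; first order terms
-/

set_option autoImplicit false
set_option linter.unusedSectionVars false

open IsLocalRing

universe u

namespace Fermat.Agent.MP

open Fermat.Agent.Geo Fermat.Agent.CA

section Basic

variable {F : Type u} [Field F] {V : ValuationSubring F}

theorem nonunits_sum {ι : Type*} (s : Finset ι) (f : ι → F) (h : ∀ i ∈ s, f i ∈ V.nonunits) :
    ∑ i ∈ s, f i ∈ V.nonunits := by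
  classical
  induction s using Finset.induction_on with
  | empty => simpa using zero_mem_nonunits V
  | insert a s ha ih =>
    rw [Finset.sum_insert ha]
    exact nonunits_add (h a (Finset.mem_insert_self _ _))
      (ih fun i hi => h i (Finset.mem_insert_of_mem hi))

theorem nonunits_pow {x : F} (hx : x ∈ V.nonunits) {n : ℕ} (hn : 0 < n) : x ^ n ∈ V.nonunits := by
  obtain ⟨r, rfl⟩ : ∃ r, n = r + 1 := ⟨n - 1, by omega⟩
  rw [pow_succ]
  exact mul_mem_nonunits (pow_mem (show x ∈ V from V.nonunits_le hx) r) hx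

theorem vl_nonneg {u x : F} {k : ℤ} (h : Vl V u x k) (hu : u ∈ V.nonunits) (hu0 : u ≠ 0)
    (hx : x ∈ V) : 0 ≤ k := by
  by_contra hcon
  obtain ⟨n, hn⟩ : ∃ n : ℕ, k = -(n + 1 : ℕ) := ⟨(-k).toNat - 1, by omega⟩
  have h1 : x / u ^ k = x * u ^ (n + 1) := by
    rw [hn, zpow_neg, zpow_natCast, div_inv_eq_mul]
  have h2 : x / u ^ k ∈ V.nonunits := by
    rw [h1]
    exact mul_mem_nonunits hx (nonunits_pow hu (Nat.succ_pos n))
  exact UC.notMem h h2

theorem vl_nonpos {u x : F} {k : ℤ} (h : Vl V u x k) (hu : u ∈ V.nonunits) (hu0 : u ≠ 0)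
    (hx : x⁻¹ ∈ V) : k ≤ 0 := by
  have := vl_nonneg h.inv hu hu0 hx
  omega

end Basic

/-- A valuation ring `V` of `E` above `P`, totally ramified with uniformiser `η`. -/
structure TR {F E : Type u} [Field F] [Field E] [Algebra F E] (P : ValuationSubring F)
    (V : ValuationSubring E) (π : F) (η : E) (p : ℕ) (c : ℕ → F) : Prop where
  two : 2 ≤ p
  up : ∀ x ∈ P, algebraMap F E x ∈ V
  uni : Uni P π
  eta : η ∈ V.nonunits
  eq : η ^ p = algebraMap F E π * ∑ i ∈ Finset.range p, algebraMap F E (c i) * η ^ i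
  cP : ∀ i, c i ∈ P
  c0 : UC P (c 0) (c 0)

section

variable {F E : Type u} [Field F] [Field E] [Algebra F E] {P : ValuationSubring F}
  {V : ValuationSubring E} {π : F} {η : E} {p : ℕ} {c : ℕ → F}

namespace TR

variable (h : TR P V π η p c)
include h

theorem up_uc {a b : F} (hab : UC P a b) (hup : ∀ x ∈ P.nonunits, algebraMap F E x ∈ V.nonunits) :
    UC V (algebraMap F E a) (algebraMap F E b) :=
  ⟨by rw [Ne, map_eq_zero]; exact hab.ne, h.up _ hab.mem, by rw [← map_inv₀]; exact h.up _ hab.inv,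
    by rw [← map_sub]; exact hup _ hab.sub⟩

theorem eta_ne : η ≠ 0 := by
  rintro rfl
  have h1 := h.eq
  obtain ⟨q, rfl⟩ : ∃ q, p = q + 1 := ⟨p - 1, by have := h.two; omega⟩
  rw [zero_pow (by omega), Finset.sum_range_succ'] at h1
  simp only [ne_eq, Nat.add_eq_zero_iff, one_ne_zero, and_false, not_false_eq_true, zero_pow,
    mul_zero, Finset.sum_const_zero, pow_zero, mul_one, zero_add] at h1
  rcases mul_eq_zero.mp h1.symm with h2 | h2
  · exact h.uni.ne ((map_eq_zero _).mp h2)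
  · exact h.c0.ne ((map_eq_zero _).mp h2)

theorem etaV : η ∈ V := V.nonunits_le h.eta

/-- the unit `η ^ p / π` -/
theorem unit_u : UC V (∑ i ∈ Finset.range p, algebraMap F E (c i) * η ^ i)
    (algebraMap F E (c 0)) := by
  have h0 : algebraMap F E (c 0) ≠ 0 := by rw [Ne, map_eq_zero]; exact h.c0.ne
  have h1 : UC V (algebraMap F E (c 0)) (algebraMap F E (c 0)) :=
    UC.refl h0 (h.up _ h.c0.mem) (by rw [← map_inv₀]; exact h.up _ h.c0.inv)
  have h2 : algebraMap F E (c 0) - ∑ i ∈ Finset.range p, algebraMap F E (c i) * η ^ i ∈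
      V.nonunits := by
    obtain ⟨q, rfl⟩ : ∃ q, p = q + 1 := ⟨p - 1, by have := h.two; omega⟩
    rw [Finset.sum_range_succ', pow_zero, mul_one, sub_add_cancel_right]
    apply nonunits_neg
    refine nonunits_sum _ _ fun i _ => mul_mem_nonunits (h.up _ (h.cP _))
      (nonunits_pow h.eta (Nat.succ_pos i))
  exact UC.symm ⟨h0, h1.mem, h1.inv, h2⟩

theorem vl_pi : Vl V η (algebraMap F E π) p := by
  have hη := h.eta_ne
  have h1 := h.unit_u.rfl_left
  have h2 : algebraMap F E π / η ^ (p : ℤ) =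
      (∑ i ∈ Finset.range p, algebraMap F E (c i) * η ^ i)⁻¹ := by
    rw [zpow_natCast, div_eq_iff (pow_ne_zero _ hη), h.eq]
    have := h1.ne
    field_simp
  rw [Vl, h2]
  exact h1.invs

theorem pi_mem : algebraMap F E π ∈ V.nonunits := by
  have h1 := h.vl_pi
  have hη := pow_ne_zero p h.eta_ne
  have h2 : algebraMap F E π = algebraMap F E π / η ^ (p : ℤ) * η ^ p := by
    rw [zpow_natCast]; field_simp
  rw [h2]
  exact mul_mem_nonunits h1.mem (nonunits_pow h.eta (by have := h.two; omega))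

theorem pi_div : algebraMap F E π / η ^ 2 ∈ V := by
  have h1 := h.vl_pi
  have hη := h.eta_ne
  obtain ⟨q, hq⟩ : ∃ q, p = q + 2 := ⟨p - 2, by have := h.two; omega⟩
  have h2 : algebraMap F E π / η ^ 2 = algebraMap F E π / η ^ (p : ℤ) * η ^ q := by
    rw [zpow_natCast]
    have h3 : η ^ p = η ^ q * η ^ 2 := by rw [← pow_add]; exact congrArg _ hq
    rw [h3]
    have := pow_ne_zero q hη
    field_simp
  rw [h2]
  exact mul_mem h1.mem (pow_mem h.etaV q)

theorem up_non {x : F} (hx : x ∈ P.nonunits) : algebraMap F E x ∈ V.nonunits := by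
  have h1 := h.uni.dvd x hx
  have hπ := h.uni.ne
  have h2 : algebraMap F E x = algebraMap F E (x / π) * algebraMap F E π := by
    rw [← map_mul, div_mul_cancel₀ _ hπ]
  rw [h2]
  exact mul_mem_nonunits (h.up _ h1) h.pi_mem

theorem down {x : F} (hx : algebraMap F E x ∈ V) : x ∈ P := by
  by_contra hcon
  have hx0 : x ≠ 0 := fun h0 => hcon (h0 ▸ zero_mem P)
  have h1 : x⁻¹ ∈ P.nonunits := by
    by_contra hcon'
    have := inv_mem_of_notMem_nonunits hcon'
    rw [inv_inv] at this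
    exact hcon this
  have h2 := mul_mem_nonunits hx (h.up_non h1)
  rw [← map_mul, mul_inv_cancel₀ hx0, map_one] at h2
  have h3 : (1 : E) ∉ V.nonunits := by
    rw [ValuationSubring.mem_nonunits_iff]; simp
  exact h3 h2

theorem down_non {x : F} (hx : algebraMap F E x ∈ V.nonunits) : x ∈ P.nonunits := by
  by_contra hcon
  have h1 := inv_mem_of_notMem_nonunits hcon
  have hx0 : x ≠ 0 := fun h0 => hcon (h0 ▸ zero_mem_nonunits P)
  have h2 := mul_mem_nonunits (h.up _ h1) hx
  rw [← map_mul, inv_mul_cancel₀ hx0, map_one] at h2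
  have h3 : (1 : E) ∉ V.nonunits := by
    rw [ValuationSubring.mem_nonunits_iff]; simp
  exact h3 h2

theorem up_UC {a b : F} (hab : UC P a b) : UC V (algebraMap F E a) (algebraMap F E b) :=
  h.up_uc hab fun _ hx => h.up_non hx

/-- The leading term. -/
theorem lead {a : ℕ → F} {j : ℕ} (hj : j < p) (haP : ∀ i < p, a i ∈ P)
    (hai : ∀ i < j, a i ∈ P.nonunits) (haj : a j ∉ P.nonunits) :
    Vl V η (∑ i ∈ Finset.range p, algebraMap F E (a i) * η ^ i) j := by
  have hη := h.eta_ne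
  have ha0 : a j ≠ 0 := fun h0 => haj (h0 ▸ zero_mem_nonunits P)
  have h1 : UC V (algebraMap F E (a j)) (algebraMap F E (a j)) :=
    h.up_UC (UC.refl ha0 (haP j hj) (inv_mem_of_notMem_nonunits haj))
  have h2 : algebraMap F E (a j) - (∑ i ∈ Finset.range p, algebraMap F E (a i) * η ^ i) / η ^ j ∈
      V.nonunits := by
    rw [Finset.sum_div, ← Finset.add_sum_erase _ _ (Finset.mem_range.mpr hj),
      mul_div_cancel_right₀ _ (pow_ne_zero _ hη), sub_add_cancel_left]
    apply nonunits_neg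
    refine nonunits_sum _ _ fun i hi => ?_
    rw [Finset.mem_erase, Finset.mem_range] at hi
    rcases lt_or_gt_of_ne hi.1 with hij | hij
    · -- `i < j`
      have h3 := h.uni.dvd _ (hai i hij)
      have hπ := h.uni.ne
      obtain ⟨k, hk⟩ : ∃ k, p + i = (k + 1) + j := ⟨p + i - j - 1, by omega⟩
      have h4 : algebraMap F E (a i) * η ^ i / η ^ j = algebraMap F E (a i / π) *
          (algebraMap F E π / η ^ (p : ℤ)) * η ^ (k + 1) := by
        have h5 : algebraMap F E (a i) = algebraMap F E (a i / π) * algebraMap F E π := by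
          rw [← map_mul, div_mul_cancel₀ _ hπ]
        rw [h5, zpow_natCast, div_eq_iff (pow_ne_zero _ hη)]
        have h6 : η ^ p * η ^ i = η ^ (k + 1) * η ^ j := by rw [← pow_add, ← pow_add, hk]
        have h7 := pow_ne_zero p hη
        rw [mul_assoc _ (η ^ (k + 1)), ← h6]
        field_simp
      rw [h4]
      exact mul_mem_nonunits (mul_mem (h.up _ h3) h.vl_pi.mem)
        (nonunits_pow h.eta (Nat.succ_pos k))
    · -- `j < i`
      obtain ⟨k, hk⟩ : ∃ k, i = (k + 1) + j := ⟨i - j - 1, by omega⟩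
      have h4 : algebraMap F E (a i) * η ^ i / η ^ j = algebraMap F E (a i) * η ^ (k + 1) := by
        rw [div_eq_iff (pow_ne_zero _ hη), mul_assoc, ← pow_add, ← hk]
      rw [h4]
      exact mul_mem_nonunits (h.up _ (haP i hi.2)) (nonunits_pow h.eta (Nat.succ_pos k))
  rw [Vl, zpow_natCast]
  exact (UC.symm ⟨h1.ne, h1.mem, h1.inv, h2⟩).rfl_left

/-- Normalisation of coefficients. -/
theorem norm {a : ℕ → F} (ha : ∃ i < p, a i ≠ 0) : ∃ (k : ℤ) (j : ℕ), j < p ∧
    (∀ i < p, π ^ k * a i ∈ P) ∧ (∀ i < j, π ^ k * a i ∈ P.nonunits) ∧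
      π ^ k * a j ∉ P.nonunits := by
  classical
  have hπ := h.uni.ne
  obtain ⟨i₀, hi₀, ha₀⟩ := ha
  obtain ⟨k₀, hk₀⟩ := h.uni.exists_vl ha₀
  have hbdd : ∀ k : ℤ, (∀ i < p, π ^ k * a i ∈ P) → -k₀ ≤ k := by
    intro k hk
    have h1 : Vl P π (π ^ k * a i₀) (k + k₀) := (vl_self hπ k).mul hk₀ hπ
    have := vl_nonneg h1 h.uni.non hπ (hk i₀ hi₀)
    omega
  have hex : ∃ k : ℤ, ∀ i < p, π ^ k * a i ∈ P := by
    choose n hn using h.uni.arch
    refine ⟨(∑ i ∈ Finset.range p, n (a i) : ℕ), fun i hi => ?_⟩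
    rw [zpow_natCast, ← Finset.add_sum_erase _ _ (Finset.mem_range.mpr hi), add_comm, pow_add,
      mul_assoc]
    exact mul_mem (pow_mem (show π ∈ P from P.nonunits_le h.uni.non) _) (hn (a i))
  obtain ⟨k, hk, hmin⟩ := Int.exists_least_of_bdd (P := fun k : ℤ => ∀ i < p, π ^ k * a i ∈ P)
    ⟨-k₀, hbdd⟩ hex
  have hun : ∃ j, j < p ∧ π ^ k * a j ∉ P.nonunits := by
    by_contra hcon
    push Not at hcon
    have h1 := hmin (k - 1) fun i hi => by
      have h2 := h.uni.dvd _ (hcon i hi)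
      have h3 : π ^ (k - 1) * a i = π ^ k * a i / π := by
        rw [zpow_sub_one₀ hπ]; field_simp
      rw [h3]; exact h2
    omega
  refine ⟨k, Nat.find hun, (Nat.find_spec hun).1, hk, fun i hi => ?_, (Nat.find_spec hun).2⟩
  by_contra hcon
  exact Nat.find_min hun hi ⟨by have := (Nat.find_spec hun).1; omega, hcon⟩

theorem vl_sum {a : ℕ → F} (ha : ∃ i < p, a i ≠ 0) : ∃ (k : ℤ) (j : ℕ), j < p ∧
    (∀ i < p, π ^ k * a i ∈ P) ∧ π ^ k * a j ∉ P.nonunits ∧
    Vl V η (∑ i ∈ Finset.range p, algebraMap F E (a i) * η ^ i) (j - k * p) := by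
  obtain ⟨k, j, hj, h1, h2, h3⟩ := h.norm ha
  refine ⟨k, j, hj, h1, h3, ?_⟩
  have h4 := h.lead hj h1 h2 h3
  have hη := h.eta_ne
  have hπE : algebraMap F E π ≠ 0 := by rw [Ne, map_eq_zero]; exact h.uni.ne
  have h5 := h4.mul ((h.vl_pi.zpow hη k).inv) hη
  have e : (∑ i ∈ Finset.range p, algebraMap F E (π ^ k * a i) * η ^ i) *
      (algebraMap F E π ^ k)⁻¹ = ∑ i ∈ Finset.range p, algebraMap F E (a i) * η ^ i := by
    rw [Finset.sum_mul]
    refine Finset.sum_congr rfl fun i _ => ?_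
    have := zpow_ne_zero k hπE
    rw [map_mul, map_zpow₀]
    field_simp
  rw [e] at h5
  exact h5

theorem li (a : ℕ → F) (ha : ∑ i ∈ Finset.range p, algebraMap F E (a i) * η ^ i = 0) :
    ∀ i < p, a i = 0 := by
  by_contra hcon
  push Not at hcon
  obtain ⟨k, j, -, -, -, h4⟩ := h.vl_sum hcon
  rw [ha] at h4
  exact h4.ne rfl

theorem coeff_mem {a : ℕ → F} {x : E}
    (hx : x = ∑ i ∈ Finset.range p, algebraMap F E (a i) * η ^ i) (hxV : x ∈ V) :
    ∀ i < p, a i ∈ P := by
  by_cases hcon : ∃ i < p, a i ≠ 0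
  · obtain ⟨k, j, hj, h2, h3, h4⟩ := h.vl_sum hcon
    rw [← hx] at h4
    have h5 := vl_nonneg h4 h.eta h.eta_ne hxV
    have hk : k ≤ 0 := by
      by_contra hk
      have h6 : (p : ℤ) ≤ k * p := by
        have : (1 : ℤ) * p ≤ k * p := Int.mul_le_mul_of_nonneg_right (by omega) (by omega)
        omega
      omega
    intro i hi
    obtain ⟨n, rfl⟩ : ∃ n : ℕ, k = -(n : ℤ) := ⟨(-k).toNat, by omega⟩
    have h6 : a i = π ^ n * (π ^ (-(n : ℤ)) * a i) := by
      have := pow_ne_zero n h.uni.ne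
      rw [zpow_neg, zpow_natCast]; field_simp
    rw [h6]
    exact mul_mem (pow_mem (show π ∈ P from P.nonunits_le h.uni.non) _) (h2 i hi)
  · push Not at hcon
    intro i hi
    rw [hcon i hi]; exact zero_mem _

theorem coeff_unit {a : ℕ → F} {x : E}
    (hx : x = ∑ i ∈ Finset.range p, algebraMap F E (a i) * η ^ i) (hxV : x ∈ V)
    (hxV' : x⁻¹ ∈ V) (hx0 : x ≠ 0) : a 0 ∉ P.nonunits := by
  by_cases hcon : ∃ i < p, a i ≠ 0
  · obtain ⟨k, j, hj, h2, h3, h4⟩ := h.vl_sum hcon
    rw [← hx] at h4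
    have h5 := vl_nonneg h4 h.eta h.eta_ne hxV
    have h6 := vl_nonpos h4 h.eta h.eta_ne hxV'
    have hk : k = 0 := by
      have h7 : (j : ℤ) = k * p := by omega
      rcases lt_trichotomy k 0 with hk | hk | hk
      · exfalso
        have : k * p ≤ (-1) * p := Int.mul_le_mul_of_nonneg_right (by omega) (by omega)
        have := h.two
        omega
      · exact hk
      · exfalso
        have : (1 : ℤ) * p ≤ k * p := Int.mul_le_mul_of_nonneg_right (by omega) (by omega)
        omega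
    have hj0 : j = 0 := by
      rw [hk, zero_mul] at h5 h6
      omega
    rw [hk, zpow_zero, one_mul, hj0] at h3
    exact h3
  · exfalso
    push Not at hcon
    apply hx0
    rw [hx]
    exact Finset.sum_eq_zero fun i hi => by
      rw [hcon i (Finset.mem_range.mp hi), map_zero, zero_mul]

end TR

end

end Fermat.Agent.MP
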