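import Mathlib
import Fermat.Agent.MP.Loc6

/-!
# Logarithmic first order terms
-/

set_option autoImplicit false
set_option linter.unusedSectionVars false

open IsLocalRing

universe u

namespace Fermat.Agent.MP

open Fermat.Agent.Geo Fermat.Agent.CA

/-- `x = a + b η mod η ^ 2` with `b / a = d` in the residue field. -/
def DL {F E : Type u} [Field F] [Field E] [Algebra F E] (P : ValuationSubring F)
    (V : ValuationSubring E) (η : E) (x : E) (d : F) : Prop :=
  ∃ a b : F, UC P a a ∧ b ∈ P ∧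
    (x - (algebraMap F E a + algebraMap F E b * η)) / η ^ 2 ∈ V ∧ b - d * a ∈ P.nonunits

section

variable {F E : Type u} [Field F] [Field E] [Algebra F E] {P : ValuationSubring F}
  {V : ValuationSubring E} {π : F} {η : E} {p : ℕ} {c : ℕ → F} {x x' : E} {d d' : F}

theorem DL.mem (hx : DL P V η x d) : d ∈ P := by
  obtain ⟨a, b, ha, hb, -, hd⟩ := hx
  have h1 : d * a ∈ P := by
    have := P.sub_mem hb (P.nonunits_le hd)
    rwa [sub_sub_cancel] at this
  have h2 := P.mul_mem _ _ h1 ha.inv
  rwa [mul_assoc, mul_inv_cancel₀ ha.ne, mul_one] at h2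

theorem DL.congr (hx : DL P V η x d) (hd : d - d' ∈ P.nonunits) : DL P V η x d' := by
  obtain ⟨a, b, ha, hb, hr, hd'⟩ := hx
  refine ⟨a, b, ha, hb, hr, ?_⟩
  have e : b - d' * a = (b - d * a) + a * (d - d') := by ring
  rw [e]
  exact nonunits_add hd' (mul_mem_nonunits ha.mem hd)

namespace TR

variable (h : TR P V π η p c)
include h

theorem dl_mul (hx : DL P V η x d) (hx' : DL P V η x' d') : DL P V η (x * x') (d + d') := by
  obtain ⟨a, b, ha, hb, hr, hd⟩ := hx
  obtain ⟨a', b', ha', hb', hr', hd'⟩ := hx'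
  have hη := pow_ne_zero 2 h.eta_ne
  refine ⟨a * a', a * b' + a' * b, ha.mul ha', add_mem (mul_mem ha.mem hb') (mul_mem ha'.mem hb),
    ?_, ?_⟩
  · set r := (x - (algebraMap F E a + algebraMap F E b * η)) / η ^ 2 with hr_def
    set r' := (x' - (algebraMap F E a' + algebraMap F E b' * η)) / η ^ 2 with hr'_def
    have e1 : x = algebraMap F E a + algebraMap F E b * η + r * η ^ 2 := by
      rw [hr_def, div_mul_cancel₀ _ hη]; ring
    have e2 : x' = algebraMap F E a' + algebraMap F E b' * η + r' * η ^ 2 := by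
      rw [hr'_def, div_mul_cancel₀ _ hη]; ring
    have e3 : (x * x' - (algebraMap F E (a * a') + algebraMap F E (a * b' + a' * b) * η)) / η ^ 2 =
        algebraMap F E b * algebraMap F E b' +
        r * (algebraMap F E a' + algebraMap F E b' * η + r' * η ^ 2) +
        r' * (algebraMap F E a + algebraMap F E b * η) := by
      rw [div_eq_iff hη, map_mul, map_add, map_mul, map_mul, e1, e2]
      ring
    rw [e3]
    have hηV := h.etaV
    have m1 : algebraMap F E a' + algebraMap F E b' * η + r' * η ^ 2 ∈ V :=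
      add_mem (add_mem (h.up _ ha'.mem) (mul_mem (h.up _ hb') hηV)) (mul_mem hr' (pow_mem hηV 2))
    have m2 : algebraMap F E a + algebraMap F E b * η ∈ V :=
      add_mem (h.up _ ha.mem) (mul_mem (h.up _ hb) hηV)
    exact add_mem (add_mem (mul_mem (h.up _ hb) (h.up _ hb')) (mul_mem hr m1)) (mul_mem hr' m2)
  · have e : a * b' + a' * b - (d + d') * (a * a') = a * (b' - d' * a') + a' * (b - d * a) := by
      ring
    rw [e]
    exact nonunits_add (mul_mem_nonunits ha.mem hd') (mul_mem_nonunits ha'.mem hd)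

theorem dl_uniq (hx : DL P V η x d) (hx' : DL P V η x d') : d - d' ∈ P.nonunits := by
  have hdP' := hx'.mem
  obtain ⟨a, b, ha, hb, hr, hd⟩ := hx
  obtain ⟨a', b', ha', hb', hr', hd'⟩ := hx'
  have hη := h.eta_ne
  have hη2 := pow_ne_zero 2 hη
  set r := (x - (algebraMap F E a + algebraMap F E b * η)) / η ^ 2 with hr_def
  set r' := (x - (algebraMap F E a' + algebraMap F E b' * η)) / η ^ 2 with hr'_def
  have e1 : x = algebraMap F E a + algebraMap F E b * η + r * η ^ 2 := by
    rw [hr_def, div_mul_cancel₀ _ hη2]; ring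
  have e2 : x = algebraMap F E a' + algebraMap F E b' * η + r' * η ^ 2 := by
    rw [hr'_def, div_mul_cancel₀ _ hη2]; ring
  have h1 : algebraMap F E (a - a') ∈ V.nonunits := by
    have e3 : algebraMap F E (a - a') =
        (algebraMap F E (b' - b) + (r' - r) * η) * η := by
      rw [map_sub, map_sub]
      linear_combination e2 - e1
    rw [e3]
    exact mul_mem_nonunits (add_mem (h.up _ (sub_mem hb' hb)) (mul_mem (sub_mem hr' hr) h.etaV))
      h.eta
  have h2 := h.down_non h1
  have h3 := h.uni.dvd _ h2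
  have hπ := h.uni.ne
  have h4 : algebraMap F E (b - b') ∈ V.nonunits := by
    have e4 : algebraMap F E (b - b') = ((r' - r) - algebraMap F E ((a - a') / π) *
        (algebraMap F E π / η ^ 2)) * η := by
      have e5 : algebraMap F E (a - a') = algebraMap F E ((a - a') / π) * algebraMap F E π := by
        rw [← map_mul, div_mul_cancel₀ _ hπ]
      rw [map_sub] at e5
      have e6 : algebraMap F E b * η - algebraMap F E b' * η = (r' - r) * η ^ 2 -
          algebraMap F E ((a - a') / π) * algebraMap F E π := by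
        linear_combination e2 - e1 - e5
      have e7 : (algebraMap F E b - algebraMap F E b') * η = (((r' - r) -
        algebraMap F E ((a - a') / π) * (algebraMap F E π / η ^ 2)) * η) * η := by
        have e8 : algebraMap F E π / η ^ 2 * η * η = algebraMap F E π := by
          field_simp
        linear_combination e6 + algebraMap F E ((a - a') / π) * e8
      rw [map_sub]
      exact mul_right_cancel₀ hη e7
    rw [e4]
    exact mul_mem_nonunits (sub_mem (sub_mem hr' hr) (mul_mem (h.up _ h3) h.pi_div)) h.eta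
  have h5 := h.down_non h4
  have e9 : d - d' = a⁻¹ * (-(b - d * a) + (b - b') + (b' - d' * a') - d' * (a - a')) := by
    have := ha.ne
    field_simp
    ring
  rw [e9]
  refine mul_mem_nonunits ha.inv (nonunits_sub (nonunits_add (nonunits_add (nonunits_neg hd) h5)
    hd') ?_)
  exact mul_mem_nonunits hdP' h2

theorem dl_base {a : F} (ha : UC P a a) : DL P V η (algebraMap F E a) 0 :=
  ⟨a, 0, ha, zero_mem _, by simp, by simpa using zero_mem_nonunits P⟩

theorem dl_one : DL P V η 1 0 := by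
  have := h.dl_base (a := 1) (UC.refl one_ne_zero (one_mem _) (by rw [inv_one]; exact one_mem _))
  rwa [map_one] at this

theorem dl_of_rep {a : ℕ → F} (hx : x = ∑ i ∈ Finset.range p, algebraMap F E (a i) * η ^ i)
    (haP : ∀ i < p, a i ∈ P) (ha0 : a 0 ∉ P.nonunits) : DL P V η x (a 1 / a 0) := by
  have h00 : a 0 ≠ 0 := fun h0 => ha0 (h0 ▸ zero_mem_nonunits P)
  have hη2 := pow_ne_zero 2 h.eta_ne
  obtain ⟨q, rfl⟩ : ∃ q, p = q + 2 := ⟨p - 2, by have := h.two; omega⟩
  refine ⟨a 0, a 1, UC.refl h00 (haP 0 (by omega)) (inv_mem_of_notMem_nonunits ha0),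
    haP 1 (by omega), ?_, ?_⟩
  · have e : x = algebraMap F E (a 0) + algebraMap F E (a 1) * η +
        (∑ i ∈ Finset.range q, algebraMap F E (a (i + 2)) * η ^ i) * η ^ 2 := by
      rw [hx, Finset.sum_range_succ', Finset.sum_range_succ', Finset.sum_mul]
      have : ∀ i, algebraMap F E (a (i + 1 + 1)) * η ^ (i + 1 + 1) =
          algebraMap F E (a (i + 2)) * η ^ i * η ^ 2 := fun i => by ring
      rw [Finset.sum_congr rfl fun i _ => this i]
      ring
    have e2 : (x - (algebraMap F E (a 0) + algebraMap F E (a 1) * η)) / η ^ 2 =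
        ∑ i ∈ Finset.range q, algebraMap F E (a (i + 2)) * η ^ i := by
      rw [div_eq_iff hη2, e]; ring
    rw [e2]
    exact sum_mem fun i hi => mul_mem (h.up _ (haP _ (by rw [Finset.mem_range] at hi; omega)))
      (pow_mem h.etaV i)
  · rw [div_mul_cancel₀ _ h00, sub_self]
    exact zero_mem_nonunits _

theorem dl_exists (hsp : ∀ x : E, ∃ a : ℕ → F,
    x = ∑ i ∈ Finset.range p, algebraMap F E (a i) * η ^ i) (hx : UC V x x) :
    ∃ d, DL P V η x d := by
  obtain ⟨a, ha⟩ := hsp x
  exact ⟨_, h.dl_of_rep ha (h.coeff_mem ha hx.mem) (h.coeff_unit ha hx.mem hx.inv hx.ne)⟩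

theorem dl_pow (hx : DL P V η x d) (n : ℕ) : DL P V η (x ^ n) (n * d) := by
  induction n with
  | zero => rw [pow_zero, Nat.cast_zero, zero_mul]; exact h.dl_one
  | succ n ih =>
    have := h.dl_mul ih hx
    rw [pow_succ, Nat.cast_succ, add_mul, one_mul]
    exact this

theorem dl_pow_p (hx : DL P V η x d) {n : ℕ} (hn : (n : F) ∈ P.nonunits) :
    DL P V η (x ^ n) 0 := by
  refine (h.dl_pow hx n).congr ?_
  rw [sub_zero, mul_comm]
  exact mul_mem_nonunits hx.mem hn

theorem dl_inv (hsp : ∀ x : E, ∃ a : ℕ → F,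
    x = ∑ i ∈ Finset.range p, algebraMap F E (a i) * η ^ i) (hxu : UC V x x)
    (hx : DL P V η x d) : DL P V η x⁻¹ (-d) := by
  obtain ⟨e, he⟩ := h.dl_exists hsp hxu.invs
  have h1 := h.dl_mul hx he
  rw [mul_inv_cancel₀ hxu.ne] at h1
  have h2 := h.dl_uniq h1 h.dl_one
  refine he.congr ?_
  have e1 : e - -d = d + e - 0 := by ring
  rw [e1]; exact h2

theorem dl_zpow (hsp : ∀ x : E, ∃ a : ℕ → F,
    x = ∑ i ∈ Finset.range p, algebraMap F E (a i) * η ^ i) (hxu : UC V x x)
    (hx : DL P V η x d) (n : ℤ) : DL P V η (x ^ n) (n * d) := by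
  rcases Int.eq_nat_or_neg n with ⟨k, rfl | rfl⟩
  · rw [zpow_natCast]; exact_mod_cast h.dl_pow hx k
  · rw [zpow_neg, zpow_natCast, ← inv_pow]
    have := h.dl_pow (h.dl_inv hsp hxu hx) k
    have e : (k : F) * -d = ((-(k : ℤ) : ℤ) : F) * d := by push_cast; ring
    rwa [e] at this

/-- the first order term of `π / η ^ p` -/
theorem dl_pi (hsp : ∀ x : E, ∃ a : ℕ → F,
    x = ∑ i ∈ Finset.range p, algebraMap F E (a i) * η ^ i) :
    DL P V η (algebraMap F E π / η ^ p) (-(c 1 / c 0)) := by
  have h1 := h.dl_of_rep (x := ∑ i ∈ Finset.range p, algebraMap F E (c i) * η ^ i) rfl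
    (fun i _ => h.cP i) h.c0.notMem
  have h2 := h.dl_inv hsp h.unit_u.rfl_left h1
  have e : algebraMap F E π / η ^ p = (∑ i ∈ Finset.range p, algebraMap F E (c i) * η ^ i)⁻¹ := by
    have := h.unit_u.rfl_left.ne
    rw [div_eq_iff (pow_ne_zero _ h.eta_ne), h.eq]
    field_simp
  rw [e]; exact h2

end TR

end

/-- Existence of valuation rings above `P`. -/
theorem exists_above {F E : Type u} [Field F] [Field E] [Algebra F E] (P : ValuationSubring F) :
    ∃ V : ValuationSubring E, (∀ x ∈ P, algebraMap F E x ∈ V) ∧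
      ∀ x ∈ P.nonunits, algebraMap F E x ∈ V.nonunits := by
  obtain ⟨V, hV⟩ := LocalSubring.exists_le_valuationSubring (P.toLocalSubring.map (algebraMap F E))
  obtain ⟨h1, h2⟩ := hV
  have hup : ∀ x ∈ P, algebraMap F E x ∈ V := fun x hx => h1 ⟨x, hx, rfl⟩
  refine ⟨V, hup, fun x hx => ?_⟩
  by_contra hcon
  have h3 := inv_mem_of_notMem_nonunits hcon
  have hxP := P.nonunits_le hx
  have hx0 : algebraMap F E x ≠ 0 := fun h0 => hcon (h0 ▸ zero_mem_nonunits V)
  have hx0' : x ≠ 0 := fun h0 => hx0 (by rw [h0, map_zero])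
  have h4 : IsUnit (Subring.inclusion h1 ⟨algebraMap F E x, ⟨x, hxP, rfl⟩⟩) := by
    refine IsUnit.of_mul_eq_one (⟨(algebraMap F E x)⁻¹, h3⟩ : V) ?_
    apply Subtype.ext
    exact mul_inv_cancel₀ hx0
  have h5 := h2.map_nonunit _ h4
  obtain ⟨⟨_, ⟨y, hy, rfl⟩⟩, hy'⟩ := h5.exists_right_inv
  have h6 : algebraMap F E x * algebraMap F E y = 1 := congrArg Subtype.val hy'
  rw [← map_mul, map_eq_one_iff _ (algebraMap F E).injective] at h6
  have h7 : x⁻¹ ∈ P := by
    rw [inv_eq_of_mul_eq_one_right h6]; exact hy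
  exact notMem_nonunits_of_inv h7 hx0' hx

end Fermat.Agent.MP
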