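import Mathlib
import Fermat.Agent.MP.Loc7
import Fermat.Agent.MP.Const

/-!
# Local factorisation at the points of the special fibre
-/

set_option autoImplicit false
set_option linter.unusedSectionVars false
set_option linter.unusedVariables false

open IsLocalRing Polynomial

universe u

namespace Fermat.Agent.MP

open Fermat.Agent.Geo Fermat.Agent.LG Fermat.Agent.CA

section

variable {O K F E : Type u} [CommRing O] [IsDomain O] [IsDiscreteValuationRing O] [CharZero O]
  [Field K] [Field F] [Field E] [Algebra O K] [Algebra O F] [Algebra O E] [Algebra K F]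
  [Algebra F E] [IsScalarTower O K F] [IsScalarTower O F E]
  {t : K} {π : O} [FiniteDimensional K F] [Algebra.IsSeparable K F]
  {ht : IsParam O t} {hπ : Prime π} {P P₁ P₀ : ValuationSubring F} {u u' : F}

theorem pi_non (hP : Over (gaussVal ht hπ) (algebraMap O K π) P) :
    algebraMap O F π ∈ P.nonunits := by
  rw [IsScalarTower.algebraMap_apply O K F π]
  exact hP.2

theorem uni_of_over (hP : Over (gaussVal ht hπ) (algebraMap O K π) P)
    (hu : ∀ x ∈ P.nonunits, x / algebraMap O F π ∈ P) : Uni P (algebraMap O F π) :=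
  ⟨pi_non hP, pi_ne_zero ht hπ, hu, over_arch hP⟩

theorem uc_O (hP : Over (gaussVal ht hπ) (algebraMap O K π) P) {a : O} (ha : IsUnit a) :
    UC P (algebraMap O F a) (algebraMap O F a) := by
  obtain ⟨b, hb⟩ := ha.exists_right_inv
  have h1 : algebraMap O F a * algebraMap O F b = 1 := by rw [← map_mul, hb, map_one]
  refine UC.refl (left_ne_zero_of_mul_eq_one h1) (O_mem_over hP a) ?_
  rw [inv_eq_of_mul_eq_one_right h1]
  exact O_mem_over hP b

variable {p : ℕ} {η : E} {c : ℕ → O} {V : ValuationSubring E}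

theorem EisExt.eqF (hE : EisExt O F π p η c) : η ^ p = algebraMap F E (algebraMap O F π) *
    ∑ i ∈ Finset.range p, algebraMap F E (algebraMap O F (c i)) * η ^ i := by
  rw [hE.eq, IsScalarTower.algebraMap_apply O F E π]
  congr 1
  exact Finset.sum_congr rfl fun i _ => by rw [IsScalarTower.algebraMap_apply O F E]

/-- `η` is a nonunit of every valuation ring above `P`. -/
theorem eta_non (hE : EisExt O F π p η c) (hp : 0 < p)
    (hP : Over (gaussVal ht hπ) (algebraMap O K π) P)
    (hV : ∀ x ∈ P, algebraMap F E x ∈ V) (hV' : ∀ x ∈ P.nonunits, algebraMap F E x ∈ V.nonunits) :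
    η ∈ V.nonunits := by
  have hπV : algebraMap F E (algebraMap O F π) ∈ V.nonunits := hV' _ (pi_non hP)
  have hcV : ∀ i, algebraMap F E (algebraMap O F (c i)) ∈ V := fun i => hV _ (O_mem_over hP _)
  have h1 : η ∈ V := by
    by_contra hcon
    have h0 : η ≠ 0 := fun h0 => hcon (h0 ▸ V.zero_mem)
    have h2 : η⁻¹ ∈ V.nonunits := by
      by_contra h
      have := inv_mem_of_notMem_nonunits h
      rw [inv_inv] at this
      exact hcon this
    have h3 : (1 : E) = algebraMap F E (algebraMap O F π) *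
        ∑ i ∈ Finset.range p, algebraMap F E (algebraMap O F (c i)) * η⁻¹ ^ (p - i) := by
      have h4 : ∀ i ∈ Finset.range p, algebraMap F E (algebraMap O F (c i)) * η⁻¹ ^ (p - i) =
          algebraMap F E (algebraMap O F (c i)) * η ^ i * η⁻¹ ^ p := by
        intro i hi
        rw [Finset.mem_range] at hi
        obtain ⟨k, rfl⟩ := Nat.exists_eq_add_of_lt hi
        have h5 : i + k + 1 - i = k + 1 := by omega
        have h6 : η ^ i * η⁻¹ ^ i = 1 := by rw [← mul_pow, mul_inv_cancel₀ h0, one_pow]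
        rw [h5, add_assoc, pow_add]
        linear_combination (-(algebraMap F E (algebraMap O F (c i))) * η⁻¹ ^ (k + 1)) * h6
      rw [Finset.sum_congr rfl h4, ← Finset.sum_mul, ← mul_assoc, ← hE.eqF, ← mul_pow,
        mul_inv_cancel₀ h0, one_pow]
    have h7 : (1 : E) ∈ V.nonunits := by
      rw [h3, mul_comm]
      exact mul_mem_nonunits (sum_mem fun i _ => mul_mem (hcV i)
        (pow_mem (show η⁻¹ ∈ V from V.nonunits_le h2) _)) hπV
    rw [ValuationSubring.mem_nonunits_iff] at h7
    simp at h7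
  by_contra hcon
  have h2 := inv_mem_of_notMem_nonunits hcon
  have h0 : η ≠ 0 := fun h0 => hcon (h0 ▸ zero_mem_nonunits V)
  have h3 : (1 : E) ∈ V.nonunits := by
    have h4 : (1 : E) = η⁻¹ ^ p * (∑ i ∈ Finset.range p,
        algebraMap F E (algebraMap O F (c i)) * η ^ i) * algebraMap F E (algebraMap O F π) := by
      have h5 : η⁻¹ ^ p * η ^ p = 1 := by rw [← mul_pow, inv_mul_cancel₀ h0, one_pow]
      rw [← h5, hE.eqF]
      ring
    rw [h4]
    exact mul_mem_nonunits (mul_mem (pow_mem h2 p) (sum_mem fun i _ => mul_mem (hcV i)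
      (pow_mem h1 i))) hπV
  rw [ValuationSubring.mem_nonunits_iff] at h3
  simp at h3

theorem EisExt.tr (hE : EisExt O F π p η c) (hp : 2 ≤ p)
    (hP : Over (gaussVal ht hπ) (algebraMap O K π) P)
    (hu : ∀ x ∈ P.nonunits, x / algebraMap O F π ∈ P)
    (hV : ∀ x ∈ P, algebraMap F E x ∈ V) (hη : η ∈ V.nonunits) :
    TR P V (algebraMap O F π) η p (fun i => algebraMap O F (c i)) where
  two := hp
  up := hV
  uni := uni_of_over hP hu
  eta := hη
  eq := hE.eqF
  cP i := O_mem_over hP _
  c0 := uc_O hP hE.c0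

variable {y : Ideal (chart O (algebraMap K F t))} [hy : y.IsPrime]

theorem O_mem_locS (a : O) : algebraMap O F a ∈ locS y :=
  mem_locS_of_mem ((chart O (algebraMap K F t)).algebraMap_mem a)

theorem not_isUnit_locS {x : locS y} (hx : locM y (x : F)) : ¬ IsUnit x := by
  haveI := isLocalRing_locS (y := y)
  have := (mem_maximalIdeal_locS (x := x)).mpr hx
  rwa [mem_maximalIdeal, mem_nonunits_iff] at this

theorem isUnit_locS {x : locS y} (hx : ¬ locM y (x : F)) : IsUnit x := by
  haveI := isLocalRing_locS (y := y)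
  by_contra h
  apply hx
  rw [← mem_maximalIdeal_locS (x := x), mem_maximalIdeal, mem_nonunits_iff]
  exact h

theorem EisExt.eisD (hE : EisExt O F π p η c) (hT : TR P V (algebraMap O F π) η p
    (fun i => algebraMap O F (c i))) (hP : Over (gaussVal ht hπ) (algebraMap O K π) P)
    (hmeet : Meets y P) :
    EisD (F := F) (⟨algebraMap O F π, O_mem_locS π⟩ : locS y) η p
      (fun i => (⟨algebraMap O F (c i), O_mem_locS (c i)⟩ : locS y)) where
  two := hT.two
  non := not_isUnit_locS (locM_of_nonunits hP hmeet (O_mem_locS π) (pi_non hP))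
  eq := hE.eqF
  c0 := by
    obtain ⟨b, hb⟩ := hE.c0.exists_right_inv
    refine IsUnit.of_mul_eq_one (⟨algebraMap O F b, O_mem_locS b⟩ : locS y) ?_
    apply Subtype.ext
    change algebraMap O F (c 0) * algebraMap O F b = 1
    rw [← map_mul, hb, map_one]
  span := hE.span
  li := hT.li

/-- divisibility modulo a local equation -/
theorem LocEq_val {a : F} (h : LocEq y P a) (hmeet : Meets y P)
    (hP : Over (gaussVal ht hπ) (algebraMap O K π) P) (hval : ValAt y P) (x x' : locS y) :
    ∃ c, (⟨a, h.mem⟩ : locS y) ∣ x - c * x' ∨ (⟨a, h.mem⟩ : locS y) ∣ x' - c * x := by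
  by_cases hx : (x : F) ∈ P.nonunits
  · exact ⟨0, Or.inl (by rw [zero_mul, sub_zero]; exact (h.mem_iff hmeet hP _).mpr hx)⟩
  by_cases hx' : (x' : F) ∈ P.nonunits
  · exact ⟨0, Or.inr (by rw [zero_mul, sub_zero]; exact (h.mem_iff hmeet hP _).mpr hx')⟩
  have hxP := locS_le_over hP hmeet x.2
  have hxP' := locS_le_over hP hmeet x'.2
  have hxi := inv_mem_of_notMem_nonunits hx
  have hxi' := inv_mem_of_notMem_nonunits hx'
  have hx0 : (x : F) ≠ 0 := fun h0 => hx (h0 ▸ zero_mem_nonunits P)
  have hx0' : (x' : F) ≠ 0 := fun h0 => hx' (h0 ▸ zero_mem_nonunits P)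
  obtain ⟨r, hr, h1 | h1⟩ := hval ((x : F) / (x' : F)) (by rw [div_eq_mul_inv]; exact P.mul_mem _ _ hxP hxi')
    (by rw [inv_div, div_eq_mul_inv]; exact P.mul_mem _ _ hxP' hxi)
  · refine ⟨⟨r, hr⟩, Or.inl ((h.mem_iff hmeet hP _).mpr ?_)⟩
    have := mul_mem_nonunits hxP' h1
    have e : (x' : F) * ((x : F) / x' - r) = x - r * x' := by field_simp
    rw [e] at this
    exact this
  · refine ⟨⟨r, hr⟩, Or.inr ((h.mem_iff hmeet hP _).mpr ?_)⟩
    have := mul_mem_nonunits hxP h1
    have e : (x : F) * (((x : F) / x')⁻¹ - r) = x' - r * x := by rw [inv_div]; field_simp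
    rw [e] at this
    exact this

theorem EisExt.cmp (hT : TR P V (algebraMap O F π) η p (fun i => algebraMap O F (c i)))
    (hD : EisD (F := F) (⟨algebraMap O F π, O_mem_locS π⟩ : locS y) η p
      (fun i => (⟨algebraMap O F (c i), O_mem_locS (c i)⟩ : locS y)))
    (hP : Over (gaussVal ht hπ) (algebraMap O K π) P) (hmeet : Meets y P)
    [IsDomain (locS y)] [IsLocalRing (locS y)] [IsNoetherianRing (locS y)]
    [IsFractionRing (locS y) F]
    {a : F} (h : LocEq y P a) : Cmp (K := E) (⟨a, h.mem⟩ : locS y) (etaS (locS y) η) V where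
  mem s := by
    obtain ⟨b, hb⟩ := hD.rep s
    change (s : E) ∈ V
    rw [hb]
    exact sum_mem fun i _ => mul_mem (hT.up _ (locS_le_over hP hmeet (b i).2))
      (pow_mem hT.etaV i)
  unit b hb := by
    change (algebraMap F E (b : F))⁻¹ ∈ V
    rw [← map_inv₀]
    apply hT.up
    apply inv_mem_of_notMem_nonunits
    intro hbn
    exact hb ((h.mem_iff hmeet hP b).mpr hbn)
  non := hT.eta

/-- The local expression of `h`. -/
def LocRes (y : Ideal (chart O (algebraMap K F t))) [y.IsPrime] (η : E) (p : ℕ) (w h : E) :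
    Prop :=
  ∃ (a : ℕ → F) (g : E), (∀ i, a i ∈ locS y) ∧ ¬ locM y (a 0) ∧ g ≠ 0 ∧
    h = w * (∑ i ∈ Finset.range p, algebraMap F E (a i) * η ^ i) * g ^ p

theorem unit_rep (hD : EisD (F := F) (⟨algebraMap O F π, O_mem_locS π⟩ : locS y) η p
      (fun i => (⟨algebraMap O F (c i), O_mem_locS (c i)⟩ : locS y)))
    [IsDomain (locS y)] [IsLocalRing (locS y)] [IsNoetherianRing (locS y)]
    [IsFractionRing (locS y) F] {ε : adS (locS y) η} (hε : IsUnit ε) :
    ∃ a : ℕ → F, (∀ i, a i ∈ locS y) ∧ ¬ locM y (a 0) ∧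
      (ε : E) = ∑ i ∈ Finset.range p, algebraMap F E (a i) * η ^ i := by
  obtain ⟨a, ha⟩ := hD.repS ε
  refine ⟨fun i => a i, fun i => (a i).2, ?_, ?_⟩
  · intro hM
    apply not_isUnit_locS hM
    obtain ⟨q, hq⟩ : ∃ q, p = q + 1 := ⟨p - 1, by have := hD.two; omega⟩
    have e : ε = algebraMap (locS y) (adS (locS y) η) (a 0) + etaS (locS y) η *
        ∑ i ∈ Finset.range q, algebraMap (locS y) (adS (locS y) η) (a (i + 1)) *
          etaS (locS y) η ^ i := by
      rw [ha, hq, Finset.sum_range_succ', pow_zero, mul_one, add_comm, Finset.mul_sum]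
      congr 1
      exact Finset.sum_congr rfl fun i _ => by rw [pow_succ]; ring
    rw [e, hD.isUnit_iff] at hε
    exact hε
  · rw [ha]
    push_cast
    rfl

theorem HorDvd.hor (hE : EisExt O F π p η c) {m : ℕ} {h : E} (hor : HorDvd π m h)
    (hD : EisD (F := F) (⟨algebraMap O F π, O_mem_locS π⟩ : locS y) η p
      (fun i => (⟨algebraMap O F (c i), O_mem_locS (c i)⟩ : locS y)))
    (hη0 : η ≠ 0) (hπ0 : algebraMap O F π ≠ 0)
    (V : ValuationSubring E) (hV : V ≠ ⊤) (hS : ∀ s : adS (locS y) η,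
      algebraMap (adS (locS y) η) E s ∈ V)
    (hη : (algebraMap (adS (locS y) η) E (etaS (locS y) η))⁻¹ ∈ V) :
    ∃ g : E, g ≠ 0 ∧ g ^ m * h ∈ V ∧ (g ^ m * h)⁻¹ ∈ V := by
  refine hor V hV (fun o => ?_) ?_
  · have := hS (algebraMap (locS y) (adS (locS y) η) ⟨algebraMap O F o, O_mem_locS o⟩)
    rw [IsScalarTower.algebraMap_apply O F E]
    exact this
  · have h1 : (algebraMap O E π)⁻¹ = (η⁻¹) ^ p *
        ∑ i ∈ Finset.range p, algebraMap F E (algebraMap O F (c i)) * η ^ i := by
      have h2 : η⁻¹ ^ p * η ^ p = 1 := by rw [← mul_pow, inv_mul_cancel₀ hη0, one_pow]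
      have h3 : algebraMap O E π ≠ 0 := by
        rw [IsScalarTower.algebraMap_apply O F E, Ne, map_eq_zero]; exact hπ0
      rw [hE.eqF, ← IsScalarTower.algebraMap_apply O F E] at h2
      apply inv_eq_of_mul_eq_one_right
      rw [← h2]; ring
    rw [h1]
    refine mul_mem (pow_mem hη p) ?_
    have h4 := hS (∑ i ∈ Finset.range p, algebraMap (locS y) (adS (locS y) η)
      ⟨algebraMap O F (c i), O_mem_locS (c i)⟩ * etaS (locS y) η ^ i)
    rw [map_sum] at h4
    convert h4 using 1
    exact Finset.sum_congr rfl fun i _ => rfl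

end

end Fermat.Agent.MP
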