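import Mathlib
import Fermat.Agent.MP.Slope1

/-!
# Local factorisation at the points of the special fibre, II
-/

set_option autoImplicit false
set_option linter.unusedSectionVars false
set_option linter.unusedVariables false

open IsLocalRing Polynomial

universe u

namespace Fermat.Agent.MP

open Fermat.Agent.Geo Fermat.Agent.LG Fermat.Agent.CA

section

variable {O K F E : Type u} [CommRing O] [IsDomain O] [IsDiscreteValuationRing O] [CharZero O]
  [Field K] [Field F] [Field E] [Algebra O K] [Algebra O F] [Algebra O E] [Algebra K F]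
  [Algebra F E] [IsScalarTower O K F] [IsScalarTower O F E]
  {t : K} {π : O} [FiniteDimensional K F] [Algebra.IsSeparable K F]
  {ht : IsParam O t} {hπ : Prime π} {P P₁ P₀ : ValuationSubring F} {u u' : F}
  {p : ℕ} {η : E} {c : ℕ → O} {V V₁ V₀ : ValuationSubring E}

theorem pE_ne (ht : IsParam O t) (hπ : Prime π) : algebraMap O F π ≠ 0 := pi_ne_zero ht hπ

theorem smooth_res (hE : EisExt O F π p η c)
    (hT : TR P V (algebraMap O F π) η p (fun i => algebraMap O F (c i)))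
    (hP : Over (gaussVal ht hπ) (algebraMap O K π) P)
    {y : Ideal (chart O (algebraMap K F t))} [hy : y.IsPrime] (hmeet : Meets y P)
    (hS : SmPt y π P) {h : E} (h0 : h ≠ 0)
    (H₁ : ∃ g : E, g ≠ 0 ∧ g ^ p * h ∈ V ∧ (g ^ p * h)⁻¹ ∈ V) (hor : HorDvd π p h) :
    LocRes y η p 1 h := by
  haveI : IsNoetherianRing (chart O (algebraMap K F t)) := isNoetherianRing_chart ht
  haveI : IsNoetherianRing (locS y) := isNoetherianRing_locS
  haveI : IsLocalRing (locS y) := isLocalRing_locS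
  haveI : IsFractionRing (locS y) F := isFractionRing_locS ht
  have hD := hE.eisD hT hP hmeet
  haveI := hD.isLocal_S
  haveI : IsNoetherianRing (adS (locS y) η) := EisD.isNoetherian_S (R := locS y) (η := η)
  haveI := hD.isFrac_S
  have hEis : EisS (⟨algebraMap O F π, O_mem_locS π⟩ : locS y) (etaS (locS y) η) p :=
    hD.toEisS (hS.eq.prime hmeet hP) (LocEq_val hS.eq hmeet hP hS.val)
  obtain ⟨ε, g, hε, hg, e⟩ := hEis.factor (K := E) (EisExt.cmp hT hD hP hmeet hS.eq)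
    (by have := hT.two; omega) h0 H₁
    (fun V' hV' hS' hη' => hor.hor hE hD hT.eta_ne (pi_ne_zero ht hπ) V' hV' hS' hη')
  obtain ⟨a, ha, ha0, hrep⟩ := unit_rep hD hε
  refine ⟨a, g, ha, ha0, hg, ?_⟩
  rw [one_mul, ← hrep]
  exact e

theorem cross_res (hE : EisExt O F π p η c)
    (hT₁ : TR P₁ V₁ (algebraMap O F π) η p (fun i => algebraMap O F (c i)))
    (hT₀ : TR P₀ V₀ (algebraMap O F π) η p (fun i => algebraMap O F (c i)))
    (hP₁ : Over (gaussVal ht hπ) (algebraMap O K π) P₁)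
    (hP₀ : Over (gaussVal ht hπ) (algebraMap O K π) P₀)
    {y : Ideal (chart O (algebraMap K F t))} [hy : y.IsPrime] (hmeet₁ : Meets y P₁)
    (hmeet₀ : Meets y P₀) (hC : CrPt y π P₁ P₀ u u') {h : E} (h0 : h ≠ 0)
    (H₁ : ∃ g : E, g ≠ 0 ∧ g ^ p * h ∈ V₁ ∧ (g ^ p * h)⁻¹ ∈ V₁) (hor : HorDvd π p h) :
    ∃ l : ℤ, LocRes y η p (algebraMap F E u ^ l) h := by
  haveI : IsNoetherianRing (chart O (algebraMap K F t)) := isNoetherianRing_chart ht
  haveI : IsNoetherianRing (locS y) := isNoetherianRing_locS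
  haveI : IsLocalRing (locS y) := isLocalRing_locS
  haveI : IsFractionRing (locS y) F := isFractionRing_locS ht
  have hD := hE.eisD hT₁ hP₁ hmeet₁
  haveI := hD.isLocal_S
  haveI : IsNoetherianRing (adS (locS y) η) := EisD.isNoetherian_S (R := locS y) (η := η)
  haveI := hD.isFrac_S
  obtain ⟨e, heL, heM, huu⟩ := hC.mul
  -- `u'` is a unit along `P₀`, `u` is a unit along `P₁`
  have heP : ∀ P : ValuationSubring F, Over (gaussVal ht hπ) (algebraMap O K π) P → Meets y P →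
      e ∉ P.nonunits := by
    intro P hP hm hn
    exact heM (locM_of_nonunits hP hm heL hn)
  have hπ0 := pi_ne_zero (F := F) ht hπ
  have hu'P₀ : u' ∉ P₀.nonunits := by
    intro hn
    have h1 := hT₀.uni.dvd u hC.eq₀.nonunit
    apply heP P₀ hP₀ hmeet₀
    have h2 : e = (u / algebraMap O F π) * u' := by
      rw [div_mul_eq_mul_div, huu]; field_simp
    rw [h2]
    exact mul_mem_nonunits h1 hn
  have huP₁ : u ∉ P₁.nonunits := by
    intro hn
    have h1 := hT₁.uni.dvd u' hC.eq₁.nonunit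
    apply heP P₁ hP₁ hmeet₁
    have h2 : e = (u' / algebraMap O F π) * u := by
      rw [div_mul_eq_mul_div, mul_comm, huu]; field_simp
    rw [h2]
    exact mul_mem_nonunits h1 hn
  have hEis : Eis (⟨u, hC.eq₀.mem⟩ : locS y) (⟨u', hC.eq₁.mem⟩ : locS y)
      (etaS (locS y) η) p := by
    refine hD.toEis (hC.eq₀.prime hmeet₀ hP₀) (hC.eq₁.prime hmeet₁ hP₁) ?_ ?_ ?_
      (LocEq_val hC.eq₀ hmeet₀ hP₀ hC.val₀) (LocEq_val hC.eq₁ hmeet₁ hP₁ hC.val₁) ?_
    · intro hd
      exact hu'P₀ ((hC.eq₀.mem_iff hmeet₀ hP₀ _).mp hd)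
    · intro hd
      exact huP₁ ((hC.eq₁.mem_iff hmeet₁ hP₁ _).mp hd)
    · intro x hx
      have hxM : locM y (x : F) := by
        by_contra hcon
        exact hx (isUnit_locS hcon)
      obtain ⟨a, ha, b, hb, hab⟩ := hC.gen _ hxM
      exact ⟨⟨a, ha⟩, ⟨b, hb⟩, Subtype.ext hab⟩
    · exact ⟨⟨e, heL⟩, isUnit_locS heM, Subtype.ext huu⟩
  obtain ⟨l, ε, g, hε, hg, e⟩ := hEis.factor (K := E) (EisExt.cmp hT₁ hD hP₁ hmeet₁ hC.eq₁)
    (EisExt.cmp hT₀ hD hP₀ hmeet₀ hC.eq₀)
    (by have := hT₁.two; omega) h0 H₁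
    (fun V' hV' hS' hη' => hor.hor hE hD hT₁.eta_ne (pi_ne_zero ht hπ) V' hV' hS' hη')
  obtain ⟨a, ha, ha0, hrep⟩ := unit_rep hD hε
  refine ⟨l, a, g, ha, ha0, hg, ?_⟩
  rw [← hrep]
  exact e


end

end Fermat.Agent.MP
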