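import Mathlib
import Fermat.Agent.MP.Slope2

/-!
# The slope theorem
-/

set_option autoImplicit false
set_option linter.unusedSectionVars false
set_option linter.unusedVariables false

open IsLocalRing Polynomial

universe u

namespace Fermat.Agent.MP

open Fermat.Agent.Geo Fermat.Agent.LG Fermat.Agent.CA

section

variable {F E : Type u} [Field F] [Field E] [Algebra F E] {P : ValuationSubring F}
  {V : ValuationSubring E} {π : F} {η : E} {p : ℕ} {c : ℕ → F} {x : E}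

theorem uc_pow {F : Type u} [Field F] {V : ValuationSubring F} {a b : F} (h : UC V a b) (n : ℕ) :
    UC V (a ^ n) (b ^ n) := by
  induction n with
  | zero => rw [pow_zero, pow_zero]; exact UC.refl one_ne_zero (one_mem _) (by rw [inv_one]; exact one_mem _)
  | succ n ih => rw [pow_succ, pow_succ]; exact ih.mul h

theorem uc_zpow {F : Type u} [Field F] {V : ValuationSubring F} {a b : F} (h : UC V a b) (n : ℤ) :
    UC V (a ^ n) (b ^ n) := by
  rcases Int.eq_nat_or_neg n with ⟨k, rfl | rfl⟩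
  · rw [zpow_natCast, zpow_natCast]; exact uc_pow h k
  · rw [zpow_neg, zpow_neg, zpow_natCast, zpow_natCast]; exact (uc_pow h k).invs

theorem uc_of_pow {F : Type u} [Field F] {V : ValuationSubring F} {a : F} {n : ℕ} (hn : 0 < n)
    (h : UC V (a ^ n) (a ^ n)) : UC V a a := by
  have ha : a ≠ 0 := by
    rintro rfl
    exact h.ne (zero_pow hn.ne')
  have key : ∀ b : F, b ≠ 0 → b ^ n ∈ V → b ∈ V := by
    intro b hb hbn
    by_contra hcon
    have h1 : b⁻¹ ∈ V.nonunits := by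
      by_contra h
      have := inv_mem_of_notMem_nonunits h
      rw [inv_inv] at this
      exact hcon this
    have h2 := mul_mem_nonunits hbn (nonunits_pow h1 hn)
    rw [← mul_pow, mul_inv_cancel₀ hb, one_pow, ValuationSubring.mem_nonunits_iff] at h2
    simp at h2
  exact UC.refl ha (key a ha h.mem) (key _ (inv_ne_zero ha) (by rw [inv_pow]; exact h.inv))

theorem uc_of_mul {F : Type u} [Field F] {V : ValuationSubring F} {a b : F}
    (ha : UC V a a) (hab : UC V (a * b) (a * b)) : UC V b b := by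
  have h1 := hab.div ha
  have e : a * b / a = b := by have := ha.ne; field_simp
  rwa [e] at h1

namespace TR

variable (h : TR P V π η p c)
include h

theorem uc_sum {a : ℕ → F} (haP : ∀ i < p, a i ∈ P) (ha0 : a 0 ∉ P.nonunits) :
    UC V (∑ i ∈ Finset.range p, algebraMap F E (a i) * η ^ i) (algebraMap F E (a 0)) := by
  have h00 : a 0 ≠ 0 := fun h0 => ha0 (h0 ▸ zero_mem_nonunits P)
  have h1 : UC P (a 0) (a 0) := UC.refl h00 (haP 0 (by have := h.two; omega))
    (inv_mem_of_notMem_nonunits ha0)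
  have h2 := h.up_UC h1
  refine UC.symm ⟨h2.ne, h2.mem, h2.inv, ?_⟩
  obtain ⟨q, rfl⟩ : ∃ q, p = q + 1 := ⟨p - 1, by have := h.two; omega⟩
  rw [Finset.sum_range_succ', pow_zero, mul_one, sub_add_cancel_right]
  apply nonunits_neg
  refine nonunits_sum _ _ fun i hi => mul_mem_nonunits (h.up _ (haP _ (by
    rw [Finset.mem_range] at hi; omega))) (nonunits_pow h.eta (Nat.succ_pos i))

theorem exists_res (hsp : ∀ x : E, ∃ a : ℕ → F,
    x = ∑ i ∈ Finset.range p, algebraMap F E (a i) * η ^ i) (hx : UC V x x) :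
    ∃ b, UC P b b ∧ UC V x (algebraMap F E b) := by
  obtain ⟨a, ha⟩ := hsp x
  have h1 := h.coeff_mem ha hx.mem
  have h2 := h.coeff_unit ha hx.mem hx.inv hx.ne
  refine ⟨a 0, UC.refl (fun h0 => h2 (h0 ▸ zero_mem_nonunits P))
    (h1 0 (by have := h.two; omega)) (inv_mem_of_notMem_nonunits h2), ?_⟩
  have := h.uc_sum h1 h2
  rwa [← ha] at this

theorem exists_vl (hsp : ∀ x : E, ∃ a : ℕ → F,
    x = ∑ i ∈ Finset.range p, algebraMap F E (a i) * η ^ i) (hx : x ≠ 0) :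
    ∃ k, Vl V η x k := by
  obtain ⟨a, ha⟩ := hsp x
  have hne : ∃ i < p, a i ≠ 0 := by
    by_contra hcon
    push Not at hcon
    apply hx
    rw [ha]
    exact Finset.sum_eq_zero fun i hi => by
      rw [hcon i (Finset.mem_range.mp hi), map_zero, zero_mul]
  obtain ⟨k, j, -, -, -, hv⟩ := h.vl_sum hne
  rw [← ha] at hv
  exact ⟨_, hv⟩

theorem comb (hsp : ∀ x : E, ∃ a : ℕ → F,
    x = ∑ i ∈ Finset.range p, algebraMap F E (a i) * η ^ i) (hpP : (p : F) ∈ P.nonunits)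
    {h' w' ε g' : E} {dw dε : F} (hh' : UC V h' h') (hw : UC V w' w') (hdw : DL P V η w' dw)
    (hε : UC V ε ε) (hdε : DL P V η ε dε) (e : h' = w' * ε * g' ^ p) :
    UC V g' g' ∧ DL P V η h' (dw + dε) := by
  have hp0 : 0 < p := by have := h.two; omega
  have h1 : UC V (g' ^ p) (g' ^ p) := by
    rw [e] at hh'
    exact uc_of_mul (hw.mul hε) hh'
  have h2 := uc_of_pow hp0 h1
  obtain ⟨d, hd⟩ := h.dl_exists hsp h2
  refine ⟨h2, ?_⟩
  have h3 := h.dl_mul (h.dl_mul hdw hdε) (h.dl_pow_p hd hpP)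
  rw [add_zero, ← e] at h3
  exact h3

end TR

end

section

variable {O K F E : Type u} [CommRing O] [IsDomain O] [IsDiscreteValuationRing O] [CharZero O]
  [Field K] [Field F] [Field E] [Algebra O K] [Algebra O F] [Algebra O E] [Algebra K F]
  [Algebra F E] [IsScalarTower O K F] [IsScalarTower O F E]
  {t : K} {π : O} [FiniteDimensional K F] [Algebra.IsSeparable K F]
  {ht : IsParam O t} {hπ : Prime π} {P P₁ P₀ : ValuationSubring F} {u u' : F}
  {p : ℕ} {η : E} {c : ℕ → O} {V V₁ V₀ : ValuationSubring E}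

theorem eps_uc (hT : TR P V (algebraMap O F π) η p (fun i => algebraMap O F (c i)))
    (hP : Over (gaussVal ht hπ) (algebraMap O K π) P)
    {y : Ideal (chart O (algebraMap K F t))} [hy : y.IsPrime] (hmeet : Meets y P)
    {a : ℕ → F} (ha : ∀ i, a i ∈ locS y) (ha0 : ¬ locM y (a 0)) :
    UC V (∑ i ∈ Finset.range p, algebraMap F E (a i) * η ^ i) (algebraMap F E (a 0)) ∧
    DL P V η (∑ i ∈ Finset.range p, algebraMap F E (a i) * η ^ i) (a 1 / a 0) := by
  have h1 : ∀ i < p, a i ∈ P := fun i _ => locS_le_over hP hmeet (ha i)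
  have h2 : a 0 ∉ P.nonunits := fun hn => ha0 (locM_of_nonunits hP hmeet (ha 0) hn)
  exact ⟨hT.uc_sum h1 h2, hT.dl_of_rep rfl h1 h2⟩

theorem div_mem_locS {y : Ideal (chart O (algebraMap K F t))} [hy : y.IsPrime] {a b : F}
    (ha : a ∈ locS y) (hb : b ∈ locS y) (hb0 : ¬ locM y b) : a / b ∈ locS y := by
  rw [div_eq_mul_inv]
  exact mul_mem ha (inv_mem_of_not_locM hb hb0)

theorem p_non (hP : Over (gaussVal ht hπ) (algebraMap O K π) P) (hpO : π ∣ (p : O)) :
    ((p : ℕ) : F) ∈ P.nonunits := by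
  obtain ⟨d, hd⟩ := hpO
  have h1 : ((p : ℕ) : F) = algebraMap O F d * algebraMap O F π := by
    rw [← map_mul, mul_comm, ← hd, map_natCast]
  rw [h1]
  exact mul_mem_nonunits (O_mem_over hP d) (pi_non hP)

theorem mem_max_of_locM {y : Ideal (chart O (algebraMap K F t))} [hy : y.IsPrime] {a : O}
    (ha : locM y (algebraMap O F a)) : π ∣ a ∨ ¬ Prime π := by
  by_cases hπ : Prime π
  · left
    by_contra hcon
    have h1 : IsUnit a := by
      by_contra h
      apply hcon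
      have h2 : a ∈ maximalIdeal O := (mem_maximalIdeal a).mpr h
      rw [hπ.irreducible.maximalIdeal_eq, Ideal.mem_span_singleton] at h2
      exact h2
    obtain ⟨b, hb⟩ := h1.exists_right_inv
    apply not_locM_one (y := y)
    rw [← map_one (algebraMap O F), ← hb, map_mul]
    exact ha.mul_right (O_mem_locS b)
  · exact Or.inr hπ

/-- regularity of the logarithmic term at a point -/
theorem reg_pt (hE : EisExt O F π p η c) (hpO : π ∣ (p : O))
    (hT : TR P V (algebraMap O F π) η p (fun i => algebraMap O F (c i)))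
    (hP : Over (gaussVal ht hπ) (algebraMap O K π) P)
    {y : Ideal (chart O (algebraMap K F t))} [hy : y.IsPrime] (hmeet : Meets y P)
    {h' w : E} {d dw : F} (hh' : UC V h' h') (hd : DL P V η h' d)
    (hw : UC V w w) (hdw : DL P V η w dw)
    {a : ℕ → F} {g' : E} (ha : ∀ i, a i ∈ locS y) (ha0 : ¬ locM y (a 0))
    (e : h' = w * (∑ i ∈ Finset.range p, algebraMap F E (a i) * η ^ i) * g' ^ p) :
    UC V g' g' ∧ d - (dw + a 1 / a 0) ∈ P.nonunits := by
  obtain ⟨h1, h2⟩ := eps_uc hT hP hmeet ha ha0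
  obtain ⟨h3, h4⟩ := hT.comb hE.span (p_non hP hpO) hh' hw hdw h1.rfl_left h2 e
  exact ⟨h3, hT.dl_uniq hd h4⟩

/-- from a local expression to the shape required in `SlopeRes` -/
theorem res_shape (hE : EisExt O F π p η c)
    (hT : TR P₁ V₁ (algebraMap O F π) η p (fun i => algebraMap O F (c i)))
    (hP : Over (gaussVal ht hπ) (algebraMap O K π) P₁)
    {y : Ideal (chart O (algebraMap K F t))} [hy : y.IsPrime] (hmeet : Meets y P₁)
    {h : E} (hh : UC V₁ h h) {h₀ : F} (hh₀ : h - algebraMap F E h₀ ∈ V₁.nonunits)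
    {U : F} (hU : UC P₁ U U)
    {a : ℕ → F} {g : E} (ha : ∀ i, a i ∈ locS y) (ha0 : ¬ locM y (a 0))
    (e : h = algebraMap F E U * (∑ i ∈ Finset.range p, algebraMap F E (a i) * η ^ i) * g ^ p) :
    ∃ g r : F, g ≠ 0 ∧ g ∈ P₁ ∧ g⁻¹ ∈ P₁ ∧ r ∈ locS y ∧ ¬ locM y r ∧
      h₀ - g ^ p * U * r ∈ P₁.nonunits := by
  have hp0 : 0 < p := by have := hT.two; omega
  obtain ⟨h1, -⟩ := eps_uc hT hP hmeet ha ha0
  have h2 : UC V₁ (g ^ p) (g ^ p) := by
    rw [e] at hh
    exact uc_of_mul ((hT.up_UC hU).mul h1.rfl_left) hh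
  obtain ⟨b, hb, hgb⟩ := hT.exists_res hE.span (uc_of_pow hp0 h2)
  refine ⟨b, a 0, hb.ne, hb.mem, hb.inv, ha 0, ha0, ?_⟩
  apply hT.down_non
  have h3 : UC V₁ h (algebraMap F E (b ^ p * U * a 0)) := by
    have h4 := ((hT.up_UC hU).mul h1).mul (uc_pow hgb p)
    rw [← e] at h4
    have e2 : algebraMap F E (b ^ p * U * a 0) = algebraMap F E U * algebraMap F E (a 0) *
        algebraMap F E b ^ p := by
      rw [map_mul, map_mul, map_pow]; ring
    rw [e2]; exact h4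
  have h4 := nonunits_sub h3.sub hh₀
  have e3 : h - algebraMap F E (b ^ p * U * a 0) - (h - algebraMap F E h₀) =
      algebraMap F E (h₀ - b ^ p * U * a 0) := by
    rw [map_sub]; ring
  rwa [e3] at h4

theorem crPt_unit₁ (hT : TR P₁ V₁ (algebraMap O F π) η p (fun i => algebraMap O F (c i)))
    (hP : Over (gaussVal ht hπ) (algebraMap O K π) P₁)
    {y : Ideal (chart O (algebraMap K F t))} [hy : y.IsPrime] (hmeet : Meets y P₁)
    (hC : CrPt y π P₁ P₀ u u') : UC P₁ u u := by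
  obtain ⟨e, heL, heM, huu⟩ := hC.mul
  have hπ0 := pi_ne_zero (F := F) ht hπ
  have huP₁ : u ∉ P₁.nonunits := by
    intro hn
    have h1 := hT.uni.dvd u' hC.eq₁.nonunit
    apply heM
    refine locM_of_nonunits hP hmeet heL ?_
    have h2 : e = (u' / algebraMap O F π) * u := by
      rw [div_mul_eq_mul_div, mul_comm, huu]; field_simp
    rw [h2]
    exact mul_mem_nonunits h1 hn
  exact UC.refl hC.eq₀.ne (locS_le_over hP hmeet hC.eq₀.mem) (inv_mem_of_notMem_nonunits huP₁)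

/-- `u / π` is a unit along `P₀` -/
theorem crPt_unit₀ (hT : TR P₀ V₀ (algebraMap O F π) η p (fun i => algebraMap O F (c i)))
    (hP : Over (gaussVal ht hπ) (algebraMap O K π) P₀)
    {y : Ideal (chart O (algebraMap K F t))} [hy : y.IsPrime] (hmeet : Meets y P₀)
    (hC : CrPt y π P₁ P₀ u u') : UC P₀ (u / algebraMap O F π) (u / algebraMap O F π) := by
  obtain ⟨e, heL, heM, huu⟩ := hC.mul
  have hπ0 := pi_ne_zero (F := F) ht hπ
  have h1 := hT.uni.dvd u hC.eq₀.nonunit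
  refine UC.refl (div_ne_zero hC.eq₀.ne hπ0) h1 ?_
  have he : e⁻¹ ∈ P₀ := locS_le_over hP hmeet (inv_mem_of_not_locM heL heM)
  have hu' : u' ∈ P₀ := locS_le_over hP hmeet hC.eq₁.mem
  have e1 : (u / algebraMap O F π)⁻¹ = u' * e⁻¹ := by
    have h2 := hC.eq₀.ne
    have h3 : e ≠ 0 := by
      rintro rfl
      rw [mul_zero] at huu
      rcases mul_eq_zero.mp huu with h4 | h4
      · exact h2 h4
      · exact hC.eq₁.ne h4
    rw [inv_div]
    field_simp
    rw [← huu]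
  rw [e1]
  exact mul_mem hu' he

/-- **The slope theorem** (totally ramified case). -/
theorem slope_eis [IsAlgClosed (ResidueField O)] (T : TwoComp ht hπ P₁ P₀ u u') {p : ℕ}
    (hp : p.Prime) (hpO : π ∣ (p : O))
    {η : E} {c : ℕ → O} (hE : EisExt O F π p η c)
    {V₁ : ValuationSubring E} (hV₁ : ∀ x ∈ P₁, algebraMap F E x ∈ V₁)
    (hη : η ∈ V₁.nonunits) {h : E} (h1 : h ∈ V₁) (h2 : h⁻¹ ∈ V₁) (h0 : h ≠ 0)
    (hor : HorDvd π p h) {h₀ : F} (hh₀ : h₀ ∈ P₁)
    (hh : h - algebraMap F E h₀ ∈ V₁.nonunits) : ∃ m : ℤ, SlopeRes (O := O) t P₁ P₀ u p h₀ m := by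
  classical
  have hhu : UC V₁ h h := UC.refl h0 h1 h2
  have hT₁ := hE.tr hp.two_le T.over₁ T.unif₁ hV₁ hη
  obtain ⟨V₀, hV₀, hV₀'⟩ := exists_above (E := E) P₀
  have hη₀ := eta_non hE hp.pos T.over₀ hV₀ hV₀'
  have hT₀ := hE.tr hp.two_le T.over₀ T.unif₀ hV₀ hη₀
  have hO₁ := over_inv T.over₁
  have hO₀ := over_inv T.over₀
  have hη0 := hT₁.eta_ne
  have H₁ : ∃ g : E, g ≠ 0 ∧ g ^ p * h ∈ V₁ ∧ (g ^ p * h)⁻¹ ∈ V₁ :=
    ⟨1, one_ne_zero, by rwa [one_pow, one_mul], by rwa [one_pow, one_mul]⟩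
  -- local expressions
  have S₁ : ∀ (y : Ideal (chart O (algebraMap K F t))) [y.IsMaximal], Meets y P₁ → ¬ Meets y P₀ →
      LocRes y η p 1 h := fun y _ hm hm' =>
    smooth_res hE hT₁ T.over₁ hm (T.sm₁ y hm hm') h0 H₁ hor
  have S₁' : ∀ (y : Ideal (chart O (algebraMap K F t⁻¹))) [y.IsMaximal],
      locM y (algebraMap K F t⁻¹) → Meets y P₁ → LocRes y η p 1 h := fun y _ hty hm =>
    smooth_res (ht := ht.inv) hE hT₁ hO₁ hm (T.smi₁ y hty hm) h0 H₁ hor
  have SC : ∀ (y : Ideal (chart O (algebraMap K F t))) [y.IsMaximal], Meets y P₁ → Meets y P₀ →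
      ∃ l : ℤ, LocRes y η p (algebraMap F E u ^ l) h := fun y _ hm hm' =>
    cross_res hE hT₁ hT₀ T.over₁ T.over₀ hm hm' (T.cr y hm hm') h0 H₁ hor
  -- the smooth part of the conclusion
  have hone : UC P₁ (1 : F) 1 := UC.refl one_ne_zero (one_mem _) (by rw [inv_one]; exact one_mem _)
  have R₁ : ∀ (y : Ideal (chart O (algebraMap K F t))) [y.IsMaximal], Meets y P₁ → ¬ Meets y P₀ →
      ∃ g r : F, g ≠ 0 ∧ g ∈ P₁ ∧ g⁻¹ ∈ P₁ ∧ r ∈ locS y ∧ ¬ locM y r ∧
        h₀ - g ^ p * r ∈ P₁.nonunits := by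
    intro y _ hm hm'
    obtain ⟨a, g, ha, ha0, hg, e⟩ := S₁ y hm hm'
    have := res_shape hE hT₁ T.over₁ hm hhu hh hone ha ha0 (g := g) (by rw [map_one]; exact e)
    simpa only [mul_one] using this
  have R₁' : ∀ (y : Ideal (chart O (algebraMap K F t⁻¹))) [y.IsMaximal],
      locM y (algebraMap K F t⁻¹) → Meets y P₁ →
      ∃ g r : F, g ≠ 0 ∧ g ∈ P₁ ∧ g⁻¹ ∈ P₁ ∧ r ∈ locS y ∧ ¬ locM y r ∧
        h₀ - g ^ p * r ∈ P₁.nonunits := by
    intro y _ hty hm
    obtain ⟨a, g, ha, ha0, hg, e⟩ := S₁' y hty hm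
    have := res_shape (ht := ht.inv) hE hT₁ hO₁ hm hhu hh hone ha ha0 (g := g)
      (by rw [map_one]; exact e)
    simpa only [mul_one] using this
  -- is there a crossing point?
  by_cases hcr : ∃ (y : Ideal (chart O (algebraMap K F t))), y.IsMaximal ∧ Meets y P₁ ∧ Meets y P₀
  swap
  · refine ⟨0, fun y hy hm hm' => absurd ⟨y, hy, hm, hm'⟩ hcr, R₁, R₁'⟩
  obtain ⟨y₀, hy₀, hm₁, hm₀⟩ := hcr
  obtain ⟨l₀, a₀, g₀, ha₀, ha₀0, hg₀, e₀⟩ := SC y₀ hm₁ hm₀
  obtain ⟨n₀, hn₀⟩ := hT₀.exists_vl hE.span hg₀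
  -- first order terms along `P₁`
  obtain ⟨d₁, hd₁⟩ := hT₁.dl_exists hE.span hhu
  have honeV : ∀ V : ValuationSubring E, UC V (1 : E) 1 := fun V =>
    UC.refl one_ne_zero (one_mem _) (by rw [inv_one]; exact one_mem _)
  have huE : ∀ (y : Ideal (chart O (algebraMap K F t))) [y.IsMaximal] (hm : Meets y P₁)
      (hm' : Meets y P₀) (l : ℤ), UC V₁ (algebraMap F E u ^ l) (algebraMap F E u ^ l) ∧
        DL P₁ V₁ η (algebraMap F E u ^ l) 0 := by
    intro y _ hm hm' l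
    have h3 := crPt_unit₁ hT₁ T.over₁ hm (T.cr y hm hm')
    have h4 := uc_zpow h3 l
    have h5 := hT₁.up_UC h4
    have h6 := hT₁.dl_base h4
    rw [map_zpow₀] at h5 h6
    exact ⟨h5, h6⟩
  have hreg₁ : ∀ (y : Ideal (chart O (algebraMap K F t))) [y.IsMaximal], Meets y P₁ →
      ∃ r ∈ locS y, d₁ - r ∈ P₁.nonunits := by
    intro y _ hm
    by_cases hm' : Meets y P₀
    · obtain ⟨l, a, g, ha, ha0, hg, e⟩ := SC y hm hm'
      obtain ⟨h3, h4⟩ := huE y hm hm' l
      have := (reg_pt hE hpO hT₁ T.over₁ hm hhu hd₁ h3 h4 ha ha0 e).2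
      rw [zero_add] at this
      exact ⟨_, div_mem_locS (ha 1) (ha 0) ha0, this⟩
    · obtain ⟨a, g, ha, ha0, hg, e⟩ := S₁ y hm hm'
      have := (reg_pt hE hpO hT₁ T.over₁ hm hhu hd₁ (honeV V₁) hT₁.dl_one ha ha0 e).2
      rw [zero_add] at this
      exact ⟨_, div_mem_locS (ha 1) (ha 0) ha0, this⟩
  obtain ⟨C₁, hC₁⟩ := const_of_regular T.over₁ hd₁.mem hreg₁ (by
    intro y _ hty hm
    obtain ⟨a, g, ha, ha0, hg, e⟩ := S₁' y hty hm
    have := (reg_pt (ht := ht.inv) hE hpO hT₁ hO₁ hm hhu hd₁ (honeV V₁) hT₁.dl_one ha ha0 e).2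
    rw [zero_add] at this
    exact ⟨_, div_mem_locS (ha 1) (ha 0) ha0, this⟩)
  -- first order terms along `P₀`
  set A : ℤ := l₀ + n₀ with hA
  set h' : E := h / (η ^ A) ^ p with hh'_def
  have hηA : (η ^ A) ^ p ≠ 0 := pow_ne_zero _ (zpow_ne_zero _ hη0)
  -- the unit `(u / η ^ p) ^ l`
  have hwl : ∀ (y : Ideal (chart O (algebraMap K F t))) [y.IsMaximal] (hm : Meets y P₁)
      (hm' : Meets y P₀) (l : ℤ),
      UC V₀ ((algebraMap F E u / η ^ p) ^ l) ((algebraMap F E u / η ^ p) ^ l) ∧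
        DL P₀ V₀ η ((algebraMap F E u / η ^ p) ^ l)
          (l * -(algebraMap O F (c 1) / algebraMap O F (c 0))) := by
    intro y _ hm hm' l
    have h3 := crPt_unit₀ hT₀ T.over₀ hm' (T.cr y hm hm')
    have hπ0 : algebraMap O F π ≠ 0 := pi_ne_zero ht hπ
    have h4 := hT₀.up_UC h3
    have h5 := hT₀.dl_base h3
    have h6 : UC V₀ (algebraMap F E (algebraMap O F π) / η ^ p)
        (algebraMap F E (algebraMap O F π) / η ^ p) := by
      have := hT₀.vl_pi
      rw [Vl, zpow_natCast] at this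
      exact this
    have h7 := hT₀.dl_pi hE.span
    have e1 : algebraMap F E u / η ^ p = algebraMap F E (u / algebraMap O F π) *
        (algebraMap F E (algebraMap O F π) / η ^ p) := by
      have hπE : algebraMap F E (algebraMap O F π) ≠ 0 := by rwa [Ne, map_eq_zero]
      rw [map_div₀]; field_simp
    have h8 := h4.mul h6
    have h9 := hT₀.dl_mul h5 h7
    rw [← e1] at h8 h9
    rw [zero_add] at h9
    exact ⟨uc_zpow h8 l, hT₀.dl_zpow hE.span h8 h9 l⟩
  -- the expression of `h'` at a crossing point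
  have hexp : ∀ (l : ℤ) (a : ℕ → F) (g : E), h = algebraMap F E u ^ l *
      (∑ i ∈ Finset.range p, algebraMap F E (a i) * η ^ i) * g ^ p →
      h' = (algebraMap F E u / η ^ p) ^ l *
        (∑ i ∈ Finset.range p, algebraMap F E (a i) * η ^ i) * (g / η ^ (A - l)) ^ p := by
    intro l a g e
    have e1 : (η ^ A) ^ p = (η ^ p) ^ l * (η ^ (A - l)) ^ p := by
      rw [← zpow_natCast (η ^ A), ← zpow_natCast (η ^ (A - l)), ← zpow_natCast η p,
        ← zpow_mul, ← zpow_mul, ← zpow_mul, ← zpow_add₀ hη0]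
      congr 1
      ring
    rw [hh'_def, e, e1, div_zpow, div_pow]
    have e2 : (η ^ p) ^ l ≠ 0 := zpow_ne_zero _ (pow_ne_zero _ hη0)
    have e3 : (η ^ (A - l)) ^ p ≠ 0 := pow_ne_zero _ (zpow_ne_zero _ hη0)
    field_simp
  have hh'u : UC V₀ h' h' := by
    obtain ⟨h3, -⟩ := hwl y₀ hm₁ hm₀ l₀
    obtain ⟨h4, -⟩ := eps_uc hT₀ T.over₀ hm₀ ha₀ ha₀0
    have h5 : UC V₀ (g₀ / η ^ (A - l₀)) (g₀ / η ^ (A - l₀)) := by
      rw [hA, add_sub_cancel_left]
      exact hn₀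
    rw [hexp l₀ a₀ g₀ e₀]
    exact (h3.mul h4.rfl_left).mul (uc_pow h5 p)
  obtain ⟨d₀, hd₀⟩ := hT₀.dl_exists hE.span hh'u
  have hH₀ : ∃ g : E, g ≠ 0 ∧ g ^ p * h ∈ V₀ ∧ (g ^ p * h)⁻¹ ∈ V₀ := by
    refine ⟨(η ^ A)⁻¹, inv_ne_zero (zpow_ne_zero _ hη0), ?_, ?_⟩
    · rw [inv_pow, inv_mul_eq_div]; exact hh'u.mem
    · rw [inv_pow, inv_mul_eq_div]; exact hh'u.inv
  have S₀ : ∀ (y : Ideal (chart O (algebraMap K F t))) [y.IsMaximal], Meets y P₀ → ¬ Meets y P₁ →
      LocRes y η p 1 h := fun y _ hm hm' =>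
    smooth_res hE hT₀ T.over₀ hm (T.sm₀ y hm hm') h0 hH₀ hor
  have S₀' : ∀ (y : Ideal (chart O (algebraMap K F t⁻¹))) [y.IsMaximal],
      locM y (algebraMap K F t⁻¹) → Meets y P₀ → LocRes y η p 1 h := fun y _ hty hm =>
    smooth_res (ht := ht.inv) hE hT₀ hO₀ hm (T.smi₀ y hty hm) h0 hH₀ hor
  have hexp1 : ∀ (a : ℕ → F) (g : E), h = 1 *
      (∑ i ∈ Finset.range p, algebraMap F E (a i) * η ^ i) * g ^ p →
      h' = 1 * (∑ i ∈ Finset.range p, algebraMap F E (a i) * η ^ i) * (g / η ^ A) ^ p := by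
    intro a g e
    rw [hh'_def, e, div_pow]
    field_simp
  have hcO : ∀ {y : Ideal (chart O (algebraMap K F t))} [y.IsPrime],
      algebraMap O F (c 1) / algebraMap O F (c 0) ∈ locS y := by
    intro y _
    obtain ⟨b, hb⟩ := hE.c0.exists_right_inv
    have h3 : algebraMap O F (c 0) * algebraMap O F b = 1 := by rw [← map_mul, hb, map_one]
    have h4 : (algebraMap O F (c 0))⁻¹ = algebraMap O F b := inv_eq_of_mul_eq_one_right h3
    rw [div_eq_mul_inv, h4]
    exact mul_mem (O_mem_locS _) (O_mem_locS _)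
  have hreg₀C : ∀ (y : Ideal (chart O (algebraMap K F t))) [y.IsMaximal] (hm : Meets y P₀)
      (hm' : Meets y P₁) (l : ℤ) (a : ℕ → F) (g : E) (ha : ∀ i, a i ∈ locS y)
      (ha0 : ¬ locM y (a 0)), h = algebraMap F E u ^ l *
      (∑ i ∈ Finset.range p, algebraMap F E (a i) * η ^ i) * g ^ p →
      d₀ - (l * -(algebraMap O F (c 1) / algebraMap O F (c 0)) + a 1 / a 0) ∈ P₀.nonunits := by
    intro y _ hm hm' l a g ha ha0 e
    obtain ⟨h3, h4⟩ := hwl y hm' hm l
    exact (reg_pt hE hpO hT₀ T.over₀ hm hh'u hd₀ h3 h4 ha ha0 (hexp l a g e)).2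
  obtain ⟨C₀, hC₀⟩ := const_of_regular T.over₀ hd₀.mem (by
    intro y _ hm
    by_cases hm' : Meets y P₁
    · obtain ⟨l, a, g, ha, ha0, hg, e⟩ := SC y hm' hm
      refine ⟨_, ?_, hreg₀C y hm hm' l a g ha ha0 e⟩
      refine add_mem (mul_mem (intCast_mem _ l) (neg_mem hcO)) (div_mem_locS (ha 1) (ha 0) ha0)
    · obtain ⟨a, g, ha, ha0, hg, e⟩ := S₀ y hm hm'
      have := (reg_pt hE hpO hT₀ T.over₀ hm hh'u hd₀ (honeV V₀) hT₀.dl_one ha ha0
        (hexp1 a g e)).2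
      rw [zero_add] at this
      exact ⟨_, div_mem_locS (ha 1) (ha 0) ha0, this⟩) (by
    intro y _ hty hm
    obtain ⟨a, g, ha, ha0, hg, e⟩ := S₀' y hty hm
    have := (reg_pt (ht := ht.inv) hE hpO hT₀ hO₀ hm hh'u hd₀ (honeV V₀) hT₀.dl_one ha ha0
      (hexp1 a g e)).2
    rw [zero_add] at this
    exact ⟨_, div_mem_locS (ha 1) (ha 0) ha0, this⟩)
  -- the slope is constant
  have hslope : ∀ (y : Ideal (chart O (algebraMap K F t))) [y.IsMaximal] (hm : Meets y P₀)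
      (hm' : Meets y P₁) (l : ℤ) (a : ℕ → F) (g : E) (ha : ∀ i, a i ∈ locS y)
      (ha0 : ¬ locM y (a 0)), h = algebraMap F E u ^ l *
      (∑ i ∈ Finset.range p, algebraMap F E (a i) * η ^ i) * g ^ p →
      π ∣ (l : O) * c 1 - (C₁ - C₀) * c 0 := by
    intro y _ hm hm' l a g ha ha0 e
    have h3 := hreg₀C y hm hm' l a g ha ha0 e
    obtain ⟨h4, h5⟩ := huE y hm' hm l
    have h6 := (reg_pt hE hpO hT₁ T.over₁ hm' hhu hd₁ h4 h5 ha ha0 e).2
    rw [zero_add] at h6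
    have hr : a 1 / a 0 ∈ locS y := div_mem_locS (ha 1) (ha 0) ha0
    have h7 : locM y (a 1 / a 0 - algebraMap O F C₁) := by
      refine locM_of_nonunits T.over₁ hm' (sub_mem hr (O_mem_locS _)) ?_
      have e1 : a 1 / a 0 - algebraMap O F C₁ = (d₁ - algebraMap O F C₁) - (d₁ - a 1 / a 0) := by
        ring
      rw [e1]
      exact nonunits_sub hC₁ h6
    have h8 : locM y (l * -(algebraMap O F (c 1) / algebraMap O F (c 0)) + a 1 / a 0 -
        algebraMap O F C₀) := by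
      refine locM_of_nonunits T.over₀ hm (sub_mem (add_mem (mul_mem (intCast_mem _ l)
        (neg_mem hcO)) hr) (O_mem_locS _)) ?_
      have e1 : (l : F) * -(algebraMap O F (c 1) / algebraMap O F (c 0)) + a 1 / a 0 -
          algebraMap O F C₀ = (d₀ - algebraMap O F C₀) -
          (d₀ - (l * -(algebraMap O F (c 1) / algebraMap O F (c 0)) + a 1 / a 0)) := by
        ring
      rw [e1]
      exact nonunits_sub hC₀ h3
    have h9 := (h7.sub h8).mul_right (O_mem_locS (c 0))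
    have hc0 : algebraMap O F (c 0) ≠ 0 := (uc_O T.over₁ hE.c0).ne
    have e1 : (a 1 / a 0 - algebraMap O F C₁ -
        (l * -(algebraMap O F (c 1) / algebraMap O F (c 0)) + a 1 / a 0 - algebraMap O F C₀)) *
          algebraMap O F (c 0) = algebraMap O F ((l : O) * c 1 - (C₁ - C₀) * c 0) := by
      rw [map_sub, map_mul, map_mul, map_sub, map_intCast]
      field_simp
      ring
    rw [e1] at h9
    exact (mem_max_of_locM h9).resolve_right (not_not.mpr hπ)
  have hcong : ∀ (y : Ideal (chart O (algebraMap K F t))) [y.IsMaximal] (hm : Meets y P₀)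
      (hm' : Meets y P₁) (l : ℤ) (a : ℕ → F) (g : E) (ha : ∀ i, a i ∈ locS y)
      (ha0 : ¬ locM y (a 0)), h = algebraMap F E u ^ l *
      (∑ i ∈ Finset.range p, algebraMap F E (a i) * η ^ i) * g ^ p → (p : ℤ) ∣ l - l₀ := by
    intro y _ hm hm' l a g ha ha0 e
    have h3 := hslope y hm hm' l a g ha ha0 e
    have h4 := hslope y₀ hm₀ hm₁ l₀ a₀ g₀ ha₀ ha₀0 e₀
    have h5 := dvd_sub h3 h4
    have e1 : (l : O) * c 1 - (C₁ - C₀) * c 0 - ((l₀ : O) * c 1 - (C₁ - C₀) * c 0) =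
        ((l - l₀ : ℤ) : O) * c 1 := by push_cast; ring
    rw [e1, hE.c1.dvd_mul_right] at h5
    by_contra hcon
    have hcop : IsCoprime (p : ℤ) (l - l₀) :=
      (Nat.prime_iff_prime_int.mp hp).irreducible.coprime_iff_not_dvd.mpr hcon
    obtain ⟨s, r, hsr⟩ := hcop
    have h6 : π ∣ (1 : O) := by
      have e2 : (1 : O) = (s : O) * (p : O) + (r : O) * ((l - l₀ : ℤ) : O) := by
        have := congrArg (Int.cast : ℤ → O) hsr
        push_cast at this ⊢
        exact this.symm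
      rw [e2]
      exact dvd_add (hpO.mul_left _) (h5.mul_left _)
    exact hπ.not_dvd_one h6
  refine ⟨l₀, ?_, R₁, R₁'⟩
  intro y hy hm hm'
  obtain ⟨l, a, g, ha, ha0, hg, e⟩ := SC y hm hm'
  obtain ⟨k, hk⟩ := hcong y hm' hm l a g ha ha0 e
  have huc := crPt_unit₁ hT₁ T.over₁ hm (T.cr y hm hm')
  have huE0 : algebraMap F E u ≠ 0 := by rw [Ne, map_eq_zero]; exact huc.ne
  refine res_shape hE hT₁ T.over₁ hm hhu hh (uc_zpow huc l₀) ha ha0
    (g := algebraMap F E u ^ k * g) ?_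
  rw [e, map_zpow₀, mul_pow, ← zpow_natCast (algebraMap F E u ^ k), ← zpow_mul]
  have e1 : l = l₀ + k * p := by
    have := hk
    linarith [mul_comm (p : ℤ) k]
  rw [e1, zpow_add₀ huE0]
  ring

end

end Fermat.Agent.MP
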