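import Mathlib
import Fermat.Agent.MP.Slope

/-!
# The slope theorem: unramified case
-/

set_option autoImplicit false
set_option linter.unusedSectionVars false
set_option linter.unusedVariables false

open IsLocalRing Polynomial

universe u

namespace Fermat.Agent.MP

open Fermat.Agent.Geo Fermat.Agent.LG Fermat.Agent.CA

section

variable {S K : Type u} [CommRing S] [IsDomain S] [UniqueFactorizationMonoid S] [Field K]
  [Algebra S K] [IsFractionRing S K]

theorem le_primeVal {y : S} (hyp : Prime y) {V : ValuationSubring K}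
    (hy : algebraMap S K y ∈ V.nonunits)
    (hu : ∀ s : S, ¬ y ∣ s → UC V (algebraMap S K s) (algebraMap S K s)) :
    ∀ z ∈ V, z ∈ primeVal K hyp := by
  intro z hz
  by_cases hz0 : z = 0
  · rw [hz0]; exact zero_mem _
  obtain ⟨a, b, hb, hab⟩ := IsFractionRing.div_surjective (A := S) z
  have hb0 : b ≠ 0 := nonZeroDivisors.ne_zero hb
  have ha0 : a ≠ 0 := by
    rintro rfl
    rw [map_zero, zero_div] at hab
    exact hz0 hab.symm
  obtain ⟨i, a₁, ha₁, rfl⟩ := WfDvdMonoid.max_power_factor' ha0 hyp.not_isUnit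
  obtain ⟨j, b₁, hb₁, rfl⟩ := WfDvdMonoid.max_power_factor' hb0 hyp.not_isUnit
  have hyK : algebraMap S K y ≠ 0 := by
    rw [Ne, map_eq_zero_iff _ (IsFractionRing.injective S K)]; exact hyp.ne_zero
  have ua := hu a₁ ha₁
  have ub := hu b₁ hb₁
  rw [map_mul, map_mul, map_pow, map_pow] at hab
  have hij : j ≤ i := by
    by_contra hcon
    obtain ⟨k, hk⟩ : ∃ k, j = i + (k + 1) := ⟨j - i - 1, by omega⟩
    have h1 : (algebraMap S K y) ^ (k + 1) ∈ V.nonunits := nonunits_pow hy (Nat.succ_pos k)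
    have h2 : z * (algebraMap S K b₁ * (algebraMap S K y) ^ (k + 1)) =
        algebraMap S K a₁ := by
      have hb1 := ub.ne
      rw [← hab, hk, pow_add]
      field_simp
    have h3 : algebraMap S K a₁ ∈ V.nonunits := by
      rw [← h2]
      exact mul_mem_nonunits hz (mul_mem_nonunits ub.mem h1)
    exact ua.notMem h3
  obtain ⟨k, rfl⟩ := Nat.exists_eq_add_of_le hij
  have e : z = algebraMap S K (y ^ k * a₁) * (algebraMap S K b₁)⁻¹ := by
    have hb1 := ub.ne
    rw [← hab, pow_add, map_mul, map_pow]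
    field_simp
  rw [e]
  exact mul_mem (algebraMap_mem_primeVal hyp _) (inv_mem_primeVal hyp hb₁)

theorem primeVal_congr {ϖ y : S} (hϖ : Prime ϖ) (hyp : Prime y) (hd : ϖ ∣ y) :
    ∀ z ∈ primeVal K hyp, z ∈ primeVal K hϖ := by
  intro z hz
  have hass := hϖ.associated_of_dvd hyp hd
  obtain ⟨s, b, hs, hsb⟩ := (mem_primeVal_iff hyp).mp hz
  exact (mem_primeVal_iff hϖ).mpr ⟨s, b, fun h3 => hs (hass.symm.dvd.trans h3), hsb⟩

theorem primeVal_ne_top {ϖ : S} (hϖ : Prime ϖ) : primeVal K hϖ ≠ ⊤ := by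
  intro htop
  have h1 : (algebraMap S K ϖ)⁻¹ ∈ primeVal K hϖ := by rw [htop]; trivial
  obtain ⟨s, b, hs, hsb⟩ := (mem_primeVal_iff hϖ).mp h1
  apply hs
  refine ⟨b, ?_⟩
  apply IsFractionRing.injective S K
  have hp0 : algebraMap S K ϖ ≠ 0 := by
    rw [Ne, map_eq_zero_iff _ (IsFractionRing.injective S K)]
    exact hϖ.ne_zero
  rw [map_mul, ← hsb]
  field_simp

end

section

variable {O K F : Type u} [CommRing O] [IsDomain O] [IsDiscreteValuationRing O] [CharZero O]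
  [Field K] [Field F] [Algebra O K] [Algebra O F] [Algebra K F] [IsScalarTower O K F]
  {t : K} {π : O} [FiniteDimensional K F] [Algebra.IsSeparable K F]
  {ht : IsParam O t} {hπ : Prime π} {P P₁ P₀ : ValuationSubring F} {u u' : F} {m : ℕ}

theorem locEq_le (hP : Over (gaussVal ht hπ) (algebraMap O K π) P)
    {y : Ideal (chart O (algebraMap K F t))} [hy : y.IsPrime] (hmeet : Meets y P) {a : F}
    [UniqueFactorizationMonoid (locS y)] [IsFractionRing (locS y) F]
    (h : LocEq y P a) : ∀ z ∈ P, z ∈ primeVal F (h.prime hmeet hP) := by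
  refine le_primeVal (h.prime hmeet hP) h.nonunit fun s hs => ?_
  have h1 : (s : F) ∉ P.nonunits := fun hn => hs ((h.mem_iff hmeet hP s).mpr hn)
  have h2 : (s : F) ≠ 0 := fun h0 => h1 (h0 ▸ zero_mem_nonunits P)
  exact UC.refl (a := (s : F)) h2 (locS_le_over hP hmeet s.2)
    (inv_mem_of_notMem_nonunits h1)

theorem smooth_unr (hP : Over (gaussVal ht hπ) (algebraMap O K π) P)
    {y : Ideal (chart O (algebraMap K F t))} [hy : y.IsPrime] (hmeet : Meets y P)
    (hS : SmPt y π P) (hm : 0 < m) {h : F} (hh : UC P h h) (hor : HorDvd π m h) :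
    ∃ g r : F, g ≠ 0 ∧ g ∈ P ∧ g⁻¹ ∈ P ∧ r ∈ locS y ∧ ¬ locM y r ∧
      h - g ^ m * r ∈ P.nonunits := by
  haveI : IsNoetherianRing (chart O (algebraMap K F t)) := isNoetherianRing_chart ht
  haveI : IsNoetherianRing (locS y) := isNoetherianRing_locS
  haveI : IsLocalRing (locS y) := isLocalRing_locS
  haveI : IsFractionRing (locS y) F := isFractionRing_locS ht
  haveI : UniqueFactorizationMonoid (locS y) := hS.eq.ufd hmeet hP hS.val
  obtain ⟨ε, g, hg, e⟩ := exists_unit_mul_pow (R := locS y) hm h hh.ne (by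
    intro ϖ hϖ
    by_cases hd : ϖ ∣ (⟨algebraMap O F π, O_mem_locS π⟩ : locS y)
    · have h1 := locEq_le hP hmeet hS.eq
      have h2 := primeVal_congr (K := F) hϖ (hS.eq.prime hmeet hP) hd
      exact ⟨1, one_ne_zero, by rw [one_pow, one_mul]; exact h2 _ (h1 _ hh.mem),
        by rw [one_pow, one_mul]; exact h2 _ (h1 _ hh.inv)⟩
    · exact hor _ (primeVal_ne_top hϖ)
        (fun o => algebraMap_mem_primeVal hϖ (⟨_, O_mem_locS o⟩ : locS y))
        (inv_mem_primeVal hϖ hd))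
  have hεM : ¬ locM y ((ε : locS y) : F) := fun h1 => not_isUnit_locS h1 ε.isUnit
  have hεP : UC P ((ε : locS y) : F) ((ε : locS y) : F) := by
    have h1 : ((ε : locS y) : F) ∉ P.nonunits := fun hn =>
      hεM (locM_of_nonunits hP hmeet (ε : locS y).2 hn)
    exact UC.refl (fun h0 => h1 (h0 ▸ zero_mem_nonunits P))
      (locS_le_over hP hmeet (ε : locS y).2) (inv_mem_of_notMem_nonunits h1)
  have e' : h = ((ε : locS y) : F) * g ^ m := e
  have hgu : UC P g g := by
    rw [e'] at hh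
    exact uc_of_pow hm (uc_of_mul hεP hh)
  refine ⟨g, ε, hg, hgu.mem, hgu.inv, (ε : locS y).2, hεM, ?_⟩
  rw [e', mul_comm, sub_self]
  exact zero_mem_nonunits _

theorem cross_unr (hP₁ : Over (gaussVal ht hπ) (algebraMap O K π) P₁)
    (hP₀ : Over (gaussVal ht hπ) (algebraMap O K π) P₀)
    (hu₁ : ∀ x ∈ P₁.nonunits, x / algebraMap O F π ∈ P₁)
    (hu₀ : ∀ x ∈ P₀.nonunits, x / algebraMap O F π ∈ P₀)
    {y : Ideal (chart O (algebraMap K F t))} [hy : y.IsPrime] (hmeet₁ : Meets y P₁)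
    (hmeet₀ : Meets y P₀)
    (hC : CrPt y π P₁ P₀ u u') (hm : 0 < m) {h : F} (hh : UC P₁ h h) (hor : HorDvd π m h)
    {A : ℤ} (hA : Vl P₀ (algebraMap O F π) h A) :
    ∃ g r : F, g ≠ 0 ∧ g ∈ P₁ ∧ g⁻¹ ∈ P₁ ∧ r ∈ locS y ∧ ¬ locM y r ∧
      h - g ^ m * u ^ A * r ∈ P₁.nonunits := by
  haveI : IsNoetherianRing (chart O (algebraMap K F t)) := isNoetherianRing_chart ht
  haveI : IsNoetherianRing (locS y) := isNoetherianRing_locS
  haveI : IsLocalRing (locS y) := isLocalRing_locS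
  haveI : IsFractionRing (locS y) F := isFractionRing_locS ht
  haveI : UniqueFactorizationMonoid (locS y) := hC.eq₀.ufd hmeet₀ hP₀ hC.val₀
  obtain ⟨e, heL, heM, huu⟩ := hC.mul
  have hπ0 := pi_ne_zero (F := F) ht hπ
  have he0 : e ≠ 0 := by
    rintro rfl
    exact heM locM_zero
  have hue : UC P₁ u u := by
    have huP₁ : u ∉ P₁.nonunits := by
      intro hn
      have h1 := hu₁ u' hC.eq₁.nonunit
      apply heM
      refine locM_of_nonunits hP₁ hmeet₁ heL ?_
      have h2 : e = (u' / algebraMap O F π) * u := by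
        rw [div_mul_eq_mul_div, mul_comm, huu]; field_simp
      rw [h2]
      exact mul_mem_nonunits h1 hn
    exact UC.refl hC.eq₀.ne (locS_le_over hP₁ hmeet₁ hC.eq₀.mem) (inv_mem_of_notMem_nonunits huP₁)
  have huV : Vl P₀ (algebraMap O F π) u 1 := by
    have h1 := hu₀ u hC.eq₀.nonunit
    have he : e⁻¹ ∈ P₀ := locS_le_over hP₀ hmeet₀ (inv_mem_of_not_locM heL heM)
    have hu' : u' ∈ P₀ := locS_le_over hP₀ hmeet₀ hC.eq₁.mem
    rw [Vl, zpow_one]
    refine UC.refl (div_ne_zero hC.eq₀.ne hπ0) h1 ?_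
    have e1 : (u / algebraMap O F π)⁻¹ = u' * e⁻¹ := by
      have h2 := hC.eq₀.ne
      rw [inv_div]
      field_simp
      rw [← huu]
    rw [e1]
    exact mul_mem hu' he
  -- the element `x`
  set x : F := h / u ^ A with hx_def
  have hu0 := hC.eq₀.ne
  have hx1 : UC P₁ x x := hh.div (uc_zpow hue A)
  have hx0 : UC P₀ x x := by
    have h1 := hA.div (huV.zpow hπ0 A) hπ0
    rw [mul_one, sub_self] at h1
    exact vl_zero_iff.mp h1
  obtain ⟨ε, g, hg, e2⟩ := exists_unit_mul_pow (R := locS y) hm x hx1.ne (by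
    intro ϖ hϖ
    by_cases hd : ϖ ∣ (⟨algebraMap O F π, O_mem_locS π⟩ : locS y)
    · have hd' : ϖ ∣ (⟨u, hC.eq₀.mem⟩ : locS y) * (⟨u', hC.eq₁.mem⟩ : locS y) := by
        have e3 : (⟨u, hC.eq₀.mem⟩ : locS y) * (⟨u', hC.eq₁.mem⟩ : locS y) =
            (⟨algebraMap O F π, O_mem_locS π⟩ : locS y) * ⟨e, heL⟩ := Subtype.ext huu
        rw [e3]
        exact hd.mul_right _
      rcases hϖ.dvd_or_dvd hd' with h1 | h1
      · have h2 := locEq_le hP₀ hmeet₀ hC.eq₀
        have h3 := primeVal_congr (K := F) hϖ (hC.eq₀.prime hmeet₀ hP₀) h1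
        exact ⟨1, one_ne_zero, by rw [one_pow, one_mul]; exact h3 _ (h2 _ hx0.mem),
          by rw [one_pow, one_mul]; exact h3 _ (h2 _ hx0.inv)⟩
      · have h2 := locEq_le hP₁ hmeet₁ hC.eq₁
        have h3 := primeVal_congr (K := F) hϖ (hC.eq₁.prime hmeet₁ hP₁) h1
        exact ⟨1, one_ne_zero, by rw [one_pow, one_mul]; exact h3 _ (h2 _ hx1.mem),
          by rw [one_pow, one_mul]; exact h3 _ (h2 _ hx1.inv)⟩
    · obtain ⟨g, hg, g1, g2⟩ := hor _ (primeVal_ne_top hϖ)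
        (fun o => algebraMap_mem_primeVal hϖ (⟨_, O_mem_locS o⟩ : locS y))
        (inv_mem_primeVal hϖ hd)
      have huϖ : ¬ ϖ ∣ (⟨u, hC.eq₀.mem⟩ : locS y) := by
        intro h1
        apply hd
        have e3 : (⟨u, hC.eq₀.mem⟩ : locS y) * (⟨u', hC.eq₁.mem⟩ : locS y) =
            (⟨algebraMap O F π, O_mem_locS π⟩ : locS y) * ⟨e, heL⟩ := Subtype.ext huu
        have h2 : ϖ ∣ (⟨algebraMap O F π, O_mem_locS π⟩ : locS y) * ⟨e, heL⟩ := by
          rw [← e3]; exact h1.mul_right _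
        have h3 : IsUnit (⟨e, heL⟩ : locS y) := isUnit_locS heM
        exact (h3.dvd_mul_right).mp h2
      have huU : UC (primeVal F hϖ) u u :=
        UC.refl hu0 (algebraMap_mem_primeVal hϖ (⟨u, hC.eq₀.mem⟩ : locS y))
          (inv_mem_primeVal hϖ huϖ)
      have h4 := uc_zpow huU A
      refine ⟨g, hg, ?_, ?_⟩
      · rw [hx_def, ← mul_div_assoc, div_eq_mul_inv]
        exact mul_mem g1 h4.inv
      · rw [hx_def, ← mul_div_assoc, inv_div, div_eq_mul_inv]
        exact mul_mem h4.mem g2)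
  have hεM : ¬ locM y ((ε : locS y) : F) := fun h1 => not_isUnit_locS h1 ε.isUnit
  have hεP : UC P₁ ((ε : locS y) : F) ((ε : locS y) : F) := by
    have h1 : ((ε : locS y) : F) ∉ P₁.nonunits := fun hn =>
      hεM (locM_of_nonunits hP₁ hmeet₁ (ε : locS y).2 hn)
    exact UC.refl (fun h0 => h1 (h0 ▸ zero_mem_nonunits P₁))
      (locS_le_over hP₁ hmeet₁ (ε : locS y).2) (inv_mem_of_notMem_nonunits h1)
  have e' : x = ((ε : locS y) : F) * g ^ m := e2
  have hgu : UC P₁ g g := by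
    rw [e'] at hx1
    exact uc_of_pow hm (uc_of_mul hεP hx1)
  refine ⟨g, ε, hg, hgu.mem, hgu.inv, (ε : locS y).2, hεM, ?_⟩
  have e4 : h = g ^ m * u ^ A * ((ε : locS y) : F) := by
    have h5 : h = u ^ A * x := by
      rw [hx_def]
      have := zpow_ne_zero A hu0
      field_simp
    rw [h5, e']; ring
  rw [← e4, sub_self]
  exact zero_mem_nonunits _

/-- **The slope theorem** (unramified case). -/
theorem slope_unr (T : TwoComp ht hπ P₁ P₀ u u') {p : ℕ} (hp : p.Prime)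
    {h : F} (h1 : h ∈ P₁) (h2 : h⁻¹ ∈ P₁) (h0 : h ≠ 0)
    (hor : HorDvd π p h) : ∃ m : ℤ, SlopeRes (O := O) t P₁ P₀ u p h m := by
  obtain ⟨A, hA⟩ := (uni_of_over T.over₀ T.unif₀).exists_vl h0
  have hh : UC P₁ h h := UC.refl h0 h1 h2
  exact ⟨A, fun y _ hm hm' => cross_unr T.over₁ T.over₀ T.unif₁ T.unif₀ hm hm' (T.cr y hm hm')
      hp.pos hh hor hA,
    fun y _ hm hm' => smooth_unr T.over₁ hm (T.sm₁ y hm hm') hp.pos hh hor,
    fun y _ hty hm => smooth_unr (ht := ht.inv) (over_inv T.over₁) hm (T.smi₁ y hty hm)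
      hp.pos hh hor⟩

end

end Fermat.Agent.MP
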