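import Mathlib
import Fermat.Agent.MP.SlopeU

/-!
# The slope theorem in terms of places of the residue field
-/

set_option autoImplicit false
set_option linter.unusedSectionVars false
set_option linter.unusedVariables false

open IsLocalRing Polynomial

universe u

namespace Fermat.Agent.MP

open Fermat.Agent.Geo Fermat.Agent.LG Fermat.Agent.CA

section

variable {F : Type u} [Field F] {k' : Type*} [Field k'] {P : ValuationSubring F} {ρ : P →+* k'}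

theorem rho_ne_zero {a : F} (ha : UC P a a) : ρ ⟨a, ha.mem⟩ ≠ 0 := by
  intro h2
  have h3 : (⟨a, ha.mem⟩ : P) * ⟨a⁻¹, ha.inv⟩ = 1 := Subtype.ext (mul_inv_cancel₀ ha.ne)
  have h4 := congrArg ρ h3
  rw [map_mul, h2, zero_mul, map_one] at h4
  exact zero_ne_one h4

theorem rho_inv {a : F} (ha : UC P a a) : ρ ⟨a⁻¹, ha.inv⟩ = (ρ ⟨a, ha.mem⟩)⁻¹ := by
  have h3 : (⟨a⁻¹, ha.inv⟩ : P) * ⟨a, ha.mem⟩ = 1 := Subtype.ext (inv_mul_cancel₀ ha.ne)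
  have h4 := congrArg ρ h3
  rw [map_mul, map_one] at h4
  exact eq_inv_of_mul_eq_one_left h4

theorem rho_zpow {a : F} (ha : UC P a a) (m : ℤ) :
    ρ ⟨a ^ m, (uc_zpow ha m).mem⟩ = ρ ⟨a, ha.mem⟩ ^ m := by
  have key : ∀ (z : F) (hz : z ∈ P) (k : ℕ), z = a ^ k → ρ ⟨z, hz⟩ = ρ ⟨a, ha.mem⟩ ^ k := by
    rintro z hz k rfl
    rw [← map_pow]
    rfl
  have key' : ∀ (z : F) (hz : z ∈ P) (k : ℕ), z = (a ^ k)⁻¹ →
      ρ ⟨z, hz⟩ = (ρ ⟨a, ha.mem⟩ ^ k)⁻¹ := by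
    rintro z hz k rfl
    rw [← map_pow]
    exact rho_inv (ρ := ρ) (uc_pow ha k)
  rcases Int.eq_nat_or_neg m with ⟨k, rfl | rfl⟩
  · rw [zpow_natCast (ρ ⟨a, ha.mem⟩)]
    exact key _ _ k (zpow_natCast a k)
  · rw [zpow_neg (ρ ⟨a, ha.mem⟩), zpow_natCast (ρ ⟨a, ha.mem⟩)]
    exact key' _ _ k (by rw [zpow_neg, zpow_natCast])

theorem rho_congr (hρ : ∀ x : P, (x : F) ∈ P.nonunits → ρ x = 0) {a b : P}
    (h : (a : F) - b ∈ P.nonunits) : ρ a = ρ b := by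
  rw [← sub_eq_zero, ← map_sub]
  exact hρ _ h

end

section

variable {O K F : Type u} [CommRing O] [IsDomain O] [IsDiscreteValuationRing O] [CharZero O]
  [Field K] [Field F] [Algebra O K] [Algebra O F] [Algebra K F] [IsScalarTower O K F]
  {t : K} {π : O} [FiniteDimensional K F] [Algebra.IsSeparable K F]
  {ht : IsParam O t} {hπ : Prime π} {P₁ P₀ : ValuationSubring F} {u u' : F}
  {k' : Type*} [Field k']

theorem crPt_unit (hP : Over (gaussVal ht hπ) (algebraMap O K π) P₁)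
    (hu : ∀ x ∈ P₁.nonunits, x / algebraMap O F π ∈ P₁)
    {y : Ideal (chart O (algebraMap K F t))} [hy : y.IsPrime] (hmeet : Meets y P₁)
    (hC : CrPt y π P₁ P₀ u u') : UC P₁ u u := by
  obtain ⟨e, heL, heM, huu⟩ := hC.mul
  have hπ0 := pi_ne_zero (F := F) ht hπ
  have huP₁ : u ∉ P₁.nonunits := by
    intro hn
    have h1 := hu u' hC.eq₁.nonunit
    apply heM
    refine locM_of_nonunits hP hmeet heL ?_
    have h2 : e = (u' / algebraMap O F π) * u := by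
      rw [div_mul_eq_mul_div, mul_comm, huu]; field_simp
    rw [h2]
    exact mul_mem_nonunits h1 hn
  exact UC.refl hC.eq₀.ne (locS_le_over hP hmeet hC.eq₀.mem) (inv_mem_of_notMem_nonunits huP₁)

theorem SlopeRes.fin {p : ℕ} {h₀ : F} {m : ℤ} (S : SlopeRes (O := O) t P₁ P₀ u p h₀ m)
    (T : TwoComp ht hπ P₁ P₀ u u')
    (hh₀ : h₀ ∈ P₁) (hh₀' : h₀⁻¹ ∈ P₁) (hne : h₀ ≠ 0) (hu1 : u ∈ P₁)
    (hu : ∀ (y : Ideal (chart O (algebraMap K F t))) [y.IsMaximal], Meets y P₁ → ¬ Meets y P₀ →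
      u ∈ locS y ∧ ¬ locM y u) {ρ : P₁ →+* k'}
    (hρ : ∀ x : P₁, (x : F) ∈ P₁.nonunits → ρ x = 0) {V : ValuationSubring k'}
    (hO : ∀ (a : O) (h : algebraMap O F a ∈ P₁), ρ ⟨_, h⟩ ∈ V) {b : O}
    (hb : ∀ h : algebraMap K F t - algebraMap O F b ∈ P₁, ρ ⟨_, h⟩ ∈ V.nonunits) :
    ∃ (g : F) (hg : g ∈ P₁), g ≠ 0 ∧ g⁻¹ ∈ P₁ ∧ ρ ⟨g, hg⟩ ≠ 0 ∧
      ρ ⟨g, hg⟩ ^ p * ρ ⟨u, hu1⟩ ^ (- m) * ρ ⟨h₀, hh₀⟩ ∈ V ∧
      (ρ ⟨g, hg⟩ ^ p * ρ ⟨u, hu1⟩ ^ (- m) * ρ ⟨h₀, hh₀⟩)⁻¹ ∈ V := by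
  have hu' : ∀ x ∈ chart O (algebraMap K F t), x ∈ P₁ := fun x hx => chart_mem_over T.over₁ hx
  have hbV : ρ ⟨algebraMap K F t, hu' _ (self_mem_chart _)⟩ ∈ V := by
    have h1 := V.nonunits_le (hb (sub_mem (hu' _ (self_mem_chart _))
      (hu' _ ((chart O _).algebraMap_mem b))))
    have h2 := V.add_mem _ _ h1 (hO b (hu' _ ((chart O _).algebraMap_mem b)))
    rw [← map_add] at h2
    have e : (⟨algebraMap K F t - algebraMap O F b, sub_mem (hu' _ (self_mem_chart _))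
      (hu' _ ((chart O _).algebraMap_mem b))⟩ : P₁) + ⟨algebraMap O F b,
        hu' _ ((chart O _).algebraMap_mem b)⟩ = ⟨algebraMap K F t, hu' _ (self_mem_chart _)⟩ :=
      Subtype.ext (sub_add_cancel _ _)
    rwa [e] at h2
  have hV : ∀ x (hx : x ∈ chart O (algebraMap K F t)), ρ ⟨x, hu' x hx⟩ ∈ V :=
    red_mem_of_chart hu' (fun a => hO a _) hbV
  haveI : (redPt ρ V hu' hV).IsPrime := redPt_isPrime
  haveI : (redPt ρ V hu' hV).IsMaximal := redPt_isMaximal (c := b) hπ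
    (fun a ha => hρ _ (max_mem_nonunits T.over₁ ha)) (hb _)
  have hmeet : Meets (redPt ρ V hu' hV) P₁ := redPt_meets hρ
  by_cases hm0 : Meets (redPt ρ V hu' hV) P₀
  · obtain ⟨g, r, hg0, hg1, hg2, hr, hrM, hsub⟩ := S.1 _ hmeet hm0
    have huc := crPt_unit T.over₁ T.unif₁ hmeet (T.cr _ hmeet hm0)
    have hgu : UC P₁ g g := UC.refl hg0 hg1 hg2
    have hrP := locS_le_over T.over₁ hmeet hr
    obtain ⟨v1, v2⟩ := redPt_unit hr hrM hrP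
    have e1 : ρ ⟨h₀, hh₀⟩ = ρ ⟨g, hg1⟩ ^ p * ρ ⟨u, hu1⟩ ^ m * ρ ⟨r, hrP⟩ := by
      rw [← rho_zpow (ρ := ρ) huc m, ← map_pow, ← map_mul, ← map_mul]
      exact rho_congr hρ hsub
    have hgne : ρ ⟨g, hg1⟩ ≠ 0 := rho_ne_zero hgu
    have hune : ρ ⟨u, hu1⟩ ≠ 0 := rho_ne_zero huc
    have e2 : (ρ ⟨g, hg1⟩)⁻¹ ^ p * ρ ⟨u, hu1⟩ ^ (-m) * ρ ⟨h₀, hh₀⟩ = ρ ⟨r, hrP⟩ := by
      rw [e1, zpow_neg, inv_pow]
      have h1 := pow_ne_zero p hgne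
      have h2 := zpow_ne_zero m hune
      field_simp
    rw [← rho_inv (ρ := ρ) hgu] at e2
    exact ⟨g⁻¹, hg2, inv_ne_zero hg0, by rwa [inv_inv], by
      rw [rho_inv (ρ := ρ) hgu]; exact inv_ne_zero hgne,
      by rw [e2]; exact v1, by rw [e2]; exact v2⟩
  · obtain ⟨g, r, hg0, hg1, hg2, hr, hrM, hsub⟩ := S.2.1 _ hmeet hm0
    obtain ⟨hul, huM⟩ := hu _ hmeet hm0
    have hgu : UC P₁ g g := UC.refl hg0 hg1 hg2
    have hrP := locS_le_over T.over₁ hmeet hr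
    obtain ⟨v1, v2⟩ := redPt_unit hr hrM hrP
    obtain ⟨w1, w2⟩ := redPt_unit hul huM hu1
    have huc : UC P₁ u u := by
      have h1 : u ∉ P₁.nonunits := fun hn => huM (locM_of_nonunits T.over₁ hmeet hul hn)
      exact UC.refl (fun h0 => h1 (h0 ▸ zero_mem_nonunits P₁)) hu1 (inv_mem_of_notMem_nonunits h1)
    have e1 : ρ ⟨h₀, hh₀⟩ = ρ ⟨g, hg1⟩ ^ p * ρ ⟨r, hrP⟩ := by
      rw [← map_pow, ← map_mul]
      exact rho_congr hρ hsub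
    have hgne : ρ ⟨g, hg1⟩ ≠ 0 := rho_ne_zero hgu
    have hune : ρ ⟨u, hu1⟩ ≠ 0 := rho_ne_zero huc
    have e2 : (ρ ⟨g, hg1⟩)⁻¹ ^ p * ρ ⟨u, hu1⟩ ^ (-m) * ρ ⟨h₀, hh₀⟩ =
        ρ ⟨u, hu1⟩ ^ (-m) * ρ ⟨r, hrP⟩ := by
      rw [e1, inv_pow]
      have h1 := pow_ne_zero p hgne
      field_simp
    have hV1 : UC V (ρ ⟨u, hu1⟩) (ρ ⟨u, hu1⟩) := UC.refl hune w1 w2
    have hV2 := uc_zpow hV1 (-m)
    rw [← rho_inv (ρ := ρ) hgu] at e2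
    refine ⟨g⁻¹, hg2, inv_ne_zero hg0, by rwa [inv_inv], by
      rw [rho_inv (ρ := ρ) hgu]; exact inv_ne_zero hgne, ?_, ?_⟩
    · rw [e2]; exact mul_mem hV2.mem v1
    · rw [e2, mul_inv]; exact mul_mem hV2.inv v2

theorem SlopeRes.inf {p : ℕ} {h₀ : F} {m : ℤ} (S : SlopeRes (O := O) t P₁ P₀ u p h₀ m)
    (T : TwoComp ht hπ P₁ P₀ u u')
    (hh₀ : h₀ ∈ P₁) (hh₀' : h₀⁻¹ ∈ P₁) (hne : h₀ ≠ 0) {ρ : P₁ →+* k'}
    (hρ : ∀ x : P₁, (x : F) ∈ P₁.nonunits → ρ x = 0) {V : ValuationSubring k'}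
    (hO : ∀ (a : O) (h : algebraMap O F a ∈ P₁), ρ ⟨_, h⟩ ∈ V)
    (hb : ∀ h : algebraMap K F t⁻¹ ∈ P₁, ρ ⟨_, h⟩ ∈ V.nonunits) :
    ∃ (g : F) (hg : g ∈ P₁), g ≠ 0 ∧ g⁻¹ ∈ P₁ ∧ ρ ⟨g, hg⟩ ≠ 0 ∧
      ρ ⟨g, hg⟩ ^ p * ρ ⟨h₀, hh₀⟩ ∈ V ∧ (ρ ⟨g, hg⟩ ^ p * ρ ⟨h₀, hh₀⟩)⁻¹ ∈ V := by
  have hO₁ := over_inv T.over₁
  have hu' : ∀ x ∈ chart O (algebraMap K F t⁻¹), x ∈ P₁ := fun x hx => chart_mem_over hO₁ hx
  have hV : ∀ x (hx : x ∈ chart O (algebraMap K F t⁻¹)), ρ ⟨x, hu' x hx⟩ ∈ V :=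
    red_mem_of_chart hu' (fun a => hO a _) (V.nonunits_le (hb _))
  haveI : (redPt ρ V hu' hV).IsPrime := redPt_isPrime
  haveI : (redPt ρ V hu' hV).IsMaximal := redPt_isMaximal (c := 0) hπ
    (fun a ha => hρ _ (max_mem_nonunits T.over₁ ha)) (by
      have e : (⟨algebraMap K F t⁻¹ - algebraMap O F 0, hu' _ (sub_mem (self_mem_chart _)
          ((chart O (algebraMap K F t⁻¹)).algebraMap_mem 0))⟩ : P₁) =
          ⟨_, hu' _ (self_mem_chart _)⟩ := Subtype.ext (by simp)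
      rw [e]
      exact hb _)
  have hmeet : Meets (redPt ρ V hu' hV) P₁ := redPt_meets hρ
  have hty : locM (redPt ρ V hu' hV) (algebraMap K F t⁻¹) := by
    have h1 : (⟨_, self_mem_chart _⟩ : chart O (algebraMap K F t⁻¹)) ∈ redPt ρ V hu' hV :=
      mem_redPt.mpr (hb _)
    exact locM_of_mem h1
  obtain ⟨g, r, hg0, hg1, hg2, hr, hrM, hsub⟩ := S.2.2 _ hty hmeet
  have hgu : UC P₁ g g := UC.refl hg0 hg1 hg2
  have hrP := locS_le_over hO₁ hmeet hr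
  obtain ⟨v1, v2⟩ := redPt_unit hr hrM hrP
  have e1 : ρ ⟨h₀, hh₀⟩ = ρ ⟨g, hg1⟩ ^ p * ρ ⟨r, hrP⟩ := by
    rw [← map_pow, ← map_mul]
    exact rho_congr hρ hsub
  have hgne : ρ ⟨g, hg1⟩ ≠ 0 := rho_ne_zero hgu
  have e2 : (ρ ⟨g, hg1⟩)⁻¹ ^ p * ρ ⟨h₀, hh₀⟩ = ρ ⟨r, hrP⟩ := by
    rw [e1, inv_pow]
    have h1 := pow_ne_zero p hgne
    field_simp
  rw [← rho_inv (ρ := ρ) hgu] at e2
  exact ⟨g⁻¹, hg2, inv_ne_zero hg0, by rwa [inv_inv], by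
    rw [rho_inv (ρ := ρ) hgu]; exact inv_ne_zero hgne,
    by rw [e2]; exact v1, by rw [e2]; exact v2⟩

end

end Fermat.Agent.MP
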