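import Mathlib
import Fermat.Agent.MP.SlopeV

/-!
# Functions on the projective line all of whose orders are divisible by `p`
-/

set_option autoImplicit false
set_option linter.unusedSectionVars false
set_option linter.unusedVariables false

open IsLocalRing Polynomial

universe u

namespace Fermat.Agent.MP

open Fermat.Agent.Geo Fermat.Agent.CA

section Uni

variable {S K : Type u} [CommRing S] [IsDomain S] [UniqueFactorizationMonoid S] [Field K]
  [Algebra S K] [IsFractionRing S K]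

theorem primeVal_unit {y : S} (hy : Prime y) {s : S} (hs : ¬ y ∣ s) :
    UC (primeVal K hy) (algebraMap S K s) (algebraMap S K s) := by
  refine UC.refl ?_ (algebraMap_mem_primeVal hy s) (inv_mem_primeVal hy hs)
  rw [Ne, map_eq_zero_iff _ (IsFractionRing.injective S K)]
  rintro rfl
  exact hs (dvd_zero _)

theorem primeVal_non {y : S} (hy : Prime y) : algebraMap S K y ∈ (primeVal K hy).nonunits := by
  by_contra hcon
  have h1 := inv_mem_of_notMem_nonunits hcon
  obtain ⟨s, b, hs, hsb⟩ := (mem_primeVal_iff hy).mp h1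
  apply hs
  refine ⟨b, ?_⟩
  apply IsFractionRing.injective S K
  have hp0 : algebraMap S K y ≠ 0 := by
    rw [Ne, map_eq_zero_iff _ (IsFractionRing.injective S K)]
    exact hy.ne_zero
  rw [map_mul, ← hsb]
  field_simp

theorem primeVal_uni {y : S} (hy : Prime y) : Uni (primeVal K hy) (algebraMap S K y) where
  non := primeVal_non hy
  ne := by
    rw [Ne, map_eq_zero_iff _ (IsFractionRing.injective S K)]
    exact hy.ne_zero
  dvd x hx := by
    obtain ⟨s, a, hs, hsa⟩ := (mem_primeVal_iff hy).mp ((primeVal K hy).nonunits_le hx)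
    have hya : y ∣ a := by
      by_contra hya
      have h1 := primeVal_unit (K := K) hy hya
      have h2 : algebraMap S K a ∈ (primeVal K hy).nonunits := by
        rw [← hsa]
        exact mul_mem_nonunits (algebraMap_mem_primeVal hy s) hx
      exact h1.notMem h2
    obtain ⟨b, rfl⟩ := hya
    refine (mem_primeVal_iff hy).mpr ⟨s, b, hs, ?_⟩
    have hp0 : algebraMap S K y ≠ 0 := by
      rw [Ne, map_eq_zero_iff _ (IsFractionRing.injective S K)]
      exact hy.ne_zero
    rw [← mul_div_assoc, hsa, map_mul]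
    field_simp
  arch x := by
    obtain ⟨a, b, hb, rfl⟩ := IsFractionRing.div_surjective (A := S) x
    have hb0 : b ≠ 0 := nonZeroDivisors.ne_zero hb
    obtain ⟨n, b₁, hb₁, rfl⟩ := WfDvdMonoid.max_power_factor' hb0 hy.not_isUnit
    refine ⟨n, (mem_primeVal_iff hy).mpr ⟨b₁, a, hb₁, ?_⟩⟩
    have hp0 : algebraMap S K y ≠ 0 := by
      rw [Ne, map_eq_zero_iff _ (IsFractionRing.injective S K)]
      exact hy.ne_zero
    have hb1 : algebraMap S K b₁ ≠ 0 := by
      rw [Ne, map_eq_zero_iff _ (IsFractionRing.injective S K)]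
      rintro rfl
      exact hb₁ (dvd_zero _)
    rw [map_mul, map_pow]
    field_simp

end Uni

section

variable {k κ : Type u} [Field k] [Field κ] [Algebra k κ] {T : κ}

/-- the place `T = a` of `k(T)` -/
noncomputable def plA (hT : IsParam k T) (a : k) : ValuationSubring κ :=
  placeVal hT (prime_X_sub_C a)

/-- the place `T = ∞` of `k(T)` -/
noncomputable def plInf (hT : IsParam k T) : ValuationSubring κ :=
  placeVal hT.inv prime_X

theorem plA_const (hT : IsParam k T) (a b : k) : algebraMap k κ b ∈ plA hT a :=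
  (mem_placeVal_iff hT _).mpr ⟨1, C b, (prime_X_sub_C a).not_dvd_one, by rw [map_one, one_mul, aeval_C]⟩

theorem plA_non (hT : IsParam k T) (a : k) : T - algebraMap k κ a ∈ (plA hT a).nonunits := by
  letI := polyAlg k T
  haveI := hT.isFractionRing
  have h1 := primeVal_non (K := κ) (prime_X_sub_C a)
  have e : algebraMap k[X] κ (X - C a) = T - algebraMap k κ a := by
    change aeval T (X - C a) = _
    rw [map_sub, aeval_X, aeval_C]
  rw [e] at h1
  exact h1

theorem plInf_const (hT : IsParam k T) (b : k) : algebraMap k κ b ∈ plInf hT :=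
  (mem_placeVal_iff hT.inv _).mpr ⟨1, C b, prime_X.not_dvd_one, by rw [map_one, one_mul, aeval_C]⟩

theorem plInf_uni (hT : IsParam k T) : Uni (plInf hT) T⁻¹ := by
  letI := polyAlg k T⁻¹
  haveI := hT.inv.isFractionRing
  have h1 := primeVal_uni (K := κ) (prime_X (R := k))
  have e : algebraMap k[X] κ X = T⁻¹ := by
    change aeval T⁻¹ X = _
    rw [aeval_X]
  rw [e] at h1
  exact h1

theorem plInf_non (hT : IsParam k T) : T⁻¹ ∈ (plInf hT).nonunits := (plInf_uni hT).non

/-- **Functions on `ℙ¹`.** -/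
theorem genus0_pow [IsAlgClosed k] (hT : IsParam k T) {p : ℕ} (hp : p.Prime) {x w : κ}
    (hx : x ≠ 0) (hw : w ≠ 0) {m : ℤ}
    (hfin : ∀ a : k, ∃ g : κ, g ≠ 0 ∧ g ^ p * w ^ (-m) * x ∈ plA hT a ∧
      (g ^ p * w ^ (-m) * x)⁻¹ ∈ plA hT a)
    (hinf : ∃ g : κ, g ≠ 0 ∧ g ^ p * x ∈ plInf hT ∧ (g ^ p * x)⁻¹ ∈ plInf hT)
    {n : ℤ} (hn : ¬ (p : ℤ) ∣ n) (hwn : w * T ^ n ∈ plInf hT) (hwn' : (w * T ^ n)⁻¹ ∈ plInf hT) :
    ∃ z, x = z ^ p := by
  classical
  have hT0 := hT.ne_zero
  have hstep : ∃ z : κ, z ≠ 0 ∧ w ^ (-m) * x = z ^ p := by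
    letI := polyAlg k T
    haveI := hT.isFractionRing
    obtain ⟨c, g, hg, e⟩ := exists_unit_mul_pow (R := k[X]) (F := κ) hp.pos (w ^ (-m) * x)
      (mul_ne_zero (zpow_ne_zero _ hw) hx) (by
        intro ϖ hϖ
        have hdeg : ϖ.degree = 1 := IsAlgClosed.degree_eq_one_of_irreducible k hϖ.irreducible
        obtain ⟨a, ha⟩ : ∃ a, ϖ.IsRoot a := exists_root_of_degree_eq_one hdeg
        have hd : (X - C a) ∣ ϖ := dvd_iff_isRoot.mpr ha
        have hass : Associated (X - C a) ϖ :=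
          (prime_X_sub_C a).associated_of_dvd hϖ hd
        obtain ⟨g, hg, g1, g2⟩ := hfin a
        have hconv : ∀ z ∈ plA hT a, z ∈ primeVal κ hϖ := by
          intro z hz
          exact primeVal_congr (K := κ) hϖ (prime_X_sub_C a) hass.symm.dvd z hz
        exact ⟨g, hg, by rw [← mul_assoc]; exact hconv _ g1,
          by rw [← mul_assoc]; exact hconv _ g2⟩)
    obtain ⟨c₀, hc₀, hcc⟩ := isUnit_iff.mp c.isUnit
    obtain ⟨d, hd⟩ := IsAlgClosed.exists_pow_nat_eq c₀ hp.pos
    refine ⟨algebraMap k κ d * g, mul_ne_zero ?_ hg, ?_⟩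
    · rw [Ne, map_eq_zero]
      rintro rfl
      rw [zero_pow hp.ne_zero] at hd
      exact hc₀.ne_zero hd.symm
    · rw [e, mul_pow, ← map_pow, hd, ← hcc]
      congr 1
      change aeval T (C c₀) = _
      rw [aeval_C]
  obtain ⟨z, hz0, hz⟩ := hstep
  have hx2 : x = w ^ m * z ^ p := by
    rw [← hz, ← mul_assoc, ← zpow_add₀ hw, add_neg_cancel, zpow_zero, one_mul]
  -- valuations at infinity
  have hU := plInf_uni hT
  have hTi : T⁻¹ ≠ 0 := inv_ne_zero hT0
  have hwV : Vl (plInf hT) T⁻¹ w n := by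
    rw [Vl]
    have e : w / T⁻¹ ^ n = w * T ^ n := by
      rw [inv_zpow, div_inv_eq_mul]
    rw [e]
    exact UC.refl (mul_ne_zero hw (zpow_ne_zero _ hT0)) hwn hwn'
  obtain ⟨g, hg, g1, g2⟩ := hinf
  obtain ⟨r, hr⟩ := hU.exists_vl (mul_ne_zero hg hz0)
  have h1 : Vl (plInf hT) T⁻¹ (g ^ p * x) 0 := by
    rw [vl_zero_iff]
    exact UC.refl (mul_ne_zero (pow_ne_zero _ hg) hx) g1 g2
  have h2 : Vl (plInf hT) T⁻¹ (g ^ p * x) (p * r + m * n) := by
    have e : g ^ p * x = (g * z) ^ p * w ^ m := by rw [hx2, mul_pow]; ring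
    rw [e]
    exact (hr.pow hTi p).mul (hwV.zpow hTi m) hTi
  have h3 := h1.unique h2 hU
  have h4 : (p : ℤ) ∣ m * n := ⟨-r, by linarith⟩
  have h5 : (p : ℤ) ∣ m :=
    ((Nat.prime_iff_prime_int.mp hp).dvd_or_dvd h4).resolve_right hn
  obtain ⟨s, rfl⟩ := h5
  refine ⟨w ^ s * z, ?_⟩
  rw [hx2, mul_pow, ← zpow_natCast (w ^ s), ← zpow_mul, mul_comm s]

end

end Fermat.Agent.MP
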