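import Mathlib
import Fermat.Agent.MP.Genus0

/-!
# From the slope theorem to `p`-th powers when the component is a line
-/

set_option autoImplicit false
set_option linter.unusedSectionVars false
set_option linter.unusedVariables false

open IsLocalRing Polynomial

universe u

namespace Fermat.Agent.MP

open Fermat.Agent.Geo Fermat.Agent.LG Fermat.Agent.CA

/-- The residue field of `P₁` is `k(T)`; description of the reductions of `t` and `u`. -/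
structure RData {O K F κ : Type u} [CommRing O] [IsDomain O] [IsDiscreteValuationRing O]
    [Field K] [Field F] [Field κ] [Algebra O K] [Algebra O F] [Algebra K F]
    [Algebra (ResidueField O) κ] (t : K) (P₁ : ValuationSubring F) (u : F) (p : ℕ)
    (ρ : P₁ →+* κ) (T : κ) : Prop where
  hT : IsParam (ResidueField O) T
  non : ∀ x : P₁, (x : F) ∈ P₁.nonunits → ρ x = 0
  surj : ∀ z : κ, ∃ x : P₁, ρ x = z
  OP : ∀ a : O, algebraMap O F a ∈ P₁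
  O_eq : ∀ a : O, ρ ⟨_, OP a⟩ = algebraMap (ResidueField O) κ (residue O a)
  tP : algebraMap K F t ∈ P₁
  t_eq : ρ ⟨_, tP⟩ * (T * (1 + 16 * T)) = 1
  uP : u ∈ P₁
  u_ne : ρ ⟨u, uP⟩ ≠ 0
  u_cusp : ∀ a : ResidueField O, a * (1 + 16 * a) = 0 →
    ρ ⟨u, uP⟩ ∈ plA hT a ∧ (ρ ⟨u, uP⟩)⁻¹ ∈ plA hT a
  u_inf : ∃ n : ℤ, ¬ (p : ℤ) ∣ n ∧ ρ ⟨u, uP⟩ * T ^ n ∈ plInf hT ∧
    (ρ ⟨u, uP⟩ * T ^ n)⁻¹ ∈ plInf hT

section

variable {O K F κ : Type u} [CommRing O] [IsDomain O] [IsDiscreteValuationRing O] [CharZero O]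
  [Field K] [Field F] [Field κ] [Algebra O K] [Algebra O F] [Algebra K F] [IsScalarTower O K F]
  [Algebra (ResidueField O) κ]
  {t : K} {π : O} [FiniteDimensional K F] [Algebra.IsSeparable K F]
  {ht : IsParam O t} {hπ : Prime π} {P₁ P₀ : ValuationSubring F} {u u' : F}
  [IsAlgClosed (ResidueField O)] {p : ℕ} {ρ : P₁ →+* κ} {T : κ}

/-- the value of `T (1 + 16 T)` at `T = a` -/
theorem plA_eval (hT : IsParam (ResidueField O) T) (a : ResidueField O) :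
    T * (1 + 16 * T) - algebraMap (ResidueField O) κ (a * (1 + 16 * a)) ∈
      (plA hT a).nonunits := by
  have h1 := plA_non hT a
  have hTm : T ∈ plA hT a := by
    have := add_mem ((plA hT a).nonunits_le h1) (plA_const hT a a)
    rwa [sub_add_cancel] at this
  have e : T * (1 + 16 * T) - algebraMap (ResidueField O) κ (a * (1 + 16 * a)) =
      (1 + 16 * (T + algebraMap (ResidueField O) κ a)) *
        (T - algebraMap (ResidueField O) κ a) := by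
    rw [map_mul, map_add, map_mul, map_one, map_ofNat]
    ring
  rw [e]
  have h16 : (16 : κ) ∈ plA hT a := by
    have := plA_const hT a (16 : ResidueField O)
    rwa [map_ofNat] at this
  exact mul_mem_nonunits (add_mem (one_mem _) (mul_mem h16 (add_mem hTm (plA_const hT a a)))) h1

/-- the centre of a place of the residue field on the finite chart -/
theorem exists_center (TC : TwoComp ht hπ P₁ P₀ u u') {ρ : P₁ →+* κ}
    (hρ : ∀ x : P₁, (x : F) ∈ P₁.nonunits → ρ x = 0) {V : ValuationSubring κ}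
    (hO : ∀ (a : O) (h : algebraMap O F a ∈ P₁), ρ ⟨_, h⟩ ∈ V) {b : O}
    (hb : ∀ h : algebraMap K F t - algebraMap O F b ∈ P₁, ρ ⟨_, h⟩ ∈ V.nonunits) :
    ∃ (y : Ideal (chart O (algebraMap K F t))) (_ : y.IsMaximal), Meets y P₁ ∧
      locM y (algebraMap K F t - algebraMap O F b) ∧
      ∀ v, v ∈ locS y → ¬ locM y v → ∀ hv : v ∈ P₁, UC V (ρ ⟨v, hv⟩) (ρ ⟨v, hv⟩) := by
  have hu' : ∀ x ∈ chart O (algebraMap K F t), x ∈ P₁ := fun x hx => chart_mem_over TC.over₁ hx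
  have hbV : ρ ⟨algebraMap K F t, hu' _ (self_mem_chart _)⟩ ∈ V := by
    have h1 := V.nonunits_le (hb (sub_mem (hu' _ (self_mem_chart _))
      (hu' _ ((chart O _).algebraMap_mem b))))
    have h2 := V.add_mem _ _ h1 (hO b (hu' _ ((chart O _).algebraMap_mem b)))
    rw [← map_add] at h2
    have e : (⟨algebraMap K F t - algebraMap O F b, sub_mem (hu' _ (self_mem_chart _))
      (hu' _ ((chart O _).algebraMap_mem b))⟩ : P₁) + ⟨algebraMap O F b,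
        hu' _ ((chart O _).algebraMap_mem b)⟩ = ⟨algebraMap K F t, hu' _ (self_mem_chart _)⟩ :=
      Subtype.ext (sub_add_cancel _ _)
    rwa [e] at h2
  have hV : ∀ x (hx : x ∈ chart O (algebraMap K F t)), ρ ⟨x, hu' x hx⟩ ∈ V :=
    red_mem_of_chart hu' (fun a => hO a _) hbV
  haveI : (redPt ρ V hu' hV).IsPrime := redPt_isPrime
  haveI : (redPt ρ V hu' hV).IsMaximal := redPt_isMaximal (c := b) hπ
    (fun a ha => hρ _ (max_mem_nonunits TC.over₁ ha)) (hb _)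
  refine ⟨redPt ρ V hu' hV, inferInstance, redPt_meets hρ, ?_, fun v hv hvM hvP => ?_⟩
  · have h1 : (⟨_, sub_mem (self_mem_chart _) ((chart O _).algebraMap_mem b)⟩ :
        chart O (algebraMap K F t)) ∈ redPt ρ V hu' hV := mem_redPt.mpr (hb _)
    exact locM_of_mem h1
  · obtain ⟨v1, v2⟩ := redPt_unit hv hvM hvP
    refine UC.refl (fun h0 => ?_) v1 v2
    have hvu : UC P₁ v v := by
      have h1 : v ∉ P₁.nonunits := fun hn =>
        hvM (locM_of_nonunits TC.over₁ (redPt_meets hρ) hv hn)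
      exact UC.refl (fun h0 => h1 (h0 ▸ zero_mem_nonunits P₁)) hvP (inv_mem_of_notMem_nonunits h1)
    exact rho_ne_zero hvu h0

/-- the orders of `h₀` at the places where `t = 0` -/
theorem SlopeRes.zero {h₀ : F} {m : ℤ} (S : SlopeRes (O := O) t P₁ P₀ u p h₀ m)
    (TC : TwoComp ht hπ P₁ P₀ u u')
    (hz : ∀ (y : Ideal (chart O (algebraMap K F t))) [y.IsMaximal],
      locM y (algebraMap K F t) → Meets y P₁ → ¬ Meets y P₀)
    (hh₀ : UC P₁ h₀ h₀) {ρ : P₁ →+* κ}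
    (hρ : ∀ x : P₁, (x : F) ∈ P₁.nonunits → ρ x = 0) {V : ValuationSubring κ}
    (hO : ∀ (a : O) (h : algebraMap O F a ∈ P₁), ρ ⟨_, h⟩ ∈ V)
    (hb : ∀ h : algebraMap K F t ∈ P₁, ρ ⟨_, h⟩ ∈ V.nonunits) :
    ∃ g : κ, g ≠ 0 ∧ g ^ p * ρ ⟨h₀, hh₀.mem⟩ ∈ V ∧ (g ^ p * ρ ⟨h₀, hh₀.mem⟩)⁻¹ ∈ V := by
  obtain ⟨y, hy, hmeet, htb, hunit⟩ := exists_center (b := 0) TC hρ hO (by
    intro h
    have e : (⟨_, h⟩ : P₁) = ⟨algebraMap K F t, chart_mem_over TC.over₁ (self_mem_chart _)⟩ :=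
      Subtype.ext (show algebraMap K F t - algebraMap O F 0 = _ by rw [map_zero, sub_zero])
    rw [e]
    exact hb _)
  rw [map_zero, sub_zero] at htb
  obtain ⟨g, r, hg0, hg1, hg2, hr, hrM, hsub⟩ := S.2.1 y hmeet (hz y htb hmeet)
  have hgu : UC P₁ g g := UC.refl hg0 hg1 hg2
  have hrP := locS_le_over TC.over₁ hmeet hr
  have hV := hunit r hr hrM hrP
  have e1 : ρ ⟨h₀, hh₀.mem⟩ = ρ ⟨g, hg1⟩ ^ p * ρ ⟨r, hrP⟩ := by
    rw [← map_pow, ← map_mul]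
    exact rho_congr hρ hsub
  have hgne : ρ ⟨g, hg1⟩ ≠ 0 := rho_ne_zero hgu
  have e2 : (ρ ⟨g, hg1⟩)⁻¹ ^ p * ρ ⟨h₀, hh₀.mem⟩ = ρ ⟨r, hrP⟩ := by
    rw [e1, inv_pow]
    have h1 := pow_ne_zero p hgne
    field_simp
  exact ⟨_, inv_ne_zero hgne, by rw [e2]; exact hV.mem, by rw [e2]; exact hV.inv⟩

/-- the orders of `h₀` at the places where `t ≠ 0, ∞` -/
theorem SlopeRes.fin' {h₀ : F} {m : ℤ} (S : SlopeRes (O := O) t P₁ P₀ u p h₀ m)
    (TC : TwoComp ht hπ P₁ P₀ u u')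
    (hu : ∀ (y : Ideal (chart O (algebraMap K F t))) [y.IsMaximal],
      ¬ locM y (algebraMap K F t) → Meets y P₁ → ¬ Meets y P₀ → u ∈ locS y ∧ ¬ locM y u)
    (hh₀ : UC P₁ h₀ h₀) (hu1 : u ∈ P₁) {ρ : P₁ →+* κ}
    (hρ : ∀ x : P₁, (x : F) ∈ P₁.nonunits → ρ x = 0) {V : ValuationSubring κ}
    (hO : ∀ (a : O) (h : algebraMap O F a ∈ P₁), ρ ⟨_, h⟩ ∈ V) {b : O} (hbu : IsUnit b)
    (hb : ∀ h : algebraMap K F t - algebraMap O F b ∈ P₁, ρ ⟨_, h⟩ ∈ V.nonunits) :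
    ∃ g : κ, g ≠ 0 ∧ g ^ p * ρ ⟨u, hu1⟩ ^ (-m) * ρ ⟨h₀, hh₀.mem⟩ ∈ V ∧
      (g ^ p * ρ ⟨u, hu1⟩ ^ (-m) * ρ ⟨h₀, hh₀.mem⟩)⁻¹ ∈ V := by
  obtain ⟨y, hy, hmeet, htb, hunit⟩ := exists_center TC hρ hO hb
  by_cases hm0 : Meets y P₀
  · obtain ⟨g, r, hg0, hg1, hg2, hr, hrM, hsub⟩ := S.1 y hmeet hm0
    have huc := crPt_unit TC.over₁ TC.unif₁ hmeet (TC.cr y hmeet hm0)
    have hgu : UC P₁ g g := UC.refl hg0 hg1 hg2
    have hrP := locS_le_over TC.over₁ hmeet hr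
    have hV := hunit r hr hrM hrP
    have e1 : ρ ⟨h₀, hh₀.mem⟩ = ρ ⟨g, hg1⟩ ^ p * ρ ⟨u, hu1⟩ ^ m * ρ ⟨r, hrP⟩ := by
      rw [← rho_zpow (ρ := ρ) huc m, ← map_pow, ← map_mul, ← map_mul]
      exact rho_congr hρ hsub
    have hgne : ρ ⟨g, hg1⟩ ≠ 0 := rho_ne_zero hgu
    have hune : ρ ⟨u, hu1⟩ ≠ 0 := rho_ne_zero huc
    have e2 : (ρ ⟨g, hg1⟩)⁻¹ ^ p * ρ ⟨u, hu1⟩ ^ (-m) * ρ ⟨h₀, hh₀.mem⟩ = ρ ⟨r, hrP⟩ := by
      rw [e1, zpow_neg, inv_pow]
      have h1 := pow_ne_zero p hgne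
      have h2 := zpow_ne_zero m hune
      field_simp
    exact ⟨_, inv_ne_zero hgne, by rw [e2]; exact hV.mem, by rw [e2]; exact hV.inv⟩
  · have htM : ¬ locM y (algebraMap K F t) := by
      intro h1
      have h2 := h1.sub htb
      rw [sub_sub_cancel] at h2
      have h3 := mem_max_of_locM (π := π) h2
      rcases h3 with h3 | h3
      · exact hπ.not_unit (isUnit_of_dvd_unit h3 hbu)
      · exact h3 hπ
    obtain ⟨g, r, hg0, hg1, hg2, hr, hrM, hsub⟩ := S.2.1 y hmeet hm0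
    obtain ⟨hul, huM⟩ := hu y htM hmeet hm0
    have hgu : UC P₁ g g := UC.refl hg0 hg1 hg2
    have hrP := locS_le_over TC.over₁ hmeet hr
    have hV := hunit r hr hrM hrP
    have hVu := hunit u hul huM hu1
    have e1 : ρ ⟨h₀, hh₀.mem⟩ = ρ ⟨g, hg1⟩ ^ p * ρ ⟨r, hrP⟩ := by
      rw [← map_pow, ← map_mul]
      exact rho_congr hρ hsub
    have hgne : ρ ⟨g, hg1⟩ ≠ 0 := rho_ne_zero hgu
    have e2 : (ρ ⟨g, hg1⟩)⁻¹ ^ p * ρ ⟨u, hu1⟩ ^ (-m) * ρ ⟨h₀, hh₀.mem⟩ =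
        ρ ⟨u, hu1⟩ ^ (-m) * ρ ⟨r, hrP⟩ := by
      rw [e1, inv_pow]
      have h1 := pow_ne_zero p hgne
      field_simp
    have hV2 := (uc_zpow hVu (-m)).mul hV
    exact ⟨_, inv_ne_zero hgne, by rw [e2]; exact hV2.mem, by rw [e2]; exact hV2.inv⟩

theorem pow_of_slope (D : RData (O := O) t P₁ u p ρ T) (TC : TwoComp ht hπ P₁ P₀ u u')
    (hp : p.Prime) (h2u : IsUnit (2 : O))
    (hu : ∀ (y : Ideal (chart O (algebraMap K F t))) [y.IsMaximal],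
      ¬ locM y (algebraMap K F t) → Meets y P₁ → ¬ Meets y P₀ → u ∈ locS y ∧ ¬ locM y u)
    (hz : ∀ (y : Ideal (chart O (algebraMap K F t))) [y.IsMaximal],
      locM y (algebraMap K F t) → Meets y P₁ → ¬ Meets y P₀)
    {h₀ : F} (hh₀ : UC P₁ h₀ h₀) {m : ℤ} (S : SlopeRes (O := O) t P₁ P₀ u p h₀ m) :
    ∃ g : F, UC P₁ g g ∧ UC P₁ h₀ (g ^ p) := by
  have hT := D.hT
  have hT0 := hT.ne_zero
  have htP' : algebraMap K F t⁻¹ ∈ P₁ := by
    have hO₁ := over_inv TC.over₁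
    exact chart_mem_over hO₁ (self_mem_chart _)
  have htt : ρ ⟨_, htP'⟩ = T * (1 + 16 * T) := by
    have h1 : (⟨_, htP'⟩ : P₁) * ⟨_, D.tP⟩ = 1 := by
      apply Subtype.ext
      change algebraMap K F t⁻¹ * algebraMap K F t = 1
      rw [← map_mul, inv_mul_cancel₀ ht.ne_zero, map_one]
    have h2 := congrArg ρ h1
    rw [map_mul, map_one] at h2
    have h3 := D.t_eq
    have h4 : ρ ⟨_, htP'⟩ * (ρ ⟨_, D.tP⟩ * (T * (1 + 16 * T))) = ρ ⟨_, htP'⟩ := by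
      rw [h3, mul_one]
    rw [← mul_assoc, h2, one_mul] at h4
    exact h4.symm
  have hOA : ∀ a : ResidueField O, ∀ (b : O) (h : algebraMap O F b ∈ P₁),
      ρ ⟨_, h⟩ ∈ plA hT a := fun a b h => by
    rw [D.O_eq b]; exact plA_const hT a _
  have hOI : ∀ (b : O) (h : algebraMap O F b ∈ P₁), ρ ⟨_, h⟩ ∈ plInf hT := fun b h => by
    rw [D.O_eq b]; exact plInf_const hT _
  have hx : ρ ⟨h₀, hh₀.mem⟩ ≠ 0 := rho_ne_zero hh₀
  obtain ⟨n, hn, hn1, hn2⟩ := D.u_inf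
  have hfin : ∀ a : ResidueField O, ∃ g : κ, g ≠ 0 ∧
      g ^ p * ρ ⟨u, D.uP⟩ ^ (-m) * ρ ⟨h₀, hh₀.mem⟩ ∈ plA hT a ∧
      (g ^ p * ρ ⟨u, D.uP⟩ ^ (-m) * ρ ⟨h₀, hh₀.mem⟩)⁻¹ ∈ plA hT a := by
    intro a
    by_cases ha : a * (1 + 16 * a) = 0
    · -- a cusp at infinity
      have hb : ∀ h : algebraMap K F t⁻¹ ∈ P₁, ρ ⟨_, h⟩ ∈ (plA hT a).nonunits := by
        intro h
        have h1 := plA_eval hT a
        rw [ha, map_zero, sub_zero] at h1
        rw [show (ρ ⟨_, h⟩ : κ) = T * (1 + 16 * T) from htt]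
        exact h1
      obtain ⟨g, hg, hg0, hgi, hgne, g1, g2⟩ := S.inf TC hh₀.mem hh₀.inv hh₀.ne D.non
        (hOA a) hb
      obtain ⟨c1, c2⟩ := D.u_cusp a ha
      have hU : UC (plA hT a) (ρ ⟨u, D.uP⟩) (ρ ⟨u, D.uP⟩) := UC.refl D.u_ne c1 c2
      have hU2 := uc_zpow hU (-m)
      refine ⟨ρ ⟨g, hg⟩, hgne, ?_, ?_⟩
      · have e : ρ ⟨g, hg⟩ ^ p * ρ ⟨u, D.uP⟩ ^ (-m) * ρ ⟨h₀, hh₀.mem⟩ =
            ρ ⟨u, D.uP⟩ ^ (-m) * (ρ ⟨g, hg⟩ ^ p * ρ ⟨h₀, hh₀.mem⟩) := by ring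
        rw [e]
        exact mul_mem hU2.mem g1
      · have e : ρ ⟨g, hg⟩ ^ p * ρ ⟨u, D.uP⟩ ^ (-m) * ρ ⟨h₀, hh₀.mem⟩ =
            ρ ⟨u, D.uP⟩ ^ (-m) * (ρ ⟨g, hg⟩ ^ p * ρ ⟨h₀, hh₀.mem⟩) := by ring
        rw [e, mul_inv]
        exact mul_mem hU2.inv g2
    · -- a finite point of the `t`-line
      obtain ⟨b, hb⟩ := residue_surjective (R := O) (a * (1 + 16 * a))⁻¹
      have hbu : IsUnit b := by
        by_contra h
        have h1 := (residue_eq_zero_iff b).mpr ((mem_maximalIdeal b).mpr h)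
        rw [hb] at h1
        exact inv_ne_zero ha h1
      have hbt : ∀ h : algebraMap K F t - algebraMap O F b ∈ P₁,
          ρ ⟨_, h⟩ ∈ (plA hT a).nonunits := by
        intro h
        have e1 : ρ ⟨_, h⟩ = ρ ⟨_, D.tP⟩ - ρ ⟨_, D.OP b⟩ := by
          rw [← map_sub]; rfl
        have hz := plA_eval hT a
        set z := T * (1 + 16 * T) with hzdef
        set r := a * (1 + 16 * a) with hr
        have hte : ρ ⟨_, D.tP⟩ * z = 1 := D.t_eq
        have hρt : ρ ⟨_, D.tP⟩ = z⁻¹ := eq_inv_of_mul_eq_one_left hte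
        have hz0 : z ≠ 0 := by
          intro h0
          rw [h0, mul_zero] at hte
          exact zero_ne_one hte
        have hr0 : algebraMap (ResidueField O) κ r ≠ 0 := by
          rw [Ne, map_eq_zero]; exact ha
        have hzu : UC (plA hT a) z z := by
          have h2 : UC (plA hT a) (algebraMap (ResidueField O) κ r) z := by
            refine ⟨hr0, plA_const hT a r, ?_, ?_⟩
            · rw [← map_inv₀]; exact plA_const hT a _
            · have := nonunits_neg hz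
              rwa [neg_sub] at this
          exact h2.symm.rfl_left
        have e2 : ρ ⟨_, h⟩ = -((z⁻¹ * (algebraMap (ResidueField O) κ r)⁻¹) *
            (z - algebraMap (ResidueField O) κ r)) := by
          rw [e1, hρt, D.O_eq b, hb, map_inv₀]
          field_simp
          ring
        rw [e2]
        refine nonunits_neg (mul_mem_nonunits (mul_mem hzu.inv ?_) hz)
        rw [← map_inv₀]; exact plA_const hT a _
      exact S.fin' TC hu hh₀ D.uP D.non (hOA a) hbu hbt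
  have hinf : ∃ g : κ, g ≠ 0 ∧ g ^ p * ρ ⟨h₀, hh₀.mem⟩ ∈ plInf hT ∧
      (g ^ p * ρ ⟨h₀, hh₀.mem⟩)⁻¹ ∈ plInf hT := by
    refine S.zero TC hz hh₀ D.non hOI fun h => ?_
    -- `t` vanishes at `T = ∞`
    have hρt : ρ ⟨_, h⟩ * (T * (1 + 16 * T)) = 1 := D.t_eq
    have hU := plInf_uni hT
    have h16 : UC (plInf hT) (16 : κ) 16 := by
      have h3 : IsUnit (16 : ResidueField O) := by
        have h4 : IsUnit (residue O 2) := h2u.map _
        have h5 : (16 : ResidueField O) = residue O 2 ^ 4 := by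
          rw [map_ofNat]; norm_num
        rw [h5]
        exact h4.pow 4
      have h4 : (16 : κ) = algebraMap (ResidueField O) κ 16 := (map_ofNat _ _).symm
      rw [h4]
      refine UC.refl (by rw [Ne, map_eq_zero]; exact h3.ne_zero) (plInf_const hT _) ?_
      rw [← map_inv₀]
      exact plInf_const hT _
    have h17 : UC (plInf hT) (16 : κ) (T⁻¹ + 16) :=
      ⟨h16.ne, h16.mem, h16.inv, by
        rw [sub_add_cancel_right]; exact nonunits_neg hU.non⟩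
    have h18 := h17.symm.rfl_left
    have e : ρ ⟨_, h⟩ = (T⁻¹ + 16)⁻¹ * T⁻¹ * T⁻¹ := by
      have h19 : (T⁻¹ + 16)⁻¹ * T⁻¹ * T⁻¹ * (T * (1 + 16 * T)) = 1 := by
        have h20 : T * (1 + 16 * T) = T ^ 2 * (T⁻¹ + 16) := by field_simp
        rw [h20]
        have h21 : (T⁻¹ + 16)⁻¹ * T⁻¹ * T⁻¹ * (T ^ 2 * (T⁻¹ + 16)) =
            ((T⁻¹ + 16)⁻¹ * (T⁻¹ + 16)) * (T⁻¹ * T) ^ 2 := by ring
        rw [h21, inv_mul_cancel₀ h18.ne, inv_mul_cancel₀ hT0, one_pow, one_mul]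
      exact (mul_right_cancel₀ (right_ne_zero_of_mul_eq_one hρt) (hρt.trans h19.symm))
    rw [e]
    exact mul_mem_nonunits (mul_mem h18.inv ((plInf hT).nonunits_le hU.non)) hU.non
  obtain ⟨z, hz'⟩ := genus0_pow hT hp hx D.u_ne hfin hinf hn hn1 hn2
  obtain ⟨g, rfl⟩ := D.surj z
  have hg0 : ρ g ≠ 0 := by
    intro h0
    rw [h0, zero_pow hp.ne_zero] at hz'
    exact hx hz'
  have hgn : (g : F) ∉ P₁.nonunits := fun hn' => hg0 (D.non g hn')
  have hgu : UC P₁ (g : F) g :=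
    UC.refl (fun h0 => hgn (h0 ▸ zero_mem_nonunits P₁)) g.2 (inv_mem_of_notMem_nonunits hgn)
  refine ⟨g, hgu, hh₀.ne, hh₀.mem, hh₀.inv, ?_⟩
  -- injectivity of `ρ` on the residue field
  by_contra hcon
  have h1 : (⟨h₀, hh₀.mem⟩ - g ^ p : P₁) ≠ 0 := by
    intro h0
    apply hcon
    have := congrArg Subtype.val h0
    change h₀ - (g : F) ^ p = 0 at this
    rw [this]
    exact zero_mem_nonunits _
  have h2 : ρ (⟨h₀, hh₀.mem⟩ - g ^ p) = 0 := by rw [map_sub, map_pow, hz', sub_self]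
  have hcon' : ((⟨h₀, hh₀.mem⟩ - g ^ p : P₁) : F) ∉ P₁.nonunits := hcon
  have h3 : UC P₁ ((⟨h₀, hh₀.mem⟩ - g ^ p : P₁) : F) ((⟨h₀, hh₀.mem⟩ - g ^ p : P₁) : F) :=
    UC.refl (fun h0 => hcon' (h0 ▸ zero_mem_nonunits P₁)) (Subtype.coe_prop _)
      (inv_mem_of_notMem_nonunits hcon')
  exact rho_ne_zero (ρ := ρ) h3 h2

end

end Fermat.Agent.MP
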