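import Mathlib
import Fermat.Agent.MP.PW2
import Fermat.Agent.PR.Eis

/-!
# The geometry of `X₀(4p)` over the maximal unramified extension
-/

set_option autoImplicit false
set_option linter.unusedSectionVars false
set_option linter.style.haveILetI false

open IsLocalRing Polynomial

noncomputable section

namespace Fermat.Agent.MP

open Fermat.Agent.Geo Fermat.Agent.LG Fermat.Agent.CA Fermat.Agent.ModFun Fermat.Agent.PR

local notation "Qb" => AlgebraicClosure ℚ

/-- The geometric data needed for the slope theorem: the component `P₁` is the one given by the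
Gauss valuation of the `q`-expansions. -/
def GeoData (A : ValuationSubring Qb) (L : IntermediateField ℚ Qb)
    [IsDiscreteValuationRing (OL A L)] (N p : ℕ) [NeZero N] : Prop :=
  letI := algO (OL A L) (F0 L N)
  ∃ (K : Type) (_ : Field K) (_ : Algebra (OL A L) K) (_ : Algebra K (F0 L N))
    (_ : IsScalarTower (OL A L) K (F0 L N)) (_ : FiniteDimensional K (F0 L N))
    (_ : Algebra.IsSeparable K (F0 L N)) (t : K) (ht : IsParam (OL A L) t)
    (hπ : Prime ((p : ℕ) : OL A L)) (P₁ P₀ : ValuationSubring (F0 L N)) (u u' : F0 L N),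
    TwoComp ht hπ P₁ P₀ u u' ∧
    (∀ x : F0 L N, x ∈ P₁ ↔ (x : LaurentSeries L) ∈ gV (OL A L) L) ∧
    (∀ (y : Ideal (chart (OL A L) (algebraMap K (F0 L N) t))) [y.IsMaximal],
      ¬ locM y (algebraMap K (F0 L N) t) → Meets y P₁ → ¬ Meets y P₀ →
        u ∈ locS y ∧ ¬ locM y u) ∧
    (∀ (y : Ideal (chart (OL A L) (algebraMap K (F0 L N) t))) [y.IsMaximal],
      locM y (algebraMap K (F0 L N) t) → Meets y P₁ → ¬ Meets y P₀) ∧
    ∃ (κ : Type) (_ : Field κ) (_ : Algebra (ResidueField (OL A L)) κ) (ρ : P₁ →+* κ) (T : κ),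
      RData (O := OL A L) t P₁ u p ρ T

end Fermat.Agent.MP
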