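import Mathlib
import Fermat.Agent.MP.GeoDef

/-!
# The reduction of `h` on the component `P₁` is a `p`-th power
-/

set_option autoImplicit false
set_option linter.unusedSectionVars false
set_option linter.unusedVariables false

open IsLocalRing Polynomial

universe u

namespace Fermat.Agent.MP

open Fermat.Agent.Geo Fermat.Agent.LG Fermat.Agent.CA

section

variable {O K F E κ : Type u} [CommRing O] [IsDomain O] [IsDiscreteValuationRing O] [CharZero O]
  [Field K] [Field F] [Field E] [Field κ] [Algebra O K] [Algebra O F] [Algebra O E] [Algebra K F]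
  [Algebra F E] [IsScalarTower O K F] [IsScalarTower O F E] [Algebra (ResidueField O) κ]
  {t : K} {π : O} [FiniteDimensional K F] [Algebra.IsSeparable K F]
  {ht : IsParam O t} {hπ : Prime π} {P₁ P₀ : ValuationSubring F} {u u' : F}
  [IsAlgClosed (ResidueField O)] {p : ℕ} {ρ : P₁ →+* κ} {T : κ}

theorem red_pow_eis (D : RData (O := O) t P₁ u p ρ T) (TC : TwoComp ht hπ P₁ P₀ u u')
    (hp : p.Prime) (hpO : π ∣ (p : O)) (h2u : IsUnit (2 : O))
    (hu : ∀ (y : Ideal (chart O (algebraMap K F t))) [y.IsMaximal],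
      ¬ locM y (algebraMap K F t) → Meets y P₁ → ¬ Meets y P₀ → u ∈ locS y ∧ ¬ locM y u)
    (hz : ∀ (y : Ideal (chart O (algebraMap K F t))) [y.IsMaximal],
      locM y (algebraMap K F t) → Meets y P₁ → ¬ Meets y P₀)
    {η : E} {c : ℕ → O} (hE : EisExt O F π p η c)
    {V₁ : ValuationSubring E} (hV₁ : ∀ x ∈ P₁, algebraMap F E x ∈ V₁)
    (hη : η ∈ V₁.nonunits) {h : E} (hh : UC V₁ h h) (hor : HorDvd π p h) :
    ∃ g : F, UC P₁ g g ∧ UC V₁ h (algebraMap F E (g ^ p)) := by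
  have hT := hE.tr hp.two_le TC.over₁ TC.unif₁ hV₁ hη
  obtain ⟨h₀, hb, hc⟩ := hT.exists_res hE.span hh
  obtain ⟨m, S⟩ := slope_eis TC hp hpO hE hV₁ hη hh.mem hh.inv hh.ne hor hb.mem hc.sub
  obtain ⟨g, hg, hg2⟩ := pow_of_slope D TC hp h2u hu hz hb S
  exact ⟨g, hg, hc.trans (hT.up_UC hg2)⟩

theorem red_pow_unr (D : RData (O := O) t P₁ u p ρ T) (TC : TwoComp ht hπ P₁ P₀ u u')
    (hp : p.Prime) (h2u : IsUnit (2 : O))
    (hu : ∀ (y : Ideal (chart O (algebraMap K F t))) [y.IsMaximal],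
      ¬ locM y (algebraMap K F t) → Meets y P₁ → ¬ Meets y P₀ → u ∈ locS y ∧ ¬ locM y u)
    (hz : ∀ (y : Ideal (chart O (algebraMap K F t))) [y.IsMaximal],
      locM y (algebraMap K F t) → Meets y P₁ → ¬ Meets y P₀)
    {h : F} (hh : UC P₁ h h) (hor : HorDvd π p h) :
    ∃ g : F, UC P₁ g g ∧ UC P₁ h (g ^ p) := by
  obtain ⟨m, S⟩ := slope_unr TC hp hh.mem hh.inv hh.ne hor
  exact pow_of_slope D TC hp h2u hu hz hh S

end

end Fermat.Agent.MP
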