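import Mathlib
import Fermat.Agent.MP.End

/-!
The statement about the reductions of the Kummer generators at `p`.
-/

set_option autoImplicit false

open Fermat.Agent.ModFun IntermediateField Fermat.Agent.Geo IsLocalRing Fermat.Agent.ESCore
open Fermat.Agent.LG Fermat.Agent.Flat
open CongruenceSubgroup (Gamma0)

noncomputable section

namespace Fermat.Agent.MP

local notation "Qb" => AlgebraicClosure ℚ
local notation "GQ" => (AlgebraicClosure ℚ ≃ₐ[ℚ] AlgebraicClosure ℚ)

/-- The reduction of a Kummer generator is an `m`-th power: some `y` with character `χ` satisfies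
`(z y)^m ≡ 1` along the component of infinity, `z` a function of level `N`. -/
def PowRed (A : ValuationSubring Qb) (N m : ℕ) [NeZero N] (χ : Gamma0 N →* ℂˣ) : Prop :=
  ∃ (y : LaurentSeries Qb) (_ : y ≠ 0) (_ : XSer ιC N χ y) (z : LaurentSeries Qb)
    (_ : z ∈ F0 Qb N) (hz : z ^ m * y ^ m ∈ gA A), gAR (⟨_, hz⟩ : gA A) = 1

/-- The conditions at `p` on a character: either it is fixed by inertia, or its orbit under
inertia is a coset of a group `T` of order `p` and its field of definition over the maximal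
unramified extension contains `η` with `v(η)^p = v(p)`, `v(σ η - η)^(p-1) = v(p)`. -/
def PeuChar (A : ValuationSubring Qb) (N p : ℕ) [NeZero N] (hp : p.Prime) (χ : XG N p) : Prop :=
  (∀ σ ∈ A.inertiaSubgroupIn ℚ, galX N hp.pos σ χ = χ) ∨
  ((∃ T : Subgroup (XG N p), Nat.card T = p ∧
      (∀ σ ∈ A.inertiaSubgroupIn ℚ, galX N hp.pos σ χ * χ⁻¹ ∈ T) ∧
      ∀ τ ∈ T, ∃ σ ∈ A.inertiaSubgroupIn ℚ, galX N hp.pos σ χ = τ * χ) ∧
    ∃ η : Qb, (∀ σ ∈ A.inertiaSubgroupIn ℚ, galX N hp.pos σ χ = χ → σ η = η) ∧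
      A.valuation η ^ p = A.valuation (p : Qb) ∧
      ∀ σ ∈ A.inertiaSubgroupIn ℚ, galX N hp.pos σ χ ≠ χ →
        A.valuation (σ η - η) ^ (p - 1) = A.valuation (p : Qb))

/-- **(PW)** -/
def PWProp : Prop :=
  ∀ {p N : ℕ} [NeZero p] [NeZero N] (hp : p.Prime) (_ : 5 ≤ p) (_ : N = p * 4)
    {A : ValuationSubring Qb} (_ : A.LiesOverPrime p) (χ : XG N p), IsPar χ.1 →
    PeuChar A N p hp χ → PowRed A N p χ.1

end Fermat.Agent.MP
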