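import Mathlib
import Fermat.Agent.MP.PW3
import Fermat.Agent.MP.PWDef
import Fermat.Agent.CA.CarH
import Fermat.Agent.Flat.GaussA

/-!
# Horizontal divisibility over an extension of the inertia field
-/

set_option autoImplicit false
set_option linter.unusedSectionVars false
set_option linter.unusedVariables false
set_option linter.style.haveILetI false

open IsLocalRing Polynomial IntermediateField

noncomputable section

namespace Fermat.Agent.MP

open Fermat.Agent.Geo Fermat.Agent.LG Fermat.Agent.CA Fermat.Agent.ModFun Fermat.Agent.PR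
open CongruenceSubgroup (Gamma0)

local notation "Qb" => AlgebraicClosure ℚ

section

variable {A : ValuationSubring Qb} {p : ℕ} {L : IntermediateField ℚ Qb} {N : ℕ} [NeZero N]

theorem KI_mem_of {F : Type} [Field F] (cst : L →+* F) (hp : p.Prime) (hA : A.LiesOverPrime p)
    (hle : KI A ≤ L) {f : OL A (KI A) →+* F}
    (OF : ∀ o : OL A (KI A), f o = cst ⟨((o : KI A) : Qb), hle (o : KI A).2⟩)
    {V : ValuationSubring F}
    (h1 : ∀ o : OL A (KI A), f o ∈ V)
    (h2 : (f ((p : ℕ) : OL A (KI A)))⁻¹ ∈ V) (b : KI A) :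
    cst ⟨(b : Qb), hle b.2⟩ ∈ V := by
  haveI := CD.dvr_KI hp hA
  by_cases hb : b = 0
  · have e : (⟨(b : Qb), hle b.2⟩ : L) = 0 := by
      rw [hb]
      rfl
    rw [e, map_zero]
    exact V.zero_mem
  obtain ⟨k, v, hv⟩ := CA.exists_zpow_unit (CD.prime_q hp hA) hb
  have e : cst ⟨(b : Qb), hle b.2⟩ =
      f ((p : ℕ) : OL A (KI A)) ^ k * f (v : OL A (KI A)) := by
    rw [OF, OF, ← map_zpow₀, ← map_mul]
    congr 1
    apply Subtype.ext
    have h3 := congrArg (fun z : KI A => (z : Qb)) hv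
    have h4 : ((algebraMap (OL A (KI A)) (KI A) ((p : ℕ) : OL A (KI A)) ^ k *
        algebraMap (OL A (KI A)) (KI A) (v : OL A (KI A)) : KI A) : Qb) =
        ((algebraMap (OL A (KI A)) (KI A) ((p : ℕ) : OL A (KI A)) : KI A) : Qb) ^ k *
        ((algebraMap (OL A (KI A)) (KI A) (v : OL A (KI A)) : KI A) : Qb) := by
      push_cast
      rfl
    refine h3.trans (h4.trans ?_)
    push_cast
    rfl
  rw [e]
  refine V.mul_mem _ _ ?_ (h1 _)
  cases k with
  | ofNat k => rw [Int.ofNat_eq_natCast, zpow_natCast]; exact pow_mem (h1 _) _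
  | negSucc k =>
    rw [zpow_negSucc, ← inv_pow]
    exact pow_mem h2 _

theorem L_mem_of {F : Type} [Field F] (cst : L →+* F) (hp : p.Prime) (hA : A.LiesOverPrime p)
    (hle : KI A ≤ L) {f : OL A (KI A) →+* F}
    (OF : ∀ o : OL A (KI A), f o = cst ⟨((o : KI A) : Qb), hle (o : KI A).2⟩)
    {V : ValuationSubring F}
    (h1 : ∀ o : OL A (KI A), f o ∈ V)
    (h2 : (f ((p : ℕ) : OL A (KI A)))⁻¹ ∈ V) (a : L) : cst a ∈ V := by
  have h3 : IsIntegral ℚ (a : Qb) := Algebra.IsIntegral.isIntegral (a : Qb)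
  obtain ⟨P, hP, hPa⟩ := h3
  have h4 : P.eval₂ (algebraMap ℚ L) a = 0 := by
    apply (algebraMap L Qb).injective
    rw [hom_eval₂, map_zero, ← IsScalarTower.algebraMap_eq]
    exact hPa
  refine Fermat.Agent.Geo.mem_valuationSubring_of_isIntegralElem V
    (cst.comp (algebraMap ℚ L)) (fun r => ?_) ⟨P, hP, ?_⟩
  · have h5 := KI_mem_of cst hp hA hle OF h1 h2 (algebraMap ℚ (KI A) r)
    exact h5
  · rw [← hom_eval₂, h4, map_zero]

theorem horDvd_of {F : Type} [Field F] [Algebra (OL A (KI A)) F] (cst : L →+* F) (hp : p.Prime)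
    (hA : A.LiesOverPrime p) (hle : KI A ≤ L)
    (OF : ∀ o : OL A (KI A), algebraMap (OL A (KI A)) F o =
      cst ⟨((o : KI A) : Qb), hle (o : KI A).2⟩)
    {m : ℕ} {z : F} (hz : ∀ V : ValuationSubring F, V ≠ ⊤ → (∀ a : L, cst a ∈ V) →
      ∃ f : F, f ≠ 0 ∧ f ^ m * z ∈ V ∧ (f ^ m * z)⁻¹ ∈ V)
    {c : L} (hc : c ≠ 0) {v : ℤ} {h : F} (e : z = cst c ^ v * h) :
    HorDvd ((p : ℕ) : OL A (KI A)) m h := by
  intro V hV h1 h2
  have hL := L_mem_of cst hp hA hle OF h1 h2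
  obtain ⟨f, hf0, hf1, hf2⟩ := hz V hV hL
  have hc0 : cst c ^ v ≠ 0 := by
    rw [← map_zpow₀, Ne, map_eq_zero]
    exact zpow_ne_zero v hc
  have k1 : (cst c ^ v)⁻¹ ∈ V := by
    rw [← map_zpow₀, ← map_inv₀]
    exact hL _
  have k2 : cst c ^ v ∈ V := by
    rw [← map_zpow₀]
    exact hL _
  rw [e] at hf1 hf2
  have e1 : f ^ m * h = (cst c ^ v)⁻¹ * (f ^ m * (cst c ^ v * h)) := by
    field_simp
  refine ⟨f, hf0, ?_, ?_⟩
  · rw [e1]
    exact V.mul_mem _ _ k1 hf1
  · rw [e1, mul_inv, inv_inv]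
    exact V.mul_mem _ _ k2 hf2

end

end Fermat.Agent.MP
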