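import Mathlib
import Fermat.Agent.MP.PW4

/-!
# Passage to `Qb`
-/

set_option autoImplicit false
set_option linter.unusedSectionVars false
set_option linter.unusedVariables false
set_option linter.style.haveILetI false

open IsLocalRing Polynomial IntermediateField

noncomputable section

namespace Fermat.Agent.MP

open Fermat.Agent.Geo Fermat.Agent.LG Fermat.Agent.CA Fermat.Agent.ModFun Fermat.Agent.PR
open Fermat.Agent.ESCore Fermat.Agent.Flat
open CongruenceSubgroup (Gamma0)

local notation "Qb" => AlgebraicClosure ℚ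

section

theorem gR_of_sub {O L E : Type} [CommRing O] [IsDomain O] [IsDiscreteValuationRing O] [Field L]
    [Algebra O L] [IsFractionRing O L] [Field E] {θ : E →+* LaurentSeries L}
    {hθ : ∀ x, θ x ∈ gK O L} {x : E} (hx : θ x ∈ gV O L) (h : x - 1 ∈ (gW θ hθ).nonunits) :
    gR (⟨θ x, hx⟩ : gV O L) = 1 := by
  have h1 : θ (x - 1) ∈ gV O L := (gW θ hθ).nonunits_le h
  have h2 : gR (⟨θ (x - 1), h1⟩ : gV O L) = 0 := (mem_nonunits_iff_gR h1).mp h
  have e : (⟨θ (x - 1), h1⟩ : gV O L) = ⟨θ x, hx⟩ - 1 := Subtype.ext (by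
    change θ (x - 1) = θ x - 1
    rw [map_sub, map_one])
  rw [e, map_sub, map_one, sub_eq_zero] at h2
  exact h2

variable {A : ValuationSubring Qb} {L : Type} [Field L] [Algebra L Qb]
  [IsDiscreteValuationRing (A.comap (algebraMap L Qb))] {N m : ℕ} [NeZero N]

theorem powRed_of (hm : 0 < m) {χ : Gamma0 N →* ℂˣ} {y : LaurentSeries L} (hy0 : y ≠ 0)
    (hy : XSer (ιC.comp (algebraMap L Qb)) N χ y) {c : L} (hc : c ≠ 0) {h g : F0 L N}
    (e : y ^ m = HahnSeries.C c * (h : LaurentSeries L))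
    (hu : UC (gW (O := A.comap (algebraMap L Qb)) (L := L) (F0 L N).val.toRingHom
      (fun x => F0_le_gK x.2)) h (g ^ m)) : PowRed A N m χ := by
  have hgm := hu.symm.rfl_left
  have hg0 : g ≠ 0 := by
    rintro rfl
    exact hgm.ne (zero_pow hm.ne')
  have h1 := hu.div hgm
  rw [div_self hgm.ne] at h1
  obtain ⟨hxA, hxR⟩ := mem_gA_of_gV (A := A) (L := L) (x := ((h / g ^ m : F0 L N) :
    LaurentSeries L)) h1.mem
  have h2 : gR (⟨((h / g ^ m : F0 L N) : LaurentSeries L), h1.mem⟩ :
      gV (A.comap (algebraMap L Qb)) L) = 1 := gR_of_sub h1.mem h1.sub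
  rw [h2, map_one] at hxR
  -- the constant
  have hcv : algebraMap L Qb c ≠ 0 := by rwa [Ne, map_eq_zero]
  obtain ⟨c', hc'⟩ := IsAlgClosed.exists_pow_nat_eq (algebraMap L Qb c)⁻¹ hm
  have hc'0 : c' ≠ 0 := by
    rintro rfl
    rw [zero_pow hm.ne'] at hc'
    exact inv_ne_zero hcv hc'.symm
  have hinj : Function.Injective (ModularCurve.coeffMap (algebraMap L Qb)) :=
    coeffMap_inj (algebraMap L Qb).injective
  refine ⟨HahnSeries.C c' * ModularCurve.coeffMap (algebraMap L Qb) y, ?_,
    CD.xSer_C_mul c' (hy.coeffMap (algebraMap L Qb) rfl),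
    ModularCurve.coeffMap (algebraMap L Qb) ((g⁻¹ : F0 L N) : LaurentSeries L),
    (F0map (algebraMap L Qb) N g⁻¹).2, ?_⟩
  · refine mul_ne_zero ?_ ?_
    · rw [Ne, ← map_zero HahnSeries.C, HahnSeries.C_injective.eq_iff]
      exact hc'0
    · rw [Ne, map_eq_zero_iff _ hinj]
      exact hy0
  · have key : ModularCurve.coeffMap (algebraMap L Qb) ((g⁻¹ : F0 L N) : LaurentSeries L) ^ m *
        (HahnSeries.C c' * ModularCurve.coeffMap (algebraMap L Qb) y) ^ m =
        ModularCurve.coeffMap (algebraMap L Qb) ((h / g ^ m : F0 L N) : LaurentSeries L) := by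
      have e1 : ((h / g ^ m : F0 L N) : LaurentSeries L) =
          ((g⁻¹ : F0 L N) : LaurentSeries L) ^ m * (h : LaurentSeries L) := by
        push_cast
        rw [inv_pow, div_eq_inv_mul]
      have e2 : ModularCurve.coeffMap (algebraMap L Qb) (HahnSeries.C c) =
          HahnSeries.C (algebraMap L Qb c) := ModularCurve.coeffMap_single _ _ _
      have e3 : (HahnSeries.C c' : LaurentSeries Qb) ^ m * HahnSeries.C (algebraMap L Qb c) = 1 := by
        rw [← map_pow, hc', ← map_mul, inv_mul_cancel₀ hcv, map_one]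
      rw [e1, map_mul, map_pow, mul_pow, ← map_pow (ModularCurve.coeffMap _) y, e, map_mul, e2,
        ← mul_assoc (HahnSeries.C _ ^ m), e3, one_mul]
    refine ⟨by rw [key]; exact hxA, ?_⟩
    rw [← hxR]
    congr 1
    exact Subtype.ext key

end

end Fermat.Agent.MP
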