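import Mathlib
import Fermat.Agent.MP.PW5

/-!
# The reductions of the Kummer generators are `p`-th powers
-/

set_option autoImplicit false
set_option linter.unusedSectionVars false
set_option linter.unusedVariables false
set_option linter.style.haveILetI false

open IsLocalRing Polynomial IntermediateField

noncomputable section

namespace Fermat.Agent.MP

open Fermat.Agent.Geo Fermat.Agent.LG Fermat.Agent.CA Fermat.Agent.ModFun Fermat.Agent.PR
open Fermat.Agent.ESCore Fermat.Agent.Flat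
open CongruenceSubgroup (Gamma0)

local notation "Qb" => AlgebraicClosure ℚ

theorem eq_gWF {A : ValuationSubring Qb} {L : IntermediateField ℚ Qb}
    [IsDiscreteValuationRing (OL A L)] {N : ℕ} [NeZero N] {P : ValuationSubring (F0 L N)}
    (h : ∀ x : F0 L N, x ∈ P ↔ (x : LaurentSeries L) ∈ gV (OL A L) L) : P = gWF A L N := by
  ext x
  rw [h, mem_gWF]

set_option maxHeartbeats 1000000 in
set_option synthInstance.maxHeartbeats 200000 in
theorem powRed_unr {A : ValuationSubring Qb} {p N : ℕ} [NeZero p] [NeZero N] (hp : p.Prime)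
    (h5 : 5 ≤ p) (h4 : 4 ∣ N) (hA : A.LiesOverPrime p) [IsDiscreteValuationRing (OL A (KI A))]
    (G : GeoData A (KI A) N p) (χ : XG N p) (hχ : IsPar χ.1)
    {y : LaurentSeries (KI A)} (hy0 : y ≠ 0) (hy : XSer (ιL (KI A)) N χ.1 y) :
    PowRed A N p χ.1 := by
  letI := algO (OL A (KI A)) (F0 (KI A) N)
  obtain ⟨K, i1, i2, i3, i4, i5, i6, t, ht, hπ, P₁, P₀, u, u', TC, hP1, hu, hz, κ, j1, j2, ρ, T,
    D⟩ := G
  obtain rfl : P₁ = gWF A (KI A) N := eq_gWF hP1
  haveI := (CD.ar_KI hp hA).isAlgClosed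
  haveI := Ar.charZero A (KI A)
  have h2 : IsUnit (2 : OL A (KI A)) := by
    have := (CD.ar_KI hp hA).isUnit_natCast (n := 2) (fun h => by
      have := Nat.le_of_dvd (by norm_num) h
      omega)
    simpa using this
  have hirr : Irreducible ((p : ℕ) : OL A (KI A)) := CD.irreducible_q hp hA
  set z : F0 (KI A) N := ⟨y ^ p, hy.pow_mem_F0 χ.2.1⟩ with hzdef
  have hz0 : z ≠ 0 := by
    intro h
    exact pow_ne_zero p hy0 (congrArg Subtype.val h)
  obtain ⟨v, h, hh1, hh2, e⟩ := PR.exists_zpow_unit (A := A) hirr hz0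
  have hp0 : ((((p : ℕ) : OL A (KI A)) : KI A)) ≠ 0 := by
    have := hirr.ne_zero
    simpa using this
  have hh0 : h ≠ 0 := by
    rintro rfl
    rw [mul_zero] at e
    exact hz0 e
  have hor : HorDvd ((p : ℕ) : OL A (KI A)) p h := by
    refine horDvd_of (algebraMap (KI A) (F0 (KI A) N)) hp hA le_rfl (fun o => rfl)
      (fun V hV hL => ?_) hp0 e
    exact exists_unit_of_isPar (ιL (KI A)) (noEll_of_four_dvd h4) hχ hp.pos χ.2.1 hy hy0 V hV hL
  obtain ⟨g, hg, hg2⟩ := red_pow_unr D TC hp h2 hu hz (UC.refl hh0 hh1 hh2) hor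
  refine powRed_of (L := KI A) (c := (((p : ℕ) : OL A (KI A)) : KI A) ^ v) hp.pos hy0 hy
    (zpow_ne_zero v hp0) (h := h) (g := g) ?_ hg2
  have e1 := congrArg (fun x : F0 (KI A) N => (x : LaurentSeries (KI A))) e
  refine e1.trans ?_
  change ((algebraMap (KI A) (F0 (KI A) N) (((p : ℕ) : OL A (KI A)) : KI A) ^ v * h :
    F0 (KI A) N) : LaurentSeries (KI A)) = _
  rw [← map_zpow₀]
  change ((algebraMap (KI A) (F0 (KI A) N) _ : F0 (KI A) N) : LaurentSeries (KI A)) *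
    (h : LaurentSeries (KI A)) = _
  rw [coe_algebraMap_L]

set_option maxHeartbeats 2000000 in
set_option synthInstance.maxHeartbeats 200000 in
theorem powRed_eis {A : ValuationSubring Qb} {p N : ℕ} [NeZero p] [NeZero N] (hp : p.Prime)
    (h5 : 5 ≤ p) (h4 : 4 ∣ N) (hA : A.LiesOverPrime p) [IsDiscreteValuationRing (OL A (KI A))]
    (G : GeoData A (KI A) N p) (χ : XG N p) (hχ : IsPar χ.1)
    {L₂ : IntermediateField ℚ Qb} (hle : KI A ≤ L₂) [IsDiscreteValuationRing (OL A L₂)]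
    {ϖ : OL A L₂} (hϖ : Irreducible ϖ)
    {y : LaurentSeries L₂} (hy0 : y ≠ 0) (hy : XSer (ιL L₂) N χ.1 y)
    {c : ℕ → OL A (KI A)}
    (hE : letI := algEF hle N
      letI := algEO A hle N
      EisExt (OL A (KI A)) (F0 (KI A) N) (E := F0 L₂ N)
          ((p : ℕ) : OL A (KI A)) p (algebraMap L₂ (F0 L₂ N) (ϖ : L₂)) c) :
    PowRed A N p χ.1 := by
  letI := algO (OL A (KI A)) (F0 (KI A) N)
  letI := algEF hle N
  letI := algEO A hle N
  haveI := tower_E A hle N
  obtain ⟨K, i1, i2, i3, i4, i5, i6, t, ht, hπ, P₁, P₀, u, u', TC, hP1, hu, hz, κ, j1, j2, ρ, T,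
    D⟩ := G
  obtain rfl : P₁ = gWF A (KI A) N := eq_gWF hP1
  haveI := (CD.ar_KI hp hA).isAlgClosed
  haveI := Ar.charZero A (KI A)
  have h2 : IsUnit (2 : OL A (KI A)) := by
    have := (CD.ar_KI hp hA).isUnit_natCast (n := 2) (fun h => by
      have := Nat.le_of_dvd (by norm_num) h
      omega)
    simpa using this
  set z : F0 L₂ N := ⟨y ^ p, hy.pow_mem_F0 χ.2.1⟩ with hzdef
  have hz0 : z ≠ 0 := by
    intro h
    exact pow_ne_zero p hy0 (congrArg Subtype.val h)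
  obtain ⟨v, h, hh1, hh2, e⟩ := PR.exists_zpow_unit (A := A) hϖ hz0
  have hp0 : (ϖ : L₂) ≠ 0 := by
    have := hϖ.ne_zero
    simpa using this
  have hh0 : h ≠ 0 := by
    rintro rfl
    rw [mul_zero] at e
    exact hz0 e
  have hor : HorDvd ((p : ℕ) : OL A (KI A)) p h := by
    refine horDvd_of (algebraMap L₂ (F0 L₂ N)) hp hA hle (fun o => rfl)
      (fun V hV hL => ?_) hp0 e
    exact exists_unit_of_isPar (ιL L₂) (noEll_of_four_dvd h4) hχ hp.pos χ.2.1 hy hy0 V hV hL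
  obtain ⟨g, hg, hg2⟩ := red_pow_eis D TC hp dvd_rfl h2 hu hz hE (V₁ := gWF A L₂ N)
    (fun x hx => coeffMap_gV_le A hle hx) (unif_mem_nonunits hϖ) (UC.refl hh0 hh1 hh2) hor
  rw [map_pow] at hg2
  refine powRed_of (L := L₂) (c := (ϖ : L₂) ^ v) hp.pos hy0 hy
    (zpow_ne_zero v hp0) (h := h) (g := algebraMap (F0 (KI A) N) (F0 L₂ N) g) ?_ hg2
  have e1 := congrArg (fun x : F0 L₂ N => (x : LaurentSeries L₂)) e
  refine e1.trans ?_
  change ((algebraMap L₂ (F0 L₂ N) (ϖ : L₂) ^ v * h : F0 L₂ N) : LaurentSeries L₂) = _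
  rw [← map_zpow₀]
  change ((algebraMap L₂ (F0 L₂ N) _ : F0 L₂ N) : LaurentSeries L₂) *
    (h : LaurentSeries L₂) = _
  rw [coe_algebraMap_L]

theorem pw_of_geo
    (hG : ∀ {p N : ℕ} [NeZero p] [NeZero N] (hp : p.Prime) (_ : 5 ≤ p) (_ : N = p * 4)
      {A : ValuationSubring Qb} (hA : A.LiesOverPrime p),
      haveI := CD.dvr_KI hp hA
      GeoData A (KI A) N p) : PWProp := by
  intro p N _ _ hp h5 hN A hA χ hχ hP
  haveI := CD.dvr_KI hp hA
  have h4 : 4 ∣ N := hN ▸ Dvd.intro_left p rfl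
  have G := hG hp h5 hN hA
  rcases hP with hfix | ⟨⟨T, hT, h1, -⟩, η, hfix, hval, hmov⟩
  · obtain ⟨y, hy0, hy⟩ := CD.exists_xSer_KI hp.pos χ hfix
    exact powRed_unr hp h5 h4 hA G χ hχ hy0 hy
  · classical
    haveI : Finite T := Nat.finite_of_card_ne_zero (by rw [hT]; exact hp.ne_zero)
    haveI := Fintype.ofFinite T
    obtain ⟨L₂, hle, ϖ, hdvr, hϖη, hϖ, ⟨y, hy0, hy⟩, hE⟩ := exists_eta_package hp (by omega) hA
      hp.pos χ (η := η) (Finset.image (fun τ : T => τ.1 * χ) Finset.univ)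
      (Finset.card_image_le.trans (by rw [Finset.card_univ, ← Nat.card_eq_fintype_card, hT]))
      (fun σ hσ => Finset.mem_image.mpr ⟨⟨_, h1 σ hσ⟩, Finset.mem_univ _, by
        change galX N hp.pos σ χ * χ⁻¹ * χ = _
        rw [inv_mul_cancel_right]⟩) hfix hval hmov
    haveI := hdvr
    obtain ⟨c, hc⟩ := hE N
    exact powRed_eis hp h5 h4 hA G χ hχ hle hϖ hy0 hy hc

end Fermat.Agent.MP
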