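import Mathlib
import Fermat.Agent.MP.PW6
import Fermat.Agent.PR.GeoF

/-!
# (PW)
-/

set_option autoImplicit false

namespace Fermat.Agent.MP

/-- **(PW)** -/
theorem pwProp : PWProp :=
  pw_of_geo fun hp h5 hN _ hA =>
    haveI := Fermat.Agent.CD.dvr_KI hp hA
    Fermat.Agent.PR.geoData hp h5 hA hN

end Fermat.Agent.MP
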